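import Mathlib
import Fermat.Prelude.Def_FLTPrelim_Ramification
import Fermat.Agent.S54.Frobenius

/-!
# A Minkowski-type lemma for subgroups of the absolute Galois group of `ℚ`

Main results (all for `L = AlgebraicClosure ℚ`, `G = Gal(L/ℚ)`):

* `Fermat.Agent.S13.mem_inertiaSubgroupIn_iff`: membership in the inertia subgroup of a
  valuation subring, in elementary terms.
* `Fermat.Agent.S13.exists_mem_inertia_of_mem_inertia`: an automorphism of a finite normal
  subextension which is trivial modulo the valuation ideal lifts to an element of the inertia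
  subgroup.
* `Fermat.Agent.S13.eq_top_of_inertia_le`: a normal subgroup `H` of `G` containing the fixing
  subgroup of a finite extension and, for every prime `q`, the inertia subgroup of some
  valuation subring over `q`, is the whole group (there is no nontrivial everywhere unramified
  extension of `ℚ`).
-/

set_option autoImplicit false

noncomputable section

namespace Fermat.Agent.S13.MINK

open scoped NumberField Pointwise

/-- Elements integral over `ℤ` lie in every valuation subring. -/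
theorem mem_valuationSubring_of_isIntegral {L : Type*} [Field L] (V : ValuationSubring L) {x : L}
    (hx : IsIntegral ℤ x) : x ∈ V := by
  have h1 : IsIntegral V x := hx.tower_top
  obtain ⟨y, hy⟩ := (IsIntegrallyClosed.isIntegral_iff (R := V) (K := L)).1 h1
  rw [← hy]
  exact y.2

/-- Elementary description of the inertia subgroup of a valuation subring. -/
theorem mem_inertiaSubgroupIn_iff {K L : Type*} [Field K] [Field L] [Algebra K L]
    (A : ValuationSubring L) (σ : L ≃ₐ[K] L) :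
    σ ∈ A.inertiaSubgroupIn K ↔
      σ ∈ A.decompositionSubgroup K ∧ ∀ x : L, x ∈ A → σ x - x ∈ A.nonunits := by
  constructor
  · rintro ⟨g, hg, rfl⟩
    refine ⟨g.2, fun x hx => ?_⟩
    have h1 : ∀ y : IsLocalRing.ResidueField A, g • y = y := fun y =>
      congrArg (fun f : RingAut (IsLocalRing.ResidueField A) => f y) (MonoidHom.mem_ker.1 hg)
    have h2 := h1 (IsLocalRing.residue A ⟨x, hx⟩)
    rw [← IsLocalRing.ResidueField.residue_smul, ← sub_eq_zero, ← map_sub,
      IsLocalRing.residue_eq_zero_iff, ValuationSubring.valuation_lt_one_iff] at h2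
    exact h2
  · rintro ⟨hσ, h⟩
    refine ⟨⟨σ, hσ⟩, ?_, rfl⟩
    refine MonoidHom.mem_ker.2 ?_
    ext y
    obtain ⟨x, rfl⟩ := IsLocalRing.residue_surjective y
    show (⟨σ, hσ⟩ : A.decompositionSubgroup K) • IsLocalRing.residue A x = IsLocalRing.residue A x
    rw [← IsLocalRing.ResidueField.residue_smul, ← sub_eq_zero, ← map_sub,
      IsLocalRing.residue_eq_zero_iff, ValuationSubring.valuation_lt_one_iff]
    exact h x x.2

/-- The prime ideal of the ring of integers cut out by a valuation subring. -/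
def idealOf {L : Type*} [Field L] (A : ValuationSubring L) : Ideal (𝓞 L) where
  carrier := {b | (b : L) ∈ A.nonunits}
  add_mem' := fun {a b} ha hb => by
    show algebraMap (𝓞 L) L (a + b) ∈ A.nonunits
    rw [map_add]
    exact A.nonunits.add_mem ha hb
  zero_mem' := by
    show algebraMap (𝓞 L) L 0 ∈ A.nonunits
    rw [map_zero]
    exact A.nonunits.zero_mem
  smul_mem' := fun c x hx => by
    show algebraMap (𝓞 L) L (c * x) ∈ A.nonunits
    rw [map_mul]
    exact Fermat.Agent.S54.mul_mem_nonunits A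
      (mem_valuationSubring_of_isIntegral A (NumberField.RingOfIntegers.isIntegral_coe c)) hx

theorem mem_idealOf {L : Type*} [Field L] (A : ValuationSubring L) (b : 𝓞 L) :
    b ∈ idealOf A ↔ algebraMap (𝓞 L) L b ∈ A.nonunits := Iff.rfl

instance idealOf_isPrime {L : Type*} [Field L] (A : ValuationSubring L) : (idealOf A).IsPrime := by
  refine ⟨?_, ?_⟩
  · intro h
    have h1 : (1 : 𝓞 L) ∈ idealOf A := by rw [h]; exact Submodule.mem_top
    rw [mem_idealOf, map_one, ValuationSubring.mem_nonunits_iff, map_one] at h1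
    exact lt_irrefl _ h1
  · intro x y hxy
    by_contra hcon
    push Not at hcon
    obtain ⟨hx, hy⟩ := hcon
    rw [mem_idealOf] at hx hy hxy
    have hx1 := Fermat.Agent.S54.valuation_eq_one_of_mem A
      (mem_valuationSubring_of_isIntegral A (NumberField.RingOfIntegers.isIntegral_coe x)) hx
    have hy1 := Fermat.Agent.S54.valuation_eq_one_of_mem A
      (mem_valuationSubring_of_isIntegral A (NumberField.RingOfIntegers.isIntegral_coe y)) hy
    rw [map_mul, ValuationSubring.mem_nonunits_iff, map_mul, hx1, hy1, one_mul] at hxy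
    exact lt_irrefl _ hxy

local notation "Qbar" => AlgebraicClosure ℚ

theorem isAlgebraic_int_qbar (x : Qbar) : IsAlgebraic ℤ x :=
  (IsFractionRing.isAlgebraic_iff ℤ ℚ Qbar).2 (Algebra.IsAlgebraic.isAlgebraic x)

/-- An automorphism moving every algebraic integer by an element of the valuation ideal moves
every element of the valuation ring by an element of the valuation ideal. -/
theorem map_sub_mem_nonunits_of_forall_isIntegral (A : ValuationSubring Qbar) (q : ℕ)
    (hq : q.Prime) (hA : A.LiesOverPrime q) (σ : Qbar ≃ₐ[ℚ] Qbar)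
    (h : ∀ x : Qbar, IsIntegral ℤ x → σ x - x ∈ A.nonunits) (x : Qbar) (hx : x ∈ A) :
    σ x - x ∈ A.nonunits := by
  obtain ⟨s, hs, hsV, hxs⟩ :=
    Fermat.Agent.S54.exists_denominator A q hq hA x hx (isAlgebraic_int_qbar x)
  have hσs : A.valuation (σ s) = 1 := by
    refine Fermat.Agent.S54.valuation_eq_one_of_mem A
      (mem_valuationSubring_of_isIntegral A (hs.map σ)) ?_
    intro hmem
    apply hsV
    have h1 := A.nonunits.sub_mem hmem (h s hs)
    simpa using h1
  have h1 : A.valuation (σ x - x) = A.valuation ((σ x - x) * σ s) := by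
    rw [map_mul, hσs, mul_one]
  have h2 : (σ x - x) * σ s = (σ (x * s) - x * s) - x * (σ s - s) := by
    rw [map_mul]; ring
  rw [ValuationSubring.mem_nonunits_iff, h1, h2, ← ValuationSubring.mem_nonunits_iff]
  exact A.nonunits.sub_mem (h _ hxs) (Fermat.Agent.S54.mul_mem_nonunits A hx (h s hs))

/-- An automorphism moving every algebraic integer by an element of the valuation ideal lies in
the inertia subgroup. -/
theorem mem_inertiaSubgroupIn_of_forall_isIntegral (A : ValuationSubring Qbar) (q : ℕ)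
    (hq : q.Prime) (hA : A.LiesOverPrime q) (σ : Qbar ≃ₐ[ℚ] Qbar)
    (h : ∀ x : Qbar, IsIntegral ℤ x → σ x - x ∈ A.nonunits) : σ ∈ A.inertiaSubgroupIn ℚ := by
  have h' : ∀ x : Qbar, IsIntegral ℤ x → σ⁻¹ x - x ∈ A.nonunits := by
    intro x hx
    have h1 := h (σ⁻¹ x) (hx.map σ⁻¹)
    have h2 : σ (σ⁻¹ x) = x := σ.apply_symm_apply x
    rw [h2] at h1
    have h3 := A.nonunits.neg_mem h1
    simpa using h3
  have key : ∀ τ : Qbar ≃ₐ[ℚ] Qbar, (∀ x : Qbar, IsIntegral ℤ x → τ x - x ∈ A.nonunits) →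
      ∀ x : Qbar, x ∈ A → τ x ∈ A := by
    intro τ hτ x hx
    have h1 := map_sub_mem_nonunits_of_forall_isIntegral A q hq hA τ hτ x hx
    have h2 : τ x = (τ x - x) + x := by ring
    rw [h2]
    exact A.add_mem _ _ (ValuationSubring.nonunits_subset h1) hx
  rw [mem_inertiaSubgroupIn_iff]
  refine ⟨?_, map_sub_mem_nonunits_of_forall_isIntegral A q hq hA σ h⟩
  rw [ValuationSubring.decompositionSubgroup, MulAction.mem_stabilizer_iff]
  apply SetLike.ext
  intro x
  rw [ValuationSubring.mem_pointwise_smul_iff_inv_smul_mem]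
  constructor
  · intro hx
    have h1 := key σ h _ hx
    have h2 : σ (σ⁻¹ • x) = x := by
      show σ • (σ⁻¹ • x) = x
      exact smul_inv_smul _ _
    rwa [h2] at h1
  · intro hx
    exact key σ⁻¹ h' x hx

/-- Lifting lemma: an automorphism `τ` of a normal subextension `K` of `Qbar/ℚ` which moves
every integer of `K` by an element of the valuation ideal of `A` is the restriction of an
element of the inertia subgroup of `A`. -/
theorem exists_mem_inertia_of_mem_inertia (K : IntermediateField ℚ Qbar) [Normal ℚ K]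
    (A : ValuationSubring Qbar) (q : ℕ) (hq : q.Prime) (hA : A.LiesOverPrime q) (τ : K ≃ₐ[ℚ] K)
    (hτ : ∀ x : K, IsIntegral ℤ x → ((τ x : K) : Qbar) - (x : Qbar) ∈ A.nonunits) :
    ∃ σ : Qbar ≃ₐ[ℚ] Qbar, σ ∈ A.inertiaSubgroupIn ℚ ∧
      ∀ x : K, σ (x : Qbar) = ((τ x : K) : Qbar) := by
  classical
  obtain ⟨σ₀, hσ₀⟩ := AlgEquiv.restrictNormalHom_surjective (F := ℚ) (K₁ := K) Qbar τ
  have hσ₀K : ∀ x : K, σ₀ (x : Qbar) = ((τ x : K) : Qbar) := by
    intro x
    rw [← hσ₀]
    exact (AlgEquiv.restrictNormal_commutes σ₀ K x).symm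
  have hσ₀K' : ∀ x : K, σ₀⁻¹ (x : Qbar) = ((τ.symm x : K) : Qbar) := by
    intro x
    apply σ₀.injective
    rw [hσ₀K, AlgEquiv.apply_symm_apply]
    exact σ₀.apply_symm_apply _
  let B := 𝓞 Qbar
  let Γ := Qbar ≃ₐ[K] Qbar
  let Q : Ideal B := idealOf A
  let _ : TopologicalSpace B := ⊥
  have : DiscreteTopology B := ⟨rfl⟩
  have : SMulCommClass Γ (𝓞 K) B := ⟨fun g r b => by
    apply NumberField.RingOfIntegers.ext
    show g (algebraMap B Qbar (r • b)) = algebraMap B Qbar (r • (g • b))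
    rw [Algebra.smul_def, Algebra.smul_def, map_mul, map_mul, map_mul]
    congr 1
    exact g.commutes (algebraMap (𝓞 K) K r)⟩
  have : ContinuousSMul Γ B := by
    rw [continuousSMul_iff_stabilizer_isOpen]
    intro b
    have h1 := stabilizer_isOpen_of_isIntegral (K := K) (L := Qbar) (b : Qbar)
    convert h1 using 1
    ext g
    rw [SetLike.mem_coe, SetLike.mem_coe, MulAction.mem_stabilizer_iff,
      MulAction.mem_stabilizer_iff, NumberField.RingOfIntegers.ext_iff]
    rfl
  have : Algebra.IsInvariant (𝓞 K) B Γ := ⟨fun b hb => by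
    have h1 : (b : Qbar) ∈ Set.range (algebraMap K Qbar) :=
      (InfiniteGalois.mem_range_algebraMap_iff_fixed (b : Qbar)).2
        fun g => congrArg (fun x : B => (x : Qbar)) (hb g)
    obtain ⟨k, hk⟩ := h1
    have h2 : IsIntegral ℤ k := by
      have h3 : IsIntegral ℤ (algebraMap K Qbar k) :=
        hk ▸ NumberField.RingOfIntegers.isIntegral_coe b
      exact (isIntegral_algebraMap_iff (algebraMap K Qbar).injective).1 h3
    exact ⟨⟨k, h2⟩, NumberField.RingOfIntegers.ext hk⟩⟩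
  -- Step 4: move `σ₀ • Q` back to `Q` by an element of `Γ`
  let P₂ : Ideal B := Q.comap (MulSemiringAction.toRingHom (Qbar ≃ₐ[ℚ] Qbar) B σ₀⁻¹)
  have hP₂ : ∀ b : B, b ∈ P₂ ↔ σ₀⁻¹ (b : Qbar) ∈ A.nonunits := fun b => Iff.rfl
  have hunder : Q.under (𝓞 K) = P₂.under (𝓞 K) := by
    ext r
    show algebraMap (𝓞 K) B r ∈ Q ↔ algebraMap (𝓞 K) B r ∈ P₂
    rw [hP₂, mem_idealOf]
    show (((r : K) : Qbar)) ∈ A.nonunits ↔ σ₀⁻¹ (((r : K) : Qbar)) ∈ A.nonunits
    rw [hσ₀K']
    have h1 := hτ (τ.symm (r : K)) ((NumberField.RingOfIntegers.isIntegral_coe r).map τ.symm)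
    rw [AlgEquiv.apply_symm_apply] at h1
    constructor
    · intro h2
      have h3 := A.nonunits.sub_mem h2 h1
      simpa using h3
    · intro h2
      have h3 := A.nonunits.add_mem h1 h2
      simpa using h3
  obtain ⟨g, hg⟩ := Algebra.IsInvariant.exists_smul_of_under_eq_of_profinite (A := 𝓞 K) (G := Γ)
    Q P₂ hunder
  have hg' : ∀ b : B, σ₀⁻¹ (b : Qbar) ∈ A.nonunits ↔ g⁻¹ (b : Qbar) ∈ A.nonunits := by
    intro b
    rw [← hP₂, hg, Ideal.mem_pointwise_smul_iff_inv_smul_mem]
    rfl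
  let σ₁ : Qbar ≃ₐ[ℚ] Qbar := (g⁻¹).restrictScalars ℚ * σ₀
  have hσ₁K : ∀ x : K, σ₁ (x : Qbar) = ((τ x : K) : Qbar) := by
    intro x
    show g⁻¹ (σ₀ (x : Qbar)) = _
    rw [hσ₀K]
    exact g⁻¹.commutes (τ x)
  have hσ₁Q : ∀ b : Qbar, IsIntegral ℤ b → (σ₁ b ∈ A.nonunits ↔ b ∈ A.nonunits) := by
    intro b hb
    have h1 := hg' ⟨σ₀ b, hb.map σ₀⟩
    have h2 : σ₀⁻¹ (algebraMap B Qbar ⟨σ₀ b, hb.map σ₀⟩) = b := σ₀.symm_apply_apply b
    rw [h2] at h1
    exact h1.symm
  -- Step 6: make the action on `B ⧸ Q` trivial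
  let P₀ : Ideal (𝓞 K) := Q.under (𝓞 K)
  have : Q.LiesOver P₀ := ⟨rfl⟩
  let e₁ : B ≃+* B := MulSemiringAction.toRingEquiv (Qbar ≃ₐ[ℚ] Qbar) B σ₁
  have he₁ : ∀ b : B, algebraMap B Qbar (e₁ b) = σ₁ (algebraMap B Qbar b) := fun b => rfl
  have hQe : Q = Q.map (e₁ : B →+* B) := by
    ext b
    rw [Ideal.map_comap_of_equiv, Ideal.mem_comap]
    have h1 := hσ₁Q (algebraMap B Qbar (e₁.symm b))
      (NumberField.RingOfIntegers.isIntegral_coe (e₁.symm b))
    rw [← he₁, e₁.apply_symm_apply] at h1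
    exact h1
  let φ₀ : B ⧸ Q ≃+* B ⧸ Q := Ideal.quotientEquiv Q Q e₁ hQe
  have hφ₀ : ∀ x : 𝓞 K ⧸ P₀,
      φ₀ (algebraMap (𝓞 K ⧸ P₀) (B ⧸ Q) x) = algebraMap (𝓞 K ⧸ P₀) (B ⧸ Q) x := by
    intro x
    obtain ⟨r, rfl⟩ := Ideal.Quotient.mk_surjective x
    rw [Ideal.Quotient.algebraMap_mk_of_liesOver]
    show Ideal.Quotient.mk Q (e₁ (algebraMap (𝓞 K) B r)) = _
    rw [Ideal.Quotient.eq, mem_idealOf, map_sub, he₁]
    show σ₁ (((r : K)) : Qbar) - ((r : K) : Qbar) ∈ A.nonunits
    rw [hσ₁K]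
    exact hτ _ (NumberField.RingOfIntegers.isIntegral_coe r)
  let φ : (B ⧸ Q) ≃ₐ[𝓞 K ⧸ P₀] (B ⧸ Q) := AlgEquiv.ofRingEquiv (f := φ₀) hφ₀
  obtain ⟨h, hh⟩ := Ideal.Quotient.stabilizerHom_surjective_of_profinite (G := Γ) P₀ Q φ
  have hh1 : ∀ b : B, (h : Γ) • b - e₁ b ∈ Q := by
    intro b
    have h1 : Ideal.Quotient.stabilizerHom Q P₀ Γ h (Ideal.Quotient.mk Q b) =
        φ (Ideal.Quotient.mk Q b) := by rw [hh]
    rw [Ideal.Quotient.stabilizerHom_apply] at h1
    exact Ideal.Quotient.eq.mp h1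
  have hhQ : ∀ b : B, (h : Γ)⁻¹ • b ∈ Q ↔ b ∈ Q := by
    intro b
    have h1 : (h : Γ) • Q = Q := h.2
    rw [← Ideal.mem_pointwise_smul_iff_inv_smul_mem, h1]
  -- Step 7
  let σ : Qbar ≃ₐ[ℚ] Qbar := ((h : Γ)⁻¹).restrictScalars ℚ * σ₁
  have hσK : ∀ x : K, σ (x : Qbar) = ((τ x : K) : Qbar) := by
    intro x
    show (h : Γ)⁻¹ (σ₁ (x : Qbar)) = _
    rw [hσ₁K]
    exact (h : Γ)⁻¹.commutes (τ x)
  have hσint : ∀ x : Qbar, IsIntegral ℤ x → σ x - x ∈ A.nonunits := by
    intro x hx
    let b : B := ⟨x, hx⟩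
    have h1 := hh1 b
    have h2 := (hhQ _).2 (Q.neg_mem h1)
    have h3 : algebraMap B Qbar ((h : Γ)⁻¹ • (-((h : Γ) • b - e₁ b))) = σ x - x := by
      show (h : Γ)⁻¹ (algebraMap B Qbar (-((h : Γ) • b - e₁ b))) = (h : Γ)⁻¹ (σ₁ x) - x
      rw [map_neg, map_sub, map_neg, map_sub]
      have h4 : (h : Γ)⁻¹ (algebraMap B Qbar ((h : Γ) • b)) = x :=
        (h : Γ).symm_apply_apply x
      have h5 : algebraMap B Qbar (e₁ b) = σ₁ x := rfl
      rw [h4, h5]
      ring
    rw [← h3]
    exact h2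
  exact ⟨σ, mem_inertiaSubgroupIn_of_forall_isIntegral A q hq hA σ hσint, hσK⟩

/-- Every rational prime lies under some valuation subring of `Qbar`. -/
theorem exists_valuationSubring_liesOverPrime (q : ℕ) (hq : q.Prime) :
    ∃ A : ValuationSubring Qbar, A.LiesOverPrime q := by
  obtain ⟨A, σ, hA, -⟩ := Fermat.Agent.S54.exists_frobenius q hq
  exact ⟨A, hA⟩

/-- **Minkowski-type lemma.** A normal subgroup `H` of `Gal(Qbar/ℚ)` which contains the fixing
subgroup of a finite extension `F` of `ℚ` and, for every prime `q`, the inertia subgroup of some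
valuation subring over `q`, is everything: its fixed field is everywhere unramified, hence
equal to `ℚ`. -/
theorem eq_top_of_inertia_le (H : Subgroup (Qbar ≃ₐ[ℚ] Qbar)) [H.Normal]
    (F : IntermediateField ℚ Qbar) [FiniteDimensional ℚ F] (hF : F.fixingSubgroup ≤ H)
    (hunr : ∀ q : ℕ, q.Prime → ∃ A : ValuationSubring Qbar, A.LiesOverPrime q ∧
      A.inertiaSubgroupIn ℚ ≤ H) : H = ⊤ := by
  classical
  let K : IntermediateField ℚ Qbar := IntermediateField.fixedField H
  have hKF : K ≤ F := by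
    have h1 := IntermediateField.fixedField_le hF
    rwa [InfiniteGalois.fixedField_fixingSubgroup] at h1
  have : FiniteDimensional ℚ K :=
    FiniteDimensional.of_injective (IntermediateField.inclusion hKF).toLinearMap
      (IntermediateField.inclusion hKF).injective
  have hnorm : Normal ℚ K := by
    have h0 : @Normal ℚ K _ _ (IntermediateField.algebra' K) := by
      rw [IntermediateField.normal_iff_forall_map_le']
      intro σ x hx
      obtain ⟨y, hy, rfl⟩ := hx
      rw [IntermediateField.mem_fixedField_iff]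
      intro h hh
      have h1 : σ⁻¹ * h * σ⁻¹⁻¹ ∈ H := Subgroup.Normal.conj_mem inferInstance h hh σ⁻¹
      rw [inv_inv] at h1
      have h2 := (IntermediateField.mem_fixedField_iff _ _).1 hy _ h1
      have h3 : σ (σ⁻¹ (h (σ y))) = h (σ y) := σ.apply_symm_apply _
      show h (σ y) = σ y
      rw [← h3]
      exact congrArg σ h2
    have halg : (IntermediateField.algebra' K : Algebra ℚ K) = DivisionRing.toRatAlgebra :=
      Subsingleton.elim _ _
    rw [← halg]
    exact h0
  have hclosed : IsClosed (H : Set (Qbar ≃ₐ[ℚ] Qbar)) :=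
    Subgroup.isClosed_of_isOpen H
      (Subgroup.isOpen_mono hF (IntermediateField.fixingSubgroup_isOpen F))
  have hHK : K.fixingSubgroup = H :=
    InfiniteGalois.fixingSubgroup_fixedField (⟨H, hclosed⟩ : ClosedSubgroup (Qbar ≃ₐ[ℚ] Qbar))
  by_cases hrank : Module.finrank ℚ K = 1
  · have hbot : K = ⊥ := IntermediateField.finrank_eq_one_iff.1 hrank
    rw [← hHK, hbot, IntermediateField.fixingSubgroup_bot]
  · exfalso
    have h1 : 1 < Module.finrank ℚ K := by
      have h0 := Module.finrank_pos (R := ℚ) (M := K)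
      omega
    have : NumberField K := NumberField.mk
    have : IsGalois ℚ K := ⟨⟩
    obtain ⟨p, hp, hram⟩ :=
      NumberField.exists_not_isUnramifiedAt_int_of_isGalois (K := K) (𝒪 := 𝓞 K) h1
    obtain ⟨A, hA, hAH⟩ := hunr p hp
    let P : Ideal (𝓞 K) := (idealOf A).under (𝓞 K)
    have hpP : (p : 𝓞 K) ∈ P := by
      show algebraMap (𝓞 K) (𝓞 Qbar) (p : 𝓞 K) ∈ idealOf A
      rw [mem_idealOf, map_natCast, map_natCast]
      exact hA
    apply hram P inferInstance hpP
    have hinert : ∀ τ : K ≃ₐ[ℚ] K, τ ∈ Ideal.inertia (K ≃ₐ[ℚ] K) P → τ = 1 := by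
      intro τ hτ
      have hτ' : ∀ x : K, IsIntegral ℤ x → ((τ x : K) : Qbar) - (x : Qbar) ∈ A.nonunits := by
        intro x hx
        exact hτ ⟨x, hx⟩
      obtain ⟨σ, hσ, hσK⟩ := exists_mem_inertia_of_mem_inertia K A p hp hA τ hτ'
      have hσH : σ ∈ H := hAH hσ
      ext x
      have h2 : σ (x : Qbar) = x := (IntermediateField.mem_fixedField_iff _ _).1 x.2 σ hσH
      rw [hσK] at h2
      exact h2
    have := IsGaloisGroup.of_isFractionRing (K ≃ₐ[ℚ] K) ℤ (𝓞 K) ℚ K
    have hcard : Nat.card (Ideal.inertia (K ≃ₐ[ℚ] K) P) = 1 := by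
      have hbot : Ideal.inertia (K ≃ₐ[ℚ] K) P = ⊥ := by
        rw [Subgroup.eq_bot_iff_forall]
        exact hinert
      rw [hbot]
      exact Subgroup.card_bot
    rw [← Ideal.ramificationIdx_eq_one_iff,
      ← Ideal.ramificationIdxIn_eq_ramificationIdx (P.under ℤ) P (K ≃ₐ[ℚ] K),
      ← Ideal.card_inertia_eq_ramificationIdxIn (G := (K ≃ₐ[ℚ] K)) (P.under ℤ) P]
    exact hcard

end Fermat.Agent.S13.MINK
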