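import Fermat.Agent.S13.Defs
import Fermat.Agent.S05.Glue
import Fermat.Agent.S54.Frobenius

/-! # Valuation subrings of `ℚ̄`, inertia, Galois action on points (task VAL) -/

set_option autoImplicit false

open WeierstrassCurve WeierstrassCurve.Affine WeierstrassCurve.Affine.Point

namespace Fermat.Agent.S13

variable (A : ValuationSubring Qb)

theorem intCast_mem (n : ℤ) : (n : Qb) ∈ A :=
  _root_.intCast_mem A n

theorem valuation_prime_lt_one {ℓ : ℕ} (hA : A.LiesOverPrime ℓ) : A.valuation (ℓ : Qb) < 1 :=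
  (ValuationSubring.mem_nonunits_iff A).1 hA

theorem valuation_prime_ne_zero {ℓ : ℕ} (hℓ : ℓ.Prime) : A.valuation (ℓ : Qb) ≠ 0 :=
  (Valuation.ne_zero_iff _).2 (Nat.cast_ne_zero.2 hℓ.ne_zero)

theorem valuation_intCast_eq_one {ℓ : ℕ} (hA : A.LiesOverPrime ℓ) (hℓ : ℓ.Prime) (n : ℤ)
    (hn : ¬ (ℓ : ℤ) ∣ n) : A.valuation (n : Qb) = 1 :=
  Fermat.Agent.S05.val_intCast_eq_one_of_not_dvd A hℓ (valuation_prime_lt_one A hA) hn

/-- Exact form for integers: `v(n) = v(ℓ)^(padicValInt ℓ n)`. -/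
theorem valuation_intCast {ℓ : ℕ} (hA : A.LiesOverPrime ℓ) (hℓ : ℓ.Prime) (n : ℤ) (hn : n ≠ 0) :
    A.valuation (n : Qb) = A.valuation (ℓ : Qb) ^ (padicValInt ℓ n) := by
  have : Fact ℓ.Prime := ⟨hℓ⟩
  obtain ⟨k, hk⟩ : ∃ k : ℕ, k = padicValInt ℓ n := ⟨_, rfl⟩
  rw [← hk]
  have hdvd : (ℓ : ℤ) ^ k ∣ n := hk ▸ padicValInt_dvd (p := ℓ) n
  obtain ⟨m, hm⟩ := hdvd
  have hm' : ¬ (ℓ : ℤ) ∣ m := by
    rintro ⟨r, hr⟩
    have h1 : (ℓ : ℤ) ^ (k + 1) ∣ n := ⟨r, by rw [hm, hr]; ring⟩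
    rcases (padicValInt_dvd_iff (p := ℓ) _ n).1 h1 with h0 | h2
    · exact hn h0
    · omega
  have h3 : (n : Qb) = (ℓ : Qb) ^ k * (m : Qb) := by
    rw [hm]
    push_cast
    ring
  rw [h3, map_mul, map_pow, valuation_intCast_eq_one A hA hℓ m hm', mul_one]

/-- The valuation of a nonzero rational number is an integer power of the valuation of `ℓ`. -/
theorem valuation_rat {ℓ : ℕ} (hA : A.LiesOverPrime ℓ) (hℓ : ℓ.Prime) (q : ℚ) (hq : q ≠ 0) :
    ∃ k : ℤ, A.valuation (algebraMap ℚ Qb q) = A.valuation (ℓ : Qb) ^ k := by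
  have hnum : q.num ≠ 0 := Rat.num_ne_zero.2 hq
  have hden : (q.den : ℤ) ≠ 0 := by exact_mod_cast q.den_nz
  have h1 : algebraMap ℚ Qb q = (q.num : Qb) / ((q.den : ℤ) : Qb) := by
    conv_lhs => rw [← Rat.num_div_den q]
    rw [map_div₀, map_intCast, map_natCast]
    push_cast
    rfl
  refine ⟨(padicValInt ℓ q.num : ℤ) - (padicValInt ℓ (q.den : ℤ) : ℤ), ?_⟩
  rw [h1, map_div₀, valuation_intCast A hA hℓ _ hnum, valuation_intCast A hA hℓ _ hden,
    zpow_sub₀ (valuation_prime_ne_zero A hℓ), zpow_natCast, zpow_natCast]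

theorem valuation_prime_zpow_injective {ℓ : ℕ} (hA : A.LiesOverPrime ℓ) (hℓ : ℓ.Prime) (a b : ℤ)
    (h : A.valuation (ℓ : Qb) ^ a = A.valuation (ℓ : Qb) ^ b) : a = b := by
  have h0 : (0 : A.ValueGroup) < A.valuation (ℓ : Qb) :=
    zero_lt_iff.2 (valuation_prime_ne_zero A hℓ)
  have h1 : A.valuation (ℓ : Qb) ≠ 1 := (valuation_prime_lt_one A hA).ne
  exact zpow_right_injective₀ h0 h1 h

/-- Unpacking the (Prelude) inertia subgroup. -/
theorem inertia_mem {σ : GQ} (hσ : σ ∈ A.inertiaSubgroupIn ℚ) (a : Qb) (ha : a ∈ A) :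
    σ a ∈ A ∧ σ a - a ∈ A.nonunits := by
  have h1 : A.valuation (σ a - a) < 1 :=
    Fermat.Agent.S05.inertia_congr A σ hσ a ((A.valuation_le_one_iff a).2 ha)
  have h2 : σ a - a ∈ A.nonunits := (ValuationSubring.mem_nonunits_iff A).2 h1
  have h3 : σ a - a ∈ A := (A.valuation_le_one_iff _).1 h1.le
  refine ⟨?_, h2⟩
  have : σ a = (σ a - a) + a := by ring
  rw [this]
  exact A.add_mem _ _ h3 ha

namespace VAL

/-- Inertia preserves the maximal ideal. -/
theorem inertia_nonunits (A : ValuationSubring Qb) {σ : GQ} (hσ : σ ∈ A.inertiaSubgroupIn ℚ)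
    (c : Qb) (hc : c ∈ A.nonunits) : σ c ∈ A.nonunits := by
  have hcA : c ∈ A := A.nonunits_subset hc
  obtain ⟨-, h2⟩ := inertia_mem A hσ c hcA
  rw [ValuationSubring.mem_nonunits_iff] at h2 hc ⊢
  have : σ c = (σ c - c) + c := by ring
  rw [this]
  exact Valuation.map_add_lt _ h2 hc

/-- Some positive power of `σ` fixes a given algebraic number. -/
theorem exists_pow_fixed (σ : GQ) (a : Qb) : ∃ n : ℕ, 0 < n ∧ (σ ^ n) a = a := by
  have hint : IsIntegral ℚ a := Algebra.IsIntegral.isIntegral a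
  have hfin : ((minpoly ℚ a).rootSet Qb).Finite := Polynomial.rootSet_finite _ _
  have hmem : ∀ k : ℕ, (σ ^ k) a ∈ (minpoly ℚ a).rootSet Qb := by
    intro k
    rw [Polynomial.mem_rootSet]
    refine ⟨minpoly.ne_zero hint, ?_⟩
    have h1 : Polynomial.aeval ((σ ^ k) a) (minpoly ℚ a)
        = (σ ^ k) (Polynomial.aeval a (minpoly ℚ a)) :=
      Polynomial.aeval_algHom_apply ((σ ^ k : GQ) : Qb →ₐ[ℚ] Qb) a (minpoly ℚ a)
    rw [h1, minpoly.aeval, _root_.map_zero]
  obtain ⟨i, j, hij, heq⟩ : ∃ i j : ℕ, i < j ∧ (σ ^ i) a = (σ ^ j) a := by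
    by_contra hcon
    push Not at hcon
    have hinj : Function.Injective (fun k : ℕ => (σ ^ k) a) := by
      intro i j hij
      by_contra hne
      rcases lt_or_gt_of_ne hne with h | h
      · exact hcon i j h hij
      · exact hcon j i h hij.symm
    exact Set.infinite_of_injective_forall_mem hinj hmem hfin
  refine ⟨j - i, by omega, ?_⟩
  have hj : σ ^ j = σ ^ i * σ ^ (j - i) := by
    rw [← pow_add]
    congr 1
    omega
  rw [hj, AlgEquiv.mul_apply] at heq
  exact ((σ ^ i).injective heq).symm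

end VAL

theorem inertia_valuation {σ : GQ} (hσ : σ ∈ A.inertiaSubgroupIn ℚ) (a : Qb) :
    A.valuation (σ a) = A.valuation a := by
  by_cases ha : a = 0
  · rw [ha, _root_.map_zero]
  -- key: a strict inequality propagates along the orbit and contradicts periodicity
  have key : ∀ (τ : GQ), τ ∈ A.inertiaSubgroupIn ℚ → ∀ b : Qb, b ≠ 0 →
      ¬ A.valuation (τ b) < A.valuation b := by
    intro τ hτ b hb hlt
    have hc : τ b / b ∈ A.nonunits := by
      rw [ValuationSubring.mem_nonunits_iff, map_div₀]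
      exact (div_lt_one₀ (zero_lt_iff.2 ((Valuation.ne_zero_iff _).2 hb))).2 hlt
    have hstep : ∀ k : ℕ, A.valuation ((τ ^ (k + 1)) b) < A.valuation ((τ ^ k) b) := by
      intro k
      have hk : τ ^ k ∈ A.inertiaSubgroupIn ℚ := Subgroup.pow_mem _ hτ k
      have h1 := VAL.inertia_nonunits A hk _ hc
      have hkb : (τ ^ k) b ≠ 0 := (map_ne_zero _).2 hb
      have h2 : (τ ^ k) (τ b / b) = (τ ^ (k + 1)) b / (τ ^ k) b := by
        rw [map_div₀, pow_succ, AlgEquiv.mul_apply]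
      rw [h2, ValuationSubring.mem_nonunits_iff, map_div₀] at h1
      exact (div_lt_one₀ (zero_lt_iff.2 ((Valuation.ne_zero_iff _).2 hkb))).1 h1
    have hmono : ∀ k : ℕ, 0 < k → A.valuation ((τ ^ k) b) < A.valuation b := by
      intro k hk
      induction k with
      | zero => omega
      | succ k ih =>
        rcases Nat.eq_zero_or_pos k with h0 | hpos
        · subst h0
          simpa using hlt
        · exact (hstep k).trans (ih hpos)
    obtain ⟨n, hn, hfix⟩ := VAL.exists_pow_fixed τ b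
    have := hmono n hn
    rw [hfix] at this
    exact lt_irrefl _ this
  refine le_antisymm (not_lt.1 ?_) (not_lt.1 (key σ hσ a ha))
  -- the other direction: apply `key` to `σ⁻¹` and `σ a`
  intro hlt
  have hσ' : σ⁻¹ ∈ A.inertiaSubgroupIn ℚ := Subgroup.inv_mem _ hσ
  have hσa : σ a ≠ 0 := (map_ne_zero _).2 ha
  apply key σ⁻¹ hσ' (σ a) hσa
  have : σ⁻¹ (σ a) = a := by
    rw [← AlgEquiv.mul_apply, inv_mul_cancel]
    rfl
  rw [this]
  exact hlt

/-- Elements fixed by the whole Galois group are rational. -/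
theorem rational_of_fixed (a : Qb) (h : ∀ σ : GQ, σ a = a) : ∃ q : ℚ, algebraMap ℚ Qb q = a := by
  have hG : IsGalois ℚ Qb := inferInstance
  exact (InfiniteGalois.mem_range_algebraMap_iff_fixed a).2 h

/-- The Galois action on torsion points in coordinates. -/
theorem smul_coe_some {P : FreyPackage} (σ : GQ) (v : Tors P) {x y : Qb}
    {h : (EQb P).Nonsingular x y} (hv : (v : (EQb P).Point) = Point.some x y h) :
    ∃ h' : (EQb P).Nonsingular (σ x) (σ y),
      ((σ • v : Tors P) : (EQb P).Point) = Point.some (σ x) (σ y) h' := by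
  have h1 : ((σ • v : Tors P) : (EQb P).Point) = σ • (v : (EQb P).Point) := rfl
  rw [h1, hv]
  exact ⟨_, rfl⟩

theorem smul_coe_zero {P : FreyPackage} (σ : GQ) (v : Tors P)
    (hv : (v : (EQb P).Point) = 0) : ((σ • v : Tors P) : (EQb P).Point) = 0 := by
  have h1 : ((σ • v : Tors P) : (EQb P).Point) = σ • (v : (EQb P).Point) := rfl
  rw [h1, hv]
  rfl

/-- Membership in the torsion module. -/
theorem mem_tors_iff {P : FreyPackage} (Q : (EQb P).Point) :
    Q ∈ Submodule.torsionBy ℤ (EQb P).Point (P.p : ℤ) ↔ P.p • Q = 0 := by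
  rw [Submodule.mem_torsionBy_iff, natCast_zsmul]

/-- Existence of a valuation subring of `ℚ̄` over a given prime. -/
theorem exists_valuationSubring_over (ℓ : ℕ) (hℓ : ℓ.Prime) :
    ∃ A : ValuationSubring Qb, A.LiesOverPrime ℓ := by
  obtain ⟨A, σ, hA, -⟩ := Fermat.Agent.S54.exists_frobenius ℓ hℓ
  exact ⟨A, hA⟩

end Fermat.Agent.S13
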