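import Fermat.Agent.S13.Defs
import Fermat.Agent.S13.Val
import Fermat.Agent.S13.MINK_helper6253

/-! # Global input: Minkowski (task LIFT) -/

set_option autoImplicit false

namespace Fermat.Agent.S13

namespace LIFT

/-- If no rational prime lies in the valuation ideal of `A`, then every nonzero natural number
has valuation `1`. -/
theorem valuation_natCast_eq_one (A : ValuationSubring Qb)
    (hA : ∀ q : ℕ, q.Prime → (q : Qb) ∉ A.nonunits) (n : ℕ) (hn : n ≠ 0) :
    A.valuation (n : Qb) = 1 := by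
  induction n using Nat.recOnMul with
  | zero => exact absurd rfl hn
  | one => simp
  | prime p hp =>
    exact Fermat.Agent.S54.valuation_eq_one_of_mem A (natCast_mem A p) (hA p hp)
  | mul a b iha ihb =>
    have ha : a ≠ 0 := fun h => hn (by rw [h, zero_mul])
    have hb : b ≠ 0 := fun h => hn (by rw [h, mul_zero])
    rw [Nat.cast_mul, map_mul, iha ha, ihb hb, one_mul]

/-- If no rational prime lies in the valuation ideal of `A`, then `A` is everything. -/
theorem mem_of_no_prime (A : ValuationSubring Qb)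
    (hA : ∀ q : ℕ, q.Prime → (q : Qb) ∉ A.nonunits) (a : Qb) : a ∈ A := by
  obtain ⟨y, hy0, hy⟩ := (MINK.isAlgebraic_int_qbar a).exists_integral_multiple
  have h1 : y • a ∈ A := MINK.mem_valuationSubring_of_isIntegral A hy
  have h2 : A.valuation (y : Qb) = 1 := by
    have h3 := valuation_natCast_eq_one A hA y.natAbs (Int.natAbs_ne_zero.mpr hy0)
    rcases Int.natAbs_eq y with h | h
    · rw [h, Int.cast_natCast]; exact h3
    · rw [h, Int.cast_neg, Int.cast_natCast, Valuation.map_neg]; exact h3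
  rw [← A.valuation_le_one_iff] at h1 ⊢
  rw [zsmul_eq_mul, map_mul, h2, one_mul] at h1
  exact h1

end LIFT

/-- (LIFT) Finite-level inertia lifts to the inertia subgroup of `A` in `Gal(ℚ̄/ℚ)`.
Finite level: for finite Galois `L ⊆ M`, inertia of `M` maps ONTO inertia of `L`
(`Ideal.card_inertia_eq_ramificationIdxIn`, multiplicativity of `e`); then compactness of the Krull
topology (or a countable chain of finite Galois subfields exhausting `ℚ̄`). -/
theorem lift_inertia (A : ValuationSubring Qb) (L : IntermediateField ℚ Qb)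
    [FiniteDimensional ℚ L] [IsGalois ℚ L] (τ : L ≃ₐ[ℚ] L)
    (hτ : ∀ a : L, (a : Qb) ∈ A →
      ((τ a : L) : Qb) ∈ A ∧ ((τ a : L) : Qb) - (a : Qb) ∈ A.nonunits) :
    ∃ σ : GQ, σ ∈ A.inertiaSubgroupIn ℚ ∧ ∀ a : L, σ (a : Qb) = ((τ a : L) : Qb) := by
  by_cases hex : ∃ q : ℕ, q.Prime ∧ (q : Qb) ∈ A.nonunits
  · obtain ⟨q, hq, hqA⟩ := hex
    refine MINK.exists_mem_inertia_of_mem_inertia L A q hq hqA τ (fun x hx => ?_)
    refine (hτ x (MINK.mem_valuationSubring_of_isIntegral A ?_)).2
    exact hx.map (IsScalarTower.toAlgHom ℤ L Qb)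
  · push Not at hex
    have hall : ∀ a : Qb, a ∈ A := LIFT.mem_of_no_prime A hex
    refine ⟨1, one_mem _, fun a => ?_⟩
    have h1 := (hτ a (hall _)).2
    by_contra hne
    have h2 : ((τ a : L) : Qb) - (a : Qb) ≠ 0 := by
      intro h3
      apply hne
      rw [sub_eq_zero] at h3
      rw [h3]
      rfl
    have h4 := hall (((τ a : L) : Qb) - (a : Qb))⁻¹
    rw [← A.valuation_le_one_iff, map_inv₀] at h4
    rw [ValuationSubring.mem_nonunits_iff] at h1
    have h5 : A.valuation (((τ a : L) : Qb) - (a : Qb)) ≠ 0 := (A.valuation.ne_zero_iff).2 h2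
    have h6 : (1 : A.ValueGroup) ≤ A.valuation (((τ a : L) : Qb) - (a : Qb)) := by
      rwa [inv_le_one₀ (zero_lt_iff.2 h5)] at h4
    exact absurd h1 (not_lt.2 h6)

end Fermat.Agent.S13
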