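import Fermat.Agent.S13.Defs
import Fermat.Agent.S13.Val
import Fermat.Agent.S13.Lift
import Fermat.Agent.S13.MINK_helper6253

/-! # Global input: Minkowski (task MINK) -/

set_option autoImplicit false

namespace Fermat.Agent.S13

/-- (MINK) A normal subgroup of `Gal(ℚ̄/ℚ)` which contains the pointwise stabiliser of a finite set
and, for every prime `ℓ`, the inertia subgroup of SOME valuation subring over `ℓ`, is everything.
(`NumberField.exists_not_isUnramifiedAt_int_of_isGalois` applied to the fixed field of `H`, then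
`lift_inertia`.) -/
theorem mink (H : Subgroup GQ) (hH : H.Normal) (S : Finset Qb)
    (hS : ∀ σ : GQ, (∀ s ∈ S, σ s = s) → σ ∈ H)
    (hin : ∀ ℓ : ℕ, ℓ.Prime →
      ∃ A : ValuationSubring Qb, A.LiesOverPrime ℓ ∧ A.inertiaSubgroupIn ℚ ≤ H) :
    H = ⊤ := by
  let F : IntermediateField ℚ Qb := IntermediateField.adjoin ℚ (S : Set Qb)
  have : FiniteDimensional ℚ F :=
    IntermediateField.finiteDimensional_adjoin (fun x _ => Algebra.IsIntegral.isIntegral x)
  refine MINK.eq_top_of_inertia_le H F (fun σ hσ => hS σ (fun s hs => ?_)) hin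
  exact hσ ⟨s, IntermediateField.subset_adjoin ℚ (S : Set Qb) hs⟩

end Fermat.Agent.S13
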