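import Fermat.Agent.S13.Defs

/-! # Elementary facts on the Frey curve model (task FREY) -/

set_option autoImplicit false

open WeierstrassCurve WeierstrassCurve.Affine WeierstrassCurve.Affine.Point

namespace Fermat.Agent.S13

namespace FREY

theorem two_dvd_b (P : FreyPackage) : (2 : ℤ) ∣ P.b :=
  (ZMod.intCast_zmod_eq_zero_iff_dvd P.b 2).1 P.hb2

theorem four_dvd_a_sub (P : FreyPackage) : (4 : ℤ) ∣ P.a - 3 := by
  have h : ((P.a - 3 : ℤ) : ZMod 4) = 0 := by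
    push_cast
    rw [P.ha4]
    decide
  exact (ZMod.intCast_zmod_eq_zero_iff_dvd (P.a - 3) 4).1 h

theorem not_two_dvd_a (P : FreyPackage) : ¬ (2 : ℤ) ∣ P.a := by
  intro h
  obtain ⟨k, hk⟩ := four_dvd_a_sub P
  obtain ⟨m, hm⟩ := h
  omega

theorem four_dvd_a_pow_sub (P : FreyPackage) : (4 : ℤ) ∣ P.a ^ P.p - 3 := by
  have h : ((P.a ^ P.p - 3 : ℤ) : ZMod 4) = 0 := by
    push_cast
    rw [P.ha4]
    have h3 : (3 : ZMod 4) = -1 := by decide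
    rw [h3, P.hp_odd.neg_one_pow]
    decide
  exact (ZMod.intCast_zmod_eq_zero_iff_dvd (P.a ^ P.p - 3) 4).1 h

end FREY

open FREY

theorem frey_thirtytwo_dvd (P : FreyPackage) : (32 : ℤ) ∣ P.b ^ P.p := by
  have h1 : (2 : ℤ) ^ P.p ∣ P.b ^ P.p := pow_dvd_pow_of_dvd (two_dvd_b P) _
  have h2 : (2 : ℤ) ^ 5 ∣ (2 : ℤ) ^ P.p := pow_dvd_pow _ P.hp5
  have h3 : (32 : ℤ) = 2 ^ 5 := by norm_num
  rw [h3]
  exact h2.trans h1

theorem frey_a_pow_odd (P : FreyPackage) : ¬ (2 : ℤ) ∣ P.a ^ P.p := by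
  intro h
  exact not_two_dvd_a P (Int.prime_two.dvd_of_dvd_pow h)

theorem frey_c_pow_odd (P : FreyPackage) : ¬ (2 : ℤ) ∣ P.c ^ P.p := by
  intro h
  apply frey_a_pow_odd P
  have hb : (2 : ℤ) ∣ P.b ^ P.p := (by norm_num : (2 : ℤ) ∣ 32).trans (frey_thirtytwo_dvd P)
  have : P.a ^ P.p = P.c ^ P.p - P.b ^ P.p := by rw [← P.hFLT]; ring
  rw [this]
  exact dvd_sub h hb

theorem freyInt_a₁ (P : FreyPackage) : P.freyCurveInt.a₁ = 1 := rfl

theorem freyInt_a₃ (P : FreyPackage) : P.freyCurveInt.a₃ = 0 := rfl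

theorem freyInt_a₆ (P : FreyPackage) : P.freyCurveInt.a₆ = 0 := rfl

theorem freyInt_a₂ (P : FreyPackage) : 4 * P.freyCurveInt.a₂ = P.b ^ P.p - 1 - P.a ^ P.p := by
  have h4 : (4 : ℤ) ∣ P.b ^ P.p - 1 - P.a ^ P.p := by
    obtain ⟨k, hk⟩ := four_dvd_a_pow_sub P
    obtain ⟨m, hm⟩ := frey_thirtytwo_dvd P
    exact ⟨8 * m - 1 - k, by linarith⟩
  show 4 * ((P.b ^ P.p - 1 - P.a ^ P.p) / 4) = P.b ^ P.p - 1 - P.a ^ P.p
  exact Int.mul_ediv_cancel' h4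

theorem freyInt_a₄ (P : FreyPackage) : 16 * P.freyCurveInt.a₄ = -(P.a ^ P.p * P.b ^ P.p) := by
  have h16 : (16 : ℤ) ∣ -(P.a ^ P.p) * (P.b ^ P.p) := by
    obtain ⟨m, hm⟩ := frey_thirtytwo_dvd P
    exact ⟨-(P.a ^ P.p) * (2 * m), by rw [hm]; ring⟩
  show 16 * (-(P.a ^ P.p) * (P.b ^ P.p) / 16) = -(P.a ^ P.p * P.b ^ P.p)
  rw [Int.mul_ediv_cancel' h16]
  ring

theorem freyInt_b₂ (P : FreyPackage) : P.freyCurveInt.b₂ = P.b ^ P.p - P.a ^ P.p := by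
  have h := freyInt_a₂ P
  simp only [WeierstrassCurve.b₂, freyInt_a₁]
  linarith

theorem freyInt_b₄ (P : FreyPackage) : P.freyCurveInt.b₄ = 2 * P.freyCurveInt.a₄ := by
  simp only [WeierstrassCurve.b₄, freyInt_a₁, freyInt_a₃]
  ring

theorem freyInt_b₆ (P : FreyPackage) : P.freyCurveInt.b₆ = 0 := by
  simp only [WeierstrassCurve.b₆, freyInt_a₃, freyInt_a₆]
  ring

theorem freyInt_b₈ (P : FreyPackage) : P.freyCurveInt.b₈ = -P.freyCurveInt.a₄ ^ 2 := by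
  simp only [WeierstrassCurve.b₈, freyInt_a₁, freyInt_a₃, freyInt_a₆]
  ring

theorem freyInt_Δ (P : FreyPackage) :
    256 * P.freyCurveInt.Δ = (P.a ^ P.p * P.b ^ P.p * P.c ^ P.p) ^ 2 := by
  have h4 := freyInt_a₄ P
  have hc : P.c ^ P.p = P.a ^ P.p + P.b ^ P.p := P.hFLT.symm
  simp only [WeierstrassCurve.Δ, freyInt_b₂, freyInt_b₄, freyInt_b₆, freyInt_b₈]
  rw [hc]
  linear_combination
    ((P.a ^ P.p + P.b ^ P.p) ^ 2 * (16 * P.freyCurveInt.a₄ - P.a ^ P.p * P.b ^ P.p)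
      - 1024 * P.freyCurveInt.a₄ ^ 2) * h4

theorem freyInt_Δ_ne_zero (P : FreyPackage) : P.freyCurveInt.Δ ≠ 0 := by
  intro h
  have h1 := freyInt_Δ P
  rw [h, mul_zero] at h1
  have h2 : P.a ^ P.p * P.b ^ P.p * P.c ^ P.p ≠ 0 :=
    mul_ne_zero (mul_ne_zero (pow_ne_zero _ P.ha0) (pow_ne_zero _ P.hb0)) (pow_ne_zero _ P.hc0)
  exact pow_ne_zero 2 h2 h1.symm

/-- The rational Frey curve is the base change of the integral model. -/
theorem freyCurve_eq_map (P : FreyPackage) :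
    P.freyCurve = P.freyCurveInt.map (Int.castRingHom ℚ) := by
  have h2 := congrArg (Int.cast : ℤ → ℚ) (freyInt_a₂ P)
  have h4 := congrArg (Int.cast : ℤ → ℚ) (freyInt_a₄ P)
  push_cast at h2 h4
  ext
  · show (1 : ℚ) = ((1 : ℤ) : ℚ)
    norm_num
  · show ((P.b : ℚ) ^ P.p - 1 - (P.a : ℚ) ^ P.p) / 4 = ((P.freyCurveInt.a₂ : ℤ) : ℚ)
    rw [div_eq_iff (by norm_num)]
    linarith
  · show (0 : ℚ) = ((0 : ℤ) : ℚ)
    norm_num
  · show -((P.a : ℚ) ^ P.p) * ((P.b : ℚ) ^ P.p) / 16 = ((P.freyCurveInt.a₄ : ℤ) : ℚ)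
    rw [div_eq_iff (by norm_num)]
    linarith
  · show (0 : ℚ) = ((0 : ℤ) : ℚ)
    norm_num

theorem EQb_eq_map (P : FreyPackage) : EQb P = P.freyCurveInt.map (Int.castRingHom Qb) := by
  have h : (algebraMap ℚ Qb).comp (Int.castRingHom ℚ) = Int.castRingHom Qb :=
    RingHom.ext_int _ _
  show (P.freyCurve).map (algebraMap ℚ Qb) = _
  rw [freyCurve_eq_map, WeierstrassCurve.map_map, h]

theorem EQb_Δ_ne_zero (P : FreyPackage) : (EQb P).Δ ≠ 0 := by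
  rw [EQb_eq_map, WeierstrassCurve.map_Δ]
  intro h
  apply freyInt_Δ_ne_zero P
  have : ((P.freyCurveInt.Δ : ℤ) : Qb) = 0 := h
  exact_mod_cast this

/-- Every point of the Frey curve over `ℚ̄` is nonsingular. -/
theorem EQb_nonsingular (P : FreyPackage) {x y : Qb} (h : (EQb P).Equation x y) :
    (EQb P).Nonsingular x y :=
  ((EQb P).equation_iff_nonsingular_of_Δ_ne_zero (EQb_Δ_ne_zero P)).1 h

/-- Existence of a point with prescribed x-coordinate. -/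
theorem EQb_exists_y (P : FreyPackage) (x : Qb) : ∃ y : Qb, (EQb P).Equation x y := by
  obtain ⟨s, hs⟩ := IsAlgClosed.exists_eq_mul_self
    (((EQb P).a₁ * x + (EQb P).a₃) ^ 2
      + 4 * (x ^ 3 + (EQb P).a₂ * x ^ 2 + (EQb P).a₄ * x + (EQb P).a₆))
  refine ⟨(s - ((EQb P).a₁ * x + (EQb P).a₃)) / 2, ?_⟩
  rw [WeierstrassCurve.Affine.equation_iff]
  have h2 : (2 : Qb) ≠ 0 := two_ne_zero
  field_simp
  linear_combination -hs

end Fermat.Agent.S13
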