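import Mathlib

set_option autoImplicit false

namespace Fermat.Agent.S13

open WeierstrassCurve WeierstrassCurve.Affine

section Formulas

variable {F : Type*} [Field F] (W : Affine F)

/-- First coordinate of the add-sub map on x-coordinates. -/
def asP (s t u : F) : F := s ^ 2 - W.b₄ * s * u - W.b₆ * t * u - W.b₈ * u ^ 2

/-- Second coordinate of the add-sub map on x-coordinates. -/
def asS (s t u : F) : F := 2 * t * s + W.b₂ * s * u + W.b₄ * t * u + W.b₆ * u ^ 2

/-- Third coordinate of the add-sub map on x-coordinates. -/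
def asD (s t u : F) : F := t ^ 2 - 4 * s * u

lemma psi_sq {x y : F} (h : W.Equation x y) :
    (y - W.negY x y) ^ 2 = 4 * x ^ 3 + W.b₂ * x ^ 2 + 2 * W.b₄ * x + W.b₆ := by
  rw [equation_iff] at h
  simp only [negY, b₂, b₄, b₆]
  linear_combination 4 * h

variable [DecidableEq F]

/-- sum formula, generic case -/
lemma addX_add_addX_negY {x₁ x₂ y₁ y₂ : F} (h₁ : W.Equation x₁ y₁) (h₂ : W.Equation x₂ y₂)
    (hx : x₁ ≠ x₂) :
    (W.addX x₁ x₂ (W.slope x₁ x₂ y₁ y₂) + W.addX x₁ x₂ (W.slope x₁ x₂ y₁ (W.negY x₂ y₂)))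
      * (x₁ - x₂) ^ 2 =
      2 * (x₁ + x₂) * (x₁ * x₂) + W.b₂ * (x₁ * x₂) + W.b₄ * (x₁ + x₂) + W.b₆ := by
  rw [equation_iff] at h₁ h₂
  have hx' : x₁ - x₂ ≠ 0 := sub_ne_zero.mpr hx
  simp_rw [slope_of_X_ne hx, addX, negY, b₂, b₄, b₆]
  field_simp
  linear_combination 2 * h₁ + 2 * h₂

/-- product formula, generic case -/
lemma addX_mul_addX_negY {x₁ x₂ y₁ y₂ : F} (h₁ : W.Equation x₁ y₁) (h₂ : W.Equation x₂ y₂)
    (hx : x₁ ≠ x₂) :
    (W.addX x₁ x₂ (W.slope x₁ x₂ y₁ y₂) * W.addX x₁ x₂ (W.slope x₁ x₂ y₁ (W.negY x₂ y₂)))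
      * (x₁ - x₂) ^ 2 =
      (x₁ * x₂) ^ 2 - W.b₄ * (x₁ * x₂) - W.b₆ * (x₁ + x₂) - W.b₈ := by
  rw [equation_iff] at h₁ h₂
  have hx' : x₁ - x₂ ≠ 0 := sub_ne_zero.mpr hx
  simp_rw [slope_of_X_ne hx, addX, negY, b₄, b₆, b₈]
  field_simp
  grind

/-- doubling formula -/
lemma addX_self_mul {x y : F} (h : W.Equation x y) (hy : y ≠ W.negY x y) :
    W.addX x x (W.slope x x y y) * (4 * x ^ 3 + W.b₂ * x ^ 2 + 2 * W.b₄ * x + W.b₆) =
      x ^ 4 - W.b₄ * x ^ 2 - 2 * W.b₆ * x - W.b₈ := by
  rw [← psi_sq W h]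
  rw [equation_iff] at h
  have hy' : y - W.negY x y ≠ 0 := sub_ne_zero.mpr hy
  rw [slope_of_Y_ne rfl hy]
  simp only [addX, b₄, b₆, b₈]
  field_simp
  simp only [negY]
  grind

omit [DecidableEq F] in
/-- At a nonsingular 2-torsion point the numerator of the duplication formula does not vanish. -/
lemma dupNum_ne_zero {x y : F} (h : W.Nonsingular x y) (hy : y = W.negY x y) :
    x ^ 4 - W.b₄ * x ^ 2 - 2 * W.b₆ * x - W.b₈ ≠ 0 := by
  rw [nonsingular_iff] at h
  obtain ⟨heq, hns⟩ := h
  rw [equation_iff] at heq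
  simp only [negY] at hy
  have hY : y = -y - W.a₁ * x - W.a₃ := hy
  have h1 : W.a₁ * y ≠ 3 * x ^ 2 + 2 * W.a₂ * x + W.a₄ := by
    rcases hns with h | h
    · exact h
    · exact absurd hY h
  have key : x ^ 4 - W.b₄ * x ^ 2 - 2 * W.b₆ * x - W.b₈ =
      (W.a₁ * y - (3 * x ^ 2 + 2 * W.a₂ * x + W.a₄)) ^ 2 := by
    simp only [b₄, b₆, b₈]
    grind
  rw [key]
  exact pow_ne_zero 2 (sub_ne_zero.mpr h1)

end Formulas

section Projective

variable {F : Type*} [Field F] [DecidableEq F] {W : Affine F}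

open WeierstrassCurve.Affine.Point

/-- The add-sub map computes `sym2x (P + Q) (P - Q)` from `sym2x P Q`, projectively. -/
theorem addSub_sym2x (P Q : W.Point) :
    ∃ c : F, c ≠ 0 ∧
      asP W (P.sym2x Q 0) (P.sym2x Q 1) (P.sym2x Q 2) = c * (P + Q).sym2x (P - Q) 0 ∧
      asS W (P.sym2x Q 0) (P.sym2x Q 1) (P.sym2x Q 2) = c * (P + Q).sym2x (P - Q) 1 ∧
      asD (P.sym2x Q 0) (P.sym2x Q 1) (P.sym2x Q 2) = c * (P + Q).sym2x (P - Q) 2 := by
  rcases P with _ | ⟨x₁, y₁, h₁⟩ <;> rcases Q with _ | ⟨x₂, y₂, h₂⟩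
  · refine ⟨1, one_ne_zero, ?_, ?_, ?_⟩ <;> simp [← zero_def, asP, asS, asD]
  · refine ⟨1, one_ne_zero, ?_, ?_, ?_⟩ <;>
      simp [← zero_def, asP, asS, asD, sub_eq_add_neg] <;> ring
  · refine ⟨1, one_ne_zero, ?_, ?_, ?_⟩ <;>
      simp [← zero_def, asP, asS, asD] <;> ring
  · by_cases hx : x₁ = x₂
    · subst hx
      by_cases hy : y₁ = W.negY x₁ y₂
      · by_cases hy' : y₁ = y₂
        · -- 2-torsion point, P = Q = -Q
          subst hy'
          have hadd : some x₁ y₁ h₁ + some x₁ y₁ h₁ = 0 := add_of_Y_eq rfl hy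
          have hsub : some x₁ y₁ h₁ - some x₁ y₁ h₁ = 0 := sub_self _
          have hpsi := psi_sq W h₁.1
          rw [← hy, sub_self] at hpsi
          refine ⟨x₁ ^ 4 - W.b₄ * x₁ ^ 2 - 2 * W.b₆ * x₁ - W.b₈, dupNum_ne_zero W h₁ hy, ?_, ?_, ?_⟩
          · rw [hadd, hsub]
            simp only [sym2x_some_some, sym2x_zero_zero, Matrix.cons_val_zero, Matrix.cons_val_one,
              Matrix.cons_val, asP]
            ring
          · rw [hadd, hsub]
            simp only [sym2x_some_some, sym2x_zero_zero, Matrix.cons_val_zero, Matrix.cons_val_one,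
              Matrix.cons_val, asS]
            linear_combination -hpsi
          · rw [hadd, hsub]
            simp only [sym2x_some_some, sym2x_zero_zero, Matrix.cons_val_zero, Matrix.cons_val_one,
              Matrix.cons_val, asD]
            ring
        · -- P = -Q, P ≠ Q
          have hadd : some x₁ y₁ h₁ + some x₁ y₂ h₂ = 0 := add_of_Y_eq rfl hy
          have hy₁ : y₁ ≠ W.negY x₁ y₁ := by
            intro h
            apply hy'
            have : W.negY x₁ y₁ = W.negY x₁ y₂ := by rw [← h]; exact hy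
            simpa [negY] using this
          have hneg : -some x₁ y₂ h₂ = some x₁ y₁ h₁ := by
            rw [neg_some]; congr 1; exact hy.symm
          have hsub : some x₁ y₁ h₁ - some x₁ y₂ h₂ =
              some _ _ (nonsingular_add h₁ h₁ fun hxy => hy₁ hxy.right) := by
            rw [sub_eq_add_neg, hneg, add_self_of_Y_ne hy₁]
          have hpsi : y₁ - W.negY x₁ y₁ ≠ 0 := sub_ne_zero.mpr hy₁
          have e1 := psi_sq W h₁.1
          have e2 := addX_self_mul W h₁.1 hy₁
          refine ⟨(y₁ - W.negY x₁ y₁) ^ 2, pow_ne_zero 2 hpsi, ?_, ?_, ?_⟩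
          · rw [hadd, hsub]
            simp only [sym2x_some_some, sym2x_zero_some, Matrix.cons_val_zero, Matrix.cons_val_one,
              Matrix.cons_val, asP]
            rw [e1]
            linear_combination -e2
          · rw [hadd, hsub]
            simp only [sym2x_some_some, sym2x_zero_some, Matrix.cons_val_zero, Matrix.cons_val_one,
              Matrix.cons_val, asS]
            rw [e1]; ring
          · rw [hadd, hsub]
            simp only [sym2x_some_some, sym2x_zero_some, Matrix.cons_val_zero, Matrix.cons_val_one,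
              Matrix.cons_val, asD]
            ring
      · -- P = Q, not 2-torsion
        have hyy : y₁ = y₂ := by
          rcases Y_eq_of_X_eq h₁.1 h₂.1 rfl with h | h
          · exact h
          · exact absurd h hy
        subst hyy
        have hadd : some x₁ y₁ h₁ + some x₁ y₁ h₁ =
            some _ _ (nonsingular_add h₁ h₁ fun hxy => hy hxy.right) := add_self_of_Y_ne hy
        have hsub : some x₁ y₁ h₁ - some x₁ y₁ h₁ = 0 := sub_self _
        have hpsi : y₁ - W.negY x₁ y₁ ≠ 0 := sub_ne_zero.mpr hy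
        have e1 := psi_sq W h₁.1
        have e2 := addX_self_mul W h₁.1 hy
        refine ⟨(y₁ - W.negY x₁ y₁) ^ 2, pow_ne_zero 2 hpsi, ?_, ?_, ?_⟩
        · rw [hadd, hsub]
          simp only [sym2x_some_some, sym2x_some_zero, Matrix.cons_val_zero, Matrix.cons_val_one,
            Matrix.cons_val, asP]
          rw [e1]
          linear_combination -e2
        · rw [hadd, hsub]
          simp only [sym2x_some_some, sym2x_some_zero, Matrix.cons_val_zero, Matrix.cons_val_one,
            Matrix.cons_val, asS]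
          rw [e1]; ring
        · rw [hadd, hsub]
          simp only [sym2x_some_some, sym2x_some_zero, Matrix.cons_val_zero, Matrix.cons_val_one,
            Matrix.cons_val, asD]
          ring
    · -- generic case
      have hadd : some x₁ y₁ h₁ + some x₂ y₂ h₂ =
          some _ _ (nonsingular_add h₁ h₂ fun hxy => hx hxy.left) := add_of_X_ne hx
      have h₂' : W.Nonsingular x₂ (W.negY x₂ y₂) := (nonsingular_neg ..).mpr h₂
      have hsub : some x₁ y₁ h₁ - some x₂ y₂ h₂ =
          some _ _ (nonsingular_add h₁ h₂' fun hxy => hx hxy.left) := by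
        rw [sub_eq_add_neg, neg_some, add_of_X_ne hx]
      have hx' : x₁ - x₂ ≠ 0 := sub_ne_zero.mpr hx
      have e1 := addX_mul_addX_negY W h₁.1 h₂.1 hx
      have e2 := addX_add_addX_negY W h₁.1 h₂.1 hx
      refine ⟨(x₁ - x₂) ^ 2, pow_ne_zero 2 hx', ?_, ?_, ?_⟩
      · rw [hadd, hsub]
        simp only [sym2x_some_some, Matrix.cons_val_zero, Matrix.cons_val_one,
          Matrix.cons_val, asP]
        linear_combination -e1
      · rw [hadd, hsub]
        simp only [sym2x_some_some, Matrix.cons_val_zero, Matrix.cons_val_one,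
          Matrix.cons_val, asS]
        linear_combination -e2
      · rw [hadd, hsub]
        simp only [sym2x_some_some, Matrix.cons_val_zero, Matrix.cons_val_one,
          Matrix.cons_val, asD]
        ring

end Projective

end Fermat.Agent.S13
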