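import Mathlib
import Fermat.Agent.S13.AddSub

set_option autoImplicit false

namespace Fermat.Agent.S13

open WeierstrassCurve WeierstrassCurve.Affine WeierstrassCurve.Affine.Point IsLocalRing

section Kernel

variable {K : Type*} [Field K] (A : ValuationSubring K)

/-- If `x ∉ A` then `x⁻¹` lies in the maximal ideal of `A`. -/
lemma inv_mem_maximalIdeal_of_not_mem {x : K} (hx : x ∉ A) :
    ∃ t : A, (t : K) = x⁻¹ ∧ t ∈ maximalIdeal A := by
  have h1 : x⁻¹ ∈ A.nonunits := by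
    rw [ValuationSubring.inv_mem_nonunits_iff]; exact Or.inr hx
  have h2 : x⁻¹ ∈ A := A.nonunits_subset h1
  exact ⟨⟨x⁻¹, h2⟩, rfl, (ValuationSubring.coe_mem_nonunits_iff (A := A)).mp h1⟩

variable [DecidableEq K] {W : Affine K}

omit [DecidableEq K] in
/-- One step of the induction for `nsmul_ne_zero_of_x_not_mem`, in coordinates. -/
lemma kernel_step (b₂ b₄ b₆ b₈ : A) (hb₂ : (b₂ : K) = W.b₂) (hb₄ : (b₄ : K) = W.b₄)
    (hb₆ : (b₆ : K) = W.b₆) (hb₈ : (b₈ : K) = W.b₈)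
    (t : A) (htm : t ∈ maximalIdeal A) (x : K) (hx0 : x ≠ 0) (hxt : x * (t : K) = 1)
    (a0 a1 f0 f1 e0 e1 c : K) (u₀ u₁ : A) (r₀ r₁ : ResidueField A)
    (hc : c ≠ 0) (ha0 : a0 ≠ 0) (ha1 : a1 = a0 * ((t : K) * u₁)) (hr1 : residue A u₁ = r₁)
    (hf0 : f0 ≠ 0) (hf1 : f1 = f0 * ((t : K) * u₀)) (hr0 : residue A u₀ = r₀)
    (E0 : asP W (a0 * x) (a0 + a1 * x) a1 = c * (e0 * f0))
    (E1 : asS W (a0 * x) (a0 + a1 * x) a1 = c * (e0 * f1 + e1 * f0)) :
    ∃ u : A, e0 ≠ 0 ∧ e1 = e0 * ((t : K) * u) ∧ residue A u = 2 * (1 + r₁) - r₀ := by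
  have hrt : residue A t = 0 := (residue_eq_zero_iff t).mpr htm
  -- integral quantities
  obtain ⟨PiA, hPiA⟩ : ∃ PiA : A, PiA = 1 - b₄ * (t ^ 2 * u₁) - b₆ * (t * (1 + u₁)) * (t ^ 2 * u₁)
      - b₈ * (t ^ 2 * u₁) ^ 2 := ⟨_, rfl⟩
  obtain ⟨SA, hSA⟩ : ∃ SA : A, SA = (1 + u₁) + (1 + u₁) + b₂ * (t * u₁) + b₄ * (1 + u₁) * (t ^ 2 * u₁)
      + b₆ * (t ^ 3 * u₁ ^ 2) := ⟨_, rfl⟩
  have hrPi : residue A PiA = 1 := by simp [hPiA, hrt]
  have hrS : residue A SA = 2 * (1 + r₁) := by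
    simp only [hSA, map_add, map_mul, map_pow, map_one, hrt, hr1]
    ring
  have hPiunit : IsUnit PiA := by
    by_contra hnu
    have : residue A PiA = 0 := (residue_eq_zero_iff PiA).mpr ((mem_maximalIdeal PiA).mpr hnu)
    rw [hrPi] at this
    exact one_ne_zero this
  obtain ⟨PiU, hPiU⟩ := hPiunit
  have hPi0 : (PiA : K) ≠ 0 := by
    intro h0
    have : PiA = 0 := Subtype.ext h0
    rw [this] at hrPi
    simp at hrPi
  have hlam0 : a0 * x ≠ 0 := mul_ne_zero ha0 hx0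
  have hT : a0 + a1 * x = (a0 * x) * ((t : K) * (1 + u₁)) := by
    rw [ha1]; linear_combination (-a0) * hxt
  have hU : a1 = (a0 * x) * ((t : K) ^ 2 * u₁) := by
    rw [ha1]; linear_combination (-a0 * t * u₁) * hxt
  have E0' : (a0 * x) ^ 2 * (PiA : K) = c * (e0 * f0) := by
    rw [← E0, hT, hU, hPiA]
    push_cast
    rw [hb₄, hb₆, hb₈]
    simp only [asP]
    ring
  have E1' : (a0 * x) ^ 2 * ((t : K) * (SA : K)) = c * (e0 * f1 + e1 * f0) := by
    rw [← E1, hT, hU, hSA]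
    push_cast
    rw [hb₂, hb₄, hb₆]
    simp only [asS]
    ring
  have he0 : e0 ≠ 0 := by
    intro h0
    rw [h0] at E0'
    have : (a0 * x) ^ 2 * (PiA : K) ≠ 0 := mul_ne_zero (pow_ne_zero 2 hlam0) hPi0
    apply this
    rw [E0']; ring
  refine ⟨(SA - PiA * u₀) * ↑PiU⁻¹, he0, ?_, ?_⟩
  · have hu₂ : (PiA : K) * (((SA - PiA * u₀) * ↑PiU⁻¹ : A) : K) = (SA : K) - (PiA : K) * (u₀ : K) := by
      have h1 : PiA * ((SA - PiA * u₀) * ↑PiU⁻¹) = SA - PiA * u₀ := by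
        rw [← hPiU]
        calc (PiU : A) * ((SA - ↑PiU * u₀) * ↑PiU⁻¹)
            = (SA - ↑PiU * u₀) * (↑PiU * ↑PiU⁻¹) := by ring
          _ = SA - ↑PiU * u₀ := by rw [Units.mul_inv, mul_one]
      have h2 := congrArg (Subtype.val) h1
      push_cast at h2 ⊢
      exact h2
    apply mul_left_cancel₀ (mul_ne_zero (mul_ne_zero hc hf0) hPi0)
    linear_combination (-(PiA : K)) * E1' + (-(PiA : K) * c * e0) * hf1
      + (-(c * f0 * e0 * t)) * hu₂ + ((t : K) * SA) * E0'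
  · have h3 : residue A (↑PiU⁻¹ : A) = 1 := by
      have h4 : residue A PiA * residue A (↑PiU⁻¹ : A) = 1 := by
        rw [← map_mul, ← hPiU, Units.mul_inv, map_one]
      rw [hrPi, one_mul] at h4
      exact h4
    rw [map_mul, map_sub, map_mul, h3, hrS, hrPi, hr0]
    ring

/-- Points in the kernel of reduction have no torsion of order prime to the residue
characteristic: if `x(P) ∉ A` and `N` is nonzero in the residue field, then `N • P ≠ 0`. -/
theorem nsmul_ne_zero_of_x_not_mem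
    (b₂ b₄ b₆ b₈ : A) (hb₂ : (b₂ : K) = W.b₂) (hb₄ : (b₄ : K) = W.b₄)
    (hb₆ : (b₆ : K) = W.b₆) (hb₈ : (b₈ : K) = W.b₈)
    {x y : K} (h : W.Nonsingular x y) (hx : x ∉ A)
    (N : ℕ) (hN : (N : ResidueField A) ≠ 0) :
    N • (Point.some x y h) ≠ 0 := by
  obtain ⟨t, ht, htm⟩ := inv_mem_maximalIdeal_of_not_mem A hx
  have hx0 : x ≠ 0 := fun h0 => hx (h0 ▸ A.zero_mem)
  have ht0 : (t : K) ≠ 0 := by rw [ht]; exact inv_ne_zero hx0
  have hxt : x * (t : K) = 1 := by rw [ht]; exact mul_inv_cancel₀ hx0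
  set P : W.Point := Point.some x y h with hP
  -- the inductive claim
  have claim : ∀ k : ℕ,
      (∃ u : A, (k • P).xRep 0 ≠ 0 ∧ (k • P).xRep 1 = (k • P).xRep 0 * ((t : K) * u) ∧
        residue A u = (k : ResidueField A) ^ 2) ∧
      (∃ u : A, ((k + 1) • P).xRep 0 ≠ 0 ∧
        ((k + 1) • P).xRep 1 = ((k + 1) • P).xRep 0 * ((t : K) * u) ∧
        residue A u = ((k + 1 : ℕ) : ResidueField A) ^ 2) := by
    intro k
    induction k with
    | zero =>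
      refine ⟨⟨0, ?_, ?_, ?_⟩, ⟨1, ?_, ?_, ?_⟩⟩
      · simp
      · simp
      · simp
      · simp [hP, hx0]
      · simp [hP, hxt]
      · simp
    | succ k ih =>
      obtain ⟨⟨u₀, hf0, hf1, hr0⟩, ⟨u₁, ha0, ha1, hr1⟩⟩ := ih
      refine ⟨⟨u₁, ha0, ha1, hr1⟩, ?_⟩
      -- apply the add-sub relation to `(k+1) • P` and `P`
      obtain ⟨c, hc, E0, E1, -⟩ := addSub_sym2x ((k + 1) • P) P
      have hadd : (k + 1) • P + P = (k + 1 + 1) • P := (succ_nsmul P (k + 1)).symm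
      have hsub : (k + 1) • P - P = k • P := by rw [succ_nsmul P k]; abel
      rw [hadd, hsub] at E0 E1
      have hs0 : ((k + 1) • P).sym2x P 0 = ((k + 1) • P).xRep 0 * x := by simp [sym2x, hP]
      have hs1 : ((k + 1) • P).sym2x P 1 = ((k + 1) • P).xRep 0 + ((k + 1) • P).xRep 1 * x := by
        simp [sym2x, hP]
      have hs2 : ((k + 1) • P).sym2x P 2 = ((k + 1) • P).xRep 1 := by simp [sym2x, hP]
      have hd0 : ((k + 1 + 1) • P).sym2x (k • P) 0 =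
          ((k + 1 + 1) • P).xRep 0 * (k • P).xRep 0 := by simp [sym2x]
      have hd1 : ((k + 1 + 1) • P).sym2x (k • P) 1 =
          ((k + 1 + 1) • P).xRep 0 * (k • P).xRep 1 +
            ((k + 1 + 1) • P).xRep 1 * (k • P).xRep 0 := by simp [sym2x]
      rw [hs0, hs1, hs2, hd0] at E0
      rw [hs0, hs1, hs2, hd1] at E1
      obtain ⟨u, hu0, hu1, hur⟩ := kernel_step A b₂ b₄ b₆ b₈ hb₂ hb₄ hb₆ hb₈ t htm x hx0 hxt
        _ _ _ _ _ _ c u₀ u₁ _ _ hc ha0 ha1 hr1 hf0 hf1 hr0 E0 E1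
      refine ⟨u, hu0, hu1, ?_⟩
      rw [hur]
      push_cast
      ring
  intro hNP
  obtain ⟨⟨u, hu0, hu1, hur⟩, -⟩ := claim N
  rw [hNP] at hu0 hu1
  simp only [xRep_zero, Matrix.cons_val_zero, Matrix.cons_val_one] at hu1
  have hu : (u : K) = 0 := by
    have : (t : K) * u = 0 := by simpa using hu1.symm
    rcases mul_eq_zero.mp this with h1 | h1
    · exact absurd h1 ht0
    · exact h1
  have hu' : u = 0 := Subtype.ext hu
  rw [hu', _root_.map_zero] at hur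
  exact hN ((pow_eq_zero_iff (two_ne_zero)).mp hur.symm)

end Kernel

end Fermat.Agent.S13
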