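import Mathlib
import Fermat.Agent.S13.AddSub
import Fermat.Agent.S13.Kernel

/-!
# Abstract local lemmas (any field `K`, any valuation subring `A`)  -- task LOC

Conventions: `A.valuation` is multiplicative; `x ∈ A ↔ v x ≤ 1`, `x ∈ A.nonunits ↔ v x < 1`.

Sorry-free (helper193).  Extra: `LOC.add_nonintegral_gen` is `add_nonintegral` WITHOUT the
hypothesis that `2` is a unit (the kernel of reduction is a subgroup in every residue
characteristic), and small membership helpers `LOC.mul_mem_nonunits`, `LOC.add_not_mem_nonunits`,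
`LOC.not_mem_of_mul_eq`, `LOC.quad_not_mem`.
-/

set_option autoImplicit false

namespace Fermat.Agent.S13

open WeierstrassCurve WeierstrassCurve.Affine WeierstrassCurve.Affine.Point

namespace LOC

section Val

variable {K : Type*} [Field K] (A : ValuationSubring K)

lemma mul_mem_nonunits {a d : K} (ha : a ∈ A) (hd : d ∈ A.nonunits) : a * d ∈ A.nonunits := by
  rw [ValuationSubring.mem_nonunits_iff] at hd ⊢
  rw [map_mul]
  have h1 : A.valuation a ≤ 1 := (A.valuation_le_one_iff a).mpr ha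
  calc A.valuation a * A.valuation d ≤ 1 * A.valuation d := mul_le_mul_left h1 _
    _ = A.valuation d := one_mul _
    _ < 1 := hd

lemma add_mem_nonunits {a d : K} (ha : a ∈ A.nonunits) (hd : d ∈ A.nonunits) :
    a + d ∈ A.nonunits := A.nonunits.add_mem ha hd

/-- unit + nonunit is not a nonunit -/
lemma add_not_mem_nonunits {u d : K} (hu : u ∉ A.nonunits) (hd : d ∈ A.nonunits) :
    u + d ∉ A.nonunits := by
  intro h
  apply hu
  have : u = (u + d) - d := by ring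
  rw [this]
  exact A.nonunits.sub_mem h hd

/-- If `ℓ * d = n` with `n` a unit of `A` and `d` in the maximal ideal, then `ℓ ∉ A`. -/
lemma not_mem_of_mul_eq {ℓ d n : K} (h : ℓ * d = n) (hn : n ∉ A.nonunits) (hd : d ∈ A.nonunits) :
    ℓ ∉ A := by
  intro hℓ
  exact hn (h ▸ mul_mem_nonunits A hℓ hd)

/-- if `ℓ ∉ A` and `a c ∈ A`, then `ℓ^2 + a*ℓ - c ∉ A`. -/
lemma quad_not_mem {ℓ a c : K} (hℓ : ℓ ∉ A) (ha : a ∈ A) (hc : c ∈ A) :
    ℓ ^ 2 + a * ℓ - c ∉ A := by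
  intro h
  have h1 : ℓ * (ℓ + a) ∈ A := by
    have : ℓ * (ℓ + a) = (ℓ ^ 2 + a * ℓ - c) + c := by ring
    rw [this]; exact A.add_mem _ _ h hc
  have hℓ0 : ℓ ≠ 0 := fun h0 => hℓ (h0 ▸ A.zero_mem)
  have hinv : ℓ⁻¹ ∈ A := by
    rcases A.mem_or_inv_mem ℓ with h | h
    · exact absurd h hℓ
    · exact h
  have h2 : ℓ + a ∈ A := by
    have : ℓ + a = ℓ⁻¹ * (ℓ * (ℓ + a)) := by field_simp
    rw [this]; exact A.mul_mem _ _ hinv h1
  apply hℓ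
  have : ℓ = (ℓ + a) - a := by ring
  rw [this]; exact A.sub_mem h2 ha

end Val

end LOC

variable {K : Type*} [Field K] [DecidableEq K] (A : ValuationSubring K) (W : Affine K)

theorem sub_nonintegral_of_same_reduction
    (ha₁ : W.a₁ ∈ A) (ha₂ : W.a₂ ∈ A) (ha₃ : W.a₃ ∈ A) (ha₄ : W.a₄ ∈ A)
    {x₁ y₁ x₂ y₂ : K} (h₁ : W.Nonsingular x₁ y₁) (h₂ : W.Nonsingular x₂ y₂)
    (hx₁ : x₁ ∈ A) (hy₁ : y₁ ∈ A) (hx : x₂ - x₁ ∈ A.nonunits) (hy : y₂ - y₁ ∈ A.nonunits)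
    (hns : 2 * y₁ + W.a₁ * x₁ + W.a₃ ∉ A.nonunits ∨
      3 * x₁ ^ 2 + 2 * W.a₂ * x₁ + W.a₄ - W.a₁ * y₁ ∉ A.nonunits) :
    Point.some x₂ y₂ h₂ - Point.some x₁ y₁ h₁ = 0 ∨
      ∃ (x y : K) (h : W.Nonsingular x y),
        Point.some x₂ y₂ h₂ - Point.some x₁ y₁ h₁ = Point.some x y h ∧ x ∉ A := by
  have hx₂ : x₂ ∈ A := by
    have : x₂ = (x₂ - x₁) + x₁ := by ring
    rw [this]; exact A.add_mem _ _ (A.nonunits_subset hx) hx₁
  have hy₂ : y₂ ∈ A := by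
    have : y₂ = (y₂ - y₁) + y₁ := by ring
    rw [this]; exact A.add_mem _ _ (A.nonunits_subset hy) hy₁
  have h2A : (2 : K) ∈ A := by
    have : (2 : K) = 1 + 1 := by norm_num
    rw [this]; exact A.add_mem _ _ A.one_mem A.one_mem
  have h3A : (3 : K) ∈ A := by
    have : (3 : K) = 2 + 1 := by norm_num
    rw [this]; exact A.add_mem _ _ h2A A.one_mem
  have heq₁ := (equation_iff _ _).mp h₁.1
  have heq₂ := (equation_iff _ _).mp h₂.1
  -- the common shape of the conclusion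
  have key : ∀ ℓ : K, ℓ ∉ A → W.addX x₂ x₁ ℓ ∉ A := by
    intro ℓ hℓ
    have : W.addX x₂ x₁ ℓ = ℓ ^ 2 + W.a₁ * ℓ - (W.a₂ + x₂ + x₁) := by simp only [addX]; ring
    rw [this]
    exact LOC.quad_not_mem A hℓ ha₁ (A.add_mem _ _ (A.add_mem _ _ ha₂ hx₂) hx₁)
  rw [sub_eq_add_neg, neg_some]
  by_cases hxy : x₂ = x₁ ∧ y₂ = W.negY x₁ (W.negY x₁ y₁)
  · left
    exact add_of_Y_eq hxy.1 hxy.2
  · right
    rw [add_some hxy]
    refine ⟨_, _, _, rfl, ?_⟩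
    apply key
    by_cases hxe : x₂ = x₁
    · -- then y₂ = negY x₁ y₁ ≠ y₁
      subst hxe
      have hyne : y₂ ≠ W.negY x₂ (W.negY x₂ y₁) := fun h => hxy ⟨rfl, h⟩
      rw [slope_of_Y_ne rfl hyne]
      rw [negY_negY] at hyne
      have hy2 : y₂ = W.negY x₂ y₁ := by
        rcases Y_eq_of_X_eq h₂.1 h₁.1 rfl with h | h
        · exact absurd h hyne
        · exact h
      -- F_y(P₁) is a nonunit, so F_x(P₁) is a unit
      have hFy : 2 * y₁ + W.a₁ * x₂ + W.a₃ ∈ A.nonunits := by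
        have : 2 * y₁ + W.a₁ * x₂ + W.a₃ = -(y₂ - y₁) := by rw [hy2]; simp only [negY]; ring
        rw [this]; exact A.nonunits.neg_mem hy
      have hFx : 3 * x₂ ^ 2 + 2 * W.a₂ * x₂ + W.a₄ - W.a₁ * y₁ ∉ A.nonunits := by
        rcases hns with h | h
        · exact absurd hFy h
        · exact h
      -- numerator: F_x(P₂) = F_x(P₁) + a₁ * F_y(P₁)
      have hnum : 3 * x₂ ^ 2 + 2 * W.a₂ * x₂ + W.a₄ - W.a₁ * y₂ ∉ A.nonunits := by
        have : 3 * x₂ ^ 2 + 2 * W.a₂ * x₂ + W.a₄ - W.a₁ * y₂ =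
            (3 * x₂ ^ 2 + 2 * W.a₂ * x₂ + W.a₄ - W.a₁ * y₁) +
              W.a₁ * (2 * y₁ + W.a₁ * x₂ + W.a₃) := by rw [hy2]; simp only [negY]; ring
        rw [this]
        exact LOC.add_not_mem_nonunits A hFx (LOC.mul_mem_nonunits A ha₁ hFy)
      have hden : y₂ - W.negY x₂ y₂ ∈ A.nonunits := by
        have : y₂ - W.negY x₂ y₂ = -(2 * y₁ + W.a₁ * x₂ + W.a₃) := by
          rw [hy2]; simp only [negY]; ring
        rw [this]; exact A.nonunits.neg_mem hFy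
      have hden0 : y₂ - W.negY x₂ y₂ ≠ 0 := by
        rw [hy2, negY_negY, ← hy2]
        exact sub_ne_zero.mpr hyne
      exact LOC.not_mem_of_mul_eq A (div_mul_cancel₀ _ hden0) hnum hden
    · rw [slope_of_X_ne hxe]
      have hxe' : x₂ - x₁ ≠ 0 := sub_ne_zero.mpr hxe
      rcases hns with hFy | hFx
      · -- F_y(P₁) is a unit
        have hnum : y₂ - W.negY x₁ y₁ ∉ A.nonunits := by
          have : y₂ - W.negY x₁ y₁ = (2 * y₁ + W.a₁ * x₁ + W.a₃) + (y₂ - y₁) := by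
            simp only [negY]; ring
          rw [this]
          exact LOC.add_not_mem_nonunits A hFy hy
        exact LOC.not_mem_of_mul_eq A (div_mul_cancel₀ _ hxe') hnum hx
      · by_cases hFy : 2 * y₁ + W.a₁ * x₁ + W.a₃ ∈ A.nonunits
        · -- second form of the slope
          set D : K := (y₂ - y₁) + W.a₁ * (x₂ - x₁) with hD
          set N : K := x₂ ^ 2 + x₁ * x₂ + x₁ ^ 2 + W.a₂ * (x₂ + x₁) + W.a₄ - W.a₁ * W.negY x₁ y₁
            with hN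
          have hDm : D ∈ A.nonunits :=
            A.nonunits.add_mem hy (LOC.mul_mem_nonunits A ha₁ hx)
          have hNu : N ∉ A.nonunits := by
            have : N = (3 * x₁ ^ 2 + 2 * W.a₂ * x₁ + W.a₄ - W.a₁ * y₁) +
                (W.a₁ * (2 * y₁ + W.a₁ * x₁ + W.a₃) +
                  (x₂ + 2 * x₁ + W.a₂) * (x₂ - x₁)) := by
              simp only [hN, negY]; ring
            rw [this]
            refine LOC.add_not_mem_nonunits A hFx (A.nonunits.add_mem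
              (LOC.mul_mem_nonunits A ha₁ hFy) (LOC.mul_mem_nonunits A ?_ hx))
            exact A.add_mem _ _ (A.add_mem _ _ hx₂ (A.mul_mem _ _ h2A hx₁)) ha₂
          have hrel : (y₂ - W.negY x₁ y₁) * D = (x₂ - x₁) * N := by
            simp only [hD, hN, negY]
            linear_combination heq₂ - heq₁
          have hrel' : (y₂ - W.negY x₁ y₁) / (x₂ - x₁) * D = N := by
            rw [div_mul_eq_mul_div, hrel]
            field_simp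
          exact LOC.not_mem_of_mul_eq A hrel' hNu hDm
        · have hnum : y₂ - W.negY x₁ y₁ ∉ A.nonunits := by
            have : y₂ - W.negY x₁ y₁ = (2 * y₁ + W.a₁ * x₁ + W.a₃) + (y₂ - y₁) := by
              simp only [negY]; ring
            rw [this]
            exact LOC.add_not_mem_nonunits A hFy hy
          exact LOC.not_mem_of_mul_eq A (div_mul_cancel₀ _ hxe') hnum hx

namespace LOC

/-- The kernel of reduction is closed under addition (no hypothesis on the residue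
characteristic). -/
theorem add_nonintegral_gen
    (hb₂ : W.b₂ ∈ A) (hb₄ : W.b₄ ∈ A) (hb₆ : W.b₆ ∈ A) (hb₈ : W.b₈ ∈ A)
    {x₁ y₁ x₂ y₂ : K} (h₁ : W.Nonsingular x₁ y₁) (h₂ : W.Nonsingular x₂ y₂)
    (hx₁ : x₁ ∉ A) (hx₂ : x₂ ∉ A) :
    Point.some x₁ y₁ h₁ + Point.some x₂ y₂ h₂ = 0 ∨
      ∃ (x y : K) (h : W.Nonsingular x y),
        Point.some x₁ y₁ h₁ + Point.some x₂ y₂ h₂ = Point.some x y h ∧ x ∉ A := by
  have hx₁0 : x₁ ≠ 0 := fun h0 => hx₁ (h0 ▸ A.zero_mem)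
  have hx₂0 : x₂ ≠ 0 := fun h0 => hx₂ (h0 ▸ A.zero_mem)
  obtain ⟨t₁, ht₁⟩ : ∃ t₁ : K, t₁ = x₁⁻¹ := ⟨_, rfl⟩
  obtain ⟨t₂, ht₂⟩ : ∃ t₂ : K, t₂ = x₂⁻¹ := ⟨_, rfl⟩
  have ht₁m : t₁ ∈ A.nonunits := by
    rw [ht₁, ValuationSubring.inv_mem_nonunits_iff]; exact Or.inr hx₁
  have ht₂m : t₂ ∈ A.nonunits := by
    rw [ht₂, ValuationSubring.inv_mem_nonunits_iff]; exact Or.inr hx₂
  have ht₁A : t₁ ∈ A := A.nonunits_subset ht₁m
  have ht₂A : t₂ ∈ A := A.nonunits_subset ht₂m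
  have e₁ : x₁ * t₁ = 1 := by rw [ht₁]; exact mul_inv_cancel₀ hx₁0
  have e₂ : x₂ * t₂ = 1 := by rw [ht₂]; exact mul_inv_cancel₀ hx₂0
  have h2A : (2 : K) ∈ A := by
    have : (2 : K) = 1 + 1 := by norm_num
    rw [this]; exact A.add_mem _ _ A.one_mem A.one_mem
  have h4A : (4 : K) ∈ A := by
    have : (4 : K) = 2 + 2 := by norm_num
    rw [this]; exact A.add_mem _ _ h2A h2A
  have hone : (1 : K) ∉ A.nonunits := by
    rw [ValuationSubring.mem_nonunits_iff, map_one]; exact lt_irrefl _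
  by_cases hxy : x₁ = x₂ ∧ y₁ = W.negY x₂ y₂
  · left
    exact add_of_Y_eq hxy.1 hxy.2
  · right
    rw [add_some hxy]
    refine ⟨_, _, _, rfl, ?_⟩
    intro hmem
    by_cases hxe : x₁ = x₂
    · subst hxe
      have hyne : y₁ ≠ W.negY x₁ y₂ := fun h => hxy ⟨rfl, h⟩
      have hyy : y₁ = y₂ := by
        rcases Y_eq_of_X_eq h₁.1 h₂.1 rfl with h | h
        · exact h
        · exact absurd h hyne
      subst hyy
      have e := addX_self_mul W h₁.1 hyne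
      obtain ⟨X2, hX2⟩ : ∃ X2 : K, X2 = W.addX x₁ x₁ (W.slope x₁ x₁ y₁ y₁) := ⟨_, rfl⟩
      rw [← hX2] at e hmem
      -- X2 * D' * t = U'
      have hrel : X2 * ((4 + W.b₂ * t₁ + 2 * W.b₄ * t₁ ^ 2 + W.b₆ * t₁ ^ 3) * t₁) =
          1 - (W.b₄ + 2 * W.b₆ * t₁ + W.b₈ * t₁ ^ 2) * (t₁ * t₁) := by
        have l : X2 * ((4 + W.b₂ * t₁ + 2 * W.b₄ * t₁ ^ 2 + W.b₆ * t₁ ^ 3) * t₁) =
            X2 * (4 * (x₁ * t₁) ^ 3 + W.b₂ * (x₁ * t₁) ^ 2 * t₁ + 2 * W.b₄ * (x₁ * t₁) * t₁ ^ 2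
              + W.b₆ * t₁ ^ 3) * t₁ := by rw [e₁]; ring
        have r : (x₁ ^ 4 - W.b₄ * x₁ ^ 2 - 2 * W.b₆ * x₁ - W.b₈) * t₁ ^ 4 =
            (x₁ * t₁) ^ 4 - W.b₄ * (x₁ * t₁) ^ 2 * t₁ ^ 2 - 2 * W.b₆ * (x₁ * t₁) * t₁ ^ 3
              - W.b₈ * t₁ ^ 4 := by ring
        rw [e₁] at r
        rw [l]
        linear_combination t₁ ^ 4 * e + r
      have hmemL : X2 * ((4 + W.b₂ * t₁ + 2 * W.b₄ * t₁ ^ 2 + W.b₆ * t₁ ^ 3) * t₁) ∈ A.nonunits := by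
        refine mul_mem_nonunits A hmem (mul_mem_nonunits A ?_ ht₁m)
        refine A.add_mem _ _ (A.add_mem _ _ (A.add_mem _ _ h4A (A.mul_mem _ _ hb₂ ht₁A))
          (A.mul_mem _ _ (A.mul_mem _ _ h2A hb₄) (A.pow_mem ht₁A 2)))
          (A.mul_mem _ _ hb₆ (A.pow_mem ht₁A 3))
      rw [hrel] at hmemL
      apply hone
      have : (1 : K) = (1 - (W.b₄ + 2 * W.b₆ * t₁ + W.b₈ * t₁ ^ 2) * (t₁ * t₁)) +
          (W.b₄ + 2 * W.b₆ * t₁ + W.b₈ * t₁ ^ 2) * (t₁ * t₁) := by ring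
      rw [this]
      refine A.nonunits.add_mem hmemL (mul_mem_nonunits A ?_ (mul_mem_nonunits A ht₁A ht₁m))
      exact A.add_mem _ _ (A.add_mem _ _ hb₄ (A.mul_mem _ _ (A.mul_mem _ _ h2A hb₆) ht₁A))
        (A.mul_mem _ _ hb₈ (A.pow_mem ht₁A 2))
    · have e1 := addX_add_addX_negY W h₁.1 h₂.1 hxe
      have e2 := addX_mul_addX_negY W h₁.1 h₂.1 hxe
      obtain ⟨xp, hxp⟩ : ∃ xp : K, xp = W.addX x₁ x₂ (W.slope x₁ x₂ y₁ y₂) := ⟨_, rfl⟩
      obtain ⟨xm, hxm⟩ : ∃ xm : K, xm = W.addX x₁ x₂ (W.slope x₁ x₂ y₁ (W.negY x₂ y₂)) :=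
        ⟨_, rfl⟩
      rw [← hxp, ← hxm] at e1 e2
      rw [← hxp] at hmem
      obtain ⟨S, hS⟩ : ∃ S : K, S = (2 + W.b₄ * (t₁ * t₂)) * (t₁ + t₂) +
          (W.b₂ + W.b₆ * (t₁ * t₂)) * (t₁ * t₂) := ⟨_, rfl⟩
      obtain ⟨U, hU⟩ : ∃ U : K, U = 1 - (W.b₄ + W.b₆ * (t₁ + t₂) + W.b₈ * (t₁ * t₂)) * (t₁ * t₂) :=
        ⟨_, rfl⟩
      obtain ⟨δ, hδ⟩ : ∃ δ : K, δ = (t₂ - t₁) * (t₂ - t₁) := ⟨_, rfl⟩
      have key : xp * ((2 * (x₁ + x₂) * (x₁ * x₂) + W.b₂ * (x₁ * x₂) + W.b₄ * (x₁ + x₂) + W.b₆)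
          - xp * (x₁ - x₂) ^ 2) = (x₁ * x₂) ^ 2 - W.b₄ * (x₁ * x₂) - W.b₆ * (x₁ + x₂) - W.b₈ := by
        linear_combination e2 - xp * e1
      have hR1 : (t₁ ^ 2 * t₂ ^ 2) *
          (2 * (x₁ + x₂) * (x₁ * x₂) + W.b₂ * (x₁ * x₂) + W.b₄ * (x₁ + x₂) + W.b₆) = S := by
        have : (t₁ ^ 2 * t₂ ^ 2) *
            (2 * (x₁ + x₂) * (x₁ * x₂) + W.b₂ * (x₁ * x₂) + W.b₄ * (x₁ + x₂) + W.b₆) =
            2 * ((x₁ * t₁) ^ 2 * (x₂ * t₂) * t₂ + (x₁ * t₁) * (x₂ * t₂) ^ 2 * t₁)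
              + W.b₂ * (x₁ * t₁) * (x₂ * t₂) * (t₁ * t₂)
              + W.b₄ * ((x₁ * t₁) * t₁ * t₂ ^ 2 + (x₂ * t₂) * t₁ ^ 2 * t₂)
              + W.b₆ * (t₁ ^ 2 * t₂ ^ 2) := by ring
        rw [this, e₁, e₂, hS]; ring
      have hR2 : (t₁ ^ 2 * t₂ ^ 2) *
          ((x₁ * x₂) ^ 2 - W.b₄ * (x₁ * x₂) - W.b₆ * (x₁ + x₂) - W.b₈) = U := by
        have : (t₁ ^ 2 * t₂ ^ 2) *
            ((x₁ * x₂) ^ 2 - W.b₄ * (x₁ * x₂) - W.b₆ * (x₁ + x₂) - W.b₈) =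
            (x₁ * t₁) ^ 2 * (x₂ * t₂) ^ 2 - W.b₄ * (x₁ * t₁) * (x₂ * t₂) * (t₁ * t₂)
              - W.b₆ * ((x₁ * t₁) * t₁ * t₂ ^ 2 + (x₂ * t₂) * t₁ ^ 2 * t₂)
              - W.b₈ * (t₁ ^ 2 * t₂ ^ 2) := by ring
        rw [this, e₁, e₂, hU]; ring
      have hd : (t₁ ^ 2 * t₂ ^ 2) * (x₁ - x₂) ^ 2 = δ := by
        have : (t₁ ^ 2 * t₂ ^ 2) * (x₁ - x₂) ^ 2 = ((x₁ * t₁) * t₂ - (x₂ * t₂) * t₁) ^ 2 := by ring
        rw [this, e₁, e₂, hδ]; ring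
      have hrel : xp * (S - xp * δ) = U := by
        rw [← hR1, ← hR2, ← hd]
        linear_combination (t₁ ^ 2 * t₂ ^ 2) * key
      have ht12 : t₁ * t₂ ∈ A.nonunits := mul_mem_nonunits A ht₁A ht₂m
      have ht12A : t₁ * t₂ ∈ A := A.nonunits_subset ht12
      have hSm : S ∈ A.nonunits := by
        rw [hS]
        refine A.nonunits.add_mem (mul_mem_nonunits A ?_ (A.nonunits.add_mem ht₁m ht₂m))
          (mul_mem_nonunits A ?_ ht12)
        · exact A.add_mem _ _ h2A (A.mul_mem _ _ hb₄ ht12A)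
        · exact A.add_mem _ _ hb₂ (A.mul_mem _ _ hb₆ ht12A)
      have hδm : δ ∈ A.nonunits := by
        rw [hδ]
        have h3 : t₂ - t₁ ∈ A.nonunits := A.nonunits.sub_mem ht₂m ht₁m
        exact mul_mem_nonunits A (A.nonunits_subset h3) h3
      have hUm : U ∈ A.nonunits := by
        rw [← hrel]
        exact mul_mem_nonunits A hmem (A.nonunits.sub_mem hSm (mul_mem_nonunits A hmem hδm))
      apply hone
      have : (1 : K) = U + (W.b₄ + W.b₆ * (t₁ + t₂) + W.b₈ * (t₁ * t₂)) * (t₁ * t₂) := by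
        rw [hU]; ring
      rw [this]
      refine A.nonunits.add_mem hUm (mul_mem_nonunits A ?_ ht12)
      exact A.add_mem _ _ (A.add_mem _ _ hb₄ (A.mul_mem _ _ hb₆ (A.add_mem _ _ ht₁A ht₂A)))
        (A.mul_mem _ _ hb₈ ht12A)

end LOC

/-- The kernel of reduction is closed under addition when `2` is a unit of `A`
(x-only proof from the pair formulas `addX_add_addX_negY`, `addX_mul_addX_negY` + doubling).
The hypothesis `h2` is in fact not needed: see `LOC.add_nonintegral_gen`. -/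
theorem add_nonintegral
    (hb₂ : W.b₂ ∈ A) (hb₄ : W.b₄ ∈ A) (hb₆ : W.b₆ ∈ A) (hb₈ : W.b₈ ∈ A)
    (h2 : A.valuation (2 : K) = 1)
    {x₁ y₁ x₂ y₂ : K} (h₁ : W.Nonsingular x₁ y₁) (h₂ : W.Nonsingular x₂ y₂)
    (hx₁ : x₁ ∉ A) (hx₂ : x₂ ∉ A) :
    Point.some x₁ y₁ h₁ + Point.some x₂ y₂ h₂ = 0 ∨
      ∃ (x y : K) (h : W.Nonsingular x y),
        Point.some x₁ y₁ h₁ + Point.some x₂ y₂ h₂ = Point.some x y h ∧ x ∉ A :=
  LOC.add_nonintegral_gen A W hb₂ hb₄ hb₆ hb₈ h₁ h₂ hx₁ hx₂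

end Fermat.Agent.S13
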