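import Mathlib
import Fermat.Agent.S13.AddSub

/-!
# S13, task NODEL: auxiliary lemmas for the Lagrange lemma at a node (helper1863)

* abstract lemmas on linearly ordered commutative groups (with zero): a two-point lemma, a
  doubling lemma and a chain lemma;
* x-coordinate formulas on a curve `y² + a₁xy = x³ + a₂x² + a₄x`;
* the valuation-theoretic main theorem `NODEL.main`.
-/

set_option autoImplicit false
set_option linter.unusedVariables false

namespace Fermat.Agent.S13.NODEL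


/-! ### Additive versions (proved by `grind`) -/

theorem twoPt_add {Γ : Type*} [AddCommGroup Γ] [LinearOrder Γ] [IsOrderedAddMonoid Γ]
    (a b s t h d e g : Γ)
    (ha : h < a) (ha' : a < 0) (hb : h < b) (hb' : b < 0) (hs : h < s) (hs' : s < 0)
    (ht : h < t) (ht' : t < 0)
    (hd : d ≤ max a b) (hd' : a ≠ b → d = max a b)
    (he : e ≤ max (a + b) h) (he' : a + b ≠ h → e = max (a + b) h)
    (hg : g ≤ max s t) (hg' : s ≠ t → g = max s t)
    (h1 : s + t + (d + d) = e + e) (h2 : g + (d + d) = a + b) :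
    ((s = a + b ∨ s = h + h - (a + b)) ∧ (t = a - b ∨ t = b - a)) ∨
     ((t = a + b ∨ t = h + h - (a + b)) ∧ (s = a - b ∨ s = b - a)) := by
  grind

theorem dbl_add {Γ : Type*} [AddCommGroup Γ] [LinearOrder Γ] [IsOrderedAddMonoid Γ] (a s h e : Γ)
    (ha : h < a) (ha' : a < 0) (hs : h < s) (hs' : s < 0)
    (he : e ≤ max (a + a) h) (he' : a + a ≠ h → e = max (a + a) h)
    (h1 : s + (a + a) = e + e) :
    s = a + a ∨ s = h + h - (a + a) := by
  grind

/-! ### Multiplicative versions in an ordered group -/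

theorem twoPt_mul {G : Type*} [CommGroup G] [LinearOrder G] [IsOrderedMonoid G]
    (a b s t h d e g : G)
    (ha : h < a) (ha' : a < 1) (hb : h < b) (hb' : b < 1) (hs : h < s) (hs' : s < 1)
    (ht : h < t) (ht' : t < 1)
    (hd : d ≤ max a b) (hd' : a ≠ b → d = max a b)
    (he : e ≤ max (a * b) h) (he' : a * b ≠ h → e = max (a * b) h)
    (hg : g ≤ max s t) (hg' : s ≠ t → g = max s t)
    (h1 : s * t * (d * d) = e * e) (h2 : g * (d * d) = a * b) :
    ((s = a * b ∨ s = h * h / (a * b)) ∧ (t = a / b ∨ t = b / a)) ∨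
     ((t = a * b ∨ t = h * h / (a * b)) ∧ (s = a / b ∨ s = b / a)) :=
  twoPt_add (Γ := Additive G) (Additive.ofMul a) (Additive.ofMul b) (Additive.ofMul s)
    (Additive.ofMul t) (Additive.ofMul h) (Additive.ofMul d) (Additive.ofMul e) (Additive.ofMul g)
    ha ha' hb hb' hs hs' ht ht' hd hd' he he' hg hg' h1 h2

theorem dbl_mul {G : Type*} [CommGroup G] [LinearOrder G] [IsOrderedMonoid G] (a s h e : G)
    (ha : h < a) (ha' : a < 1) (hs : h < s) (hs' : s < 1)
    (he : e ≤ max (a * a) h) (he' : a * a ≠ h → e = max (a * a) h)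
    (h1 : s * (a * a) = e * e) :
    s = a * a ∨ s = h * h / (a * a) :=
  dbl_add (Γ := Additive G) (Additive.ofMul a) (Additive.ofMul s) (Additive.ofMul h)
    (Additive.ofMul e) ha ha' hs hs' he he' h1

/-! ### Versions in a linearly ordered commutative group with zero -/

section WithZero

variable {Γ₀ : Type*} [LinearOrderedCommGroupWithZero Γ₀]

theorem twoPt₀ (a b s t h d e g : Γ₀) (h0 : h ≠ 0)
    (ha : h < a) (ha' : a < 1) (hb : h < b) (hb' : b < 1) (hs : h < s) (hs' : s < 1)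
    (ht : h < t) (ht' : t < 1)
    (hd : d ≤ max a b) (hd' : a ≠ b → d = max a b)
    (he : e ≤ max (a * b) h) (he' : a * b ≠ h → e = max (a * b) h)
    (hg : g ≤ max s t) (hg' : s ≠ t → g = max s t)
    (h1 : s * t * (d * d) = e * e) (h2 : g * (d * d) = a * b) :
    ((s = a * b ∨ s = h * h / (a * b)) ∧ (t = a / b ∨ t = b / a)) ∨
     ((t = a * b ∨ t = h * h / (a * b)) ∧ (s = a / b ∨ s = b / a)) := by
  have a0 : a ≠ 0 := (lt_of_le_of_lt zero_le ha).ne'
  have b0 : b ≠ 0 := (lt_of_le_of_lt zero_le hb).ne'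
  have s0 : s ≠ 0 := (lt_of_le_of_lt zero_le hs).ne'
  have t0 : t ≠ 0 := (lt_of_le_of_lt zero_le ht).ne'
  have d0 : d ≠ 0 := by
    rintro rfl
    simp only [mul_zero] at h2
    exact mul_ne_zero a0 b0 h2.symm
  have g0 : g ≠ 0 := by
    rintro rfl
    simp only [zero_mul] at h2
    exact mul_ne_zero a0 b0 h2.symm
  have e0 : e ≠ 0 := by
    rintro rfl
    simp only [mul_zero] at h1
    exact mul_ne_zero (mul_ne_zero s0 t0) (mul_ne_zero d0 d0) h1
  lift a to Γ₀ˣ using isUnit_iff_ne_zero.mpr a0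
  lift b to Γ₀ˣ using isUnit_iff_ne_zero.mpr b0
  lift s to Γ₀ˣ using isUnit_iff_ne_zero.mpr s0
  lift t to Γ₀ˣ using isUnit_iff_ne_zero.mpr t0
  lift h to Γ₀ˣ using isUnit_iff_ne_zero.mpr h0
  lift d to Γ₀ˣ using isUnit_iff_ne_zero.mpr d0
  lift e to Γ₀ˣ using isUnit_iff_ne_zero.mpr e0
  lift g to Γ₀ˣ using isUnit_iff_ne_zero.mpr g0
  have key := twoPt_mul a b s t h d e g (by exact_mod_cast ha) (by exact_mod_cast ha')
    (by exact_mod_cast hb) (by exact_mod_cast hb') (by exact_mod_cast hs) (by exact_mod_cast hs')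
    (by exact_mod_cast ht) (by exact_mod_cast ht') (by exact_mod_cast hd) (by exact_mod_cast hd')
    (by exact_mod_cast he) (by exact_mod_cast he') (by exact_mod_cast hg) (by exact_mod_cast hg')
    (by exact_mod_cast h1) (by exact_mod_cast h2)
  exact_mod_cast key

theorem dbl₀ (a s h e : Γ₀) (h0 : h ≠ 0)
    (ha : h < a) (ha' : a < 1) (hs : h < s) (hs' : s < 1)
    (he : e ≤ max (a * a) h) (he' : a * a ≠ h → e = max (a * a) h)
    (h1 : s * (a * a) = e * e) :
    s = a * a ∨ s = h * h / (a * a) := by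
  have a0 : a ≠ 0 := (lt_of_le_of_lt zero_le ha).ne'
  have s0 : s ≠ 0 := (lt_of_le_of_lt zero_le hs).ne'
  have e0 : e ≠ 0 := by
    rintro rfl
    simp only [mul_zero] at h1
    exact mul_ne_zero s0 (mul_ne_zero a0 a0) h1
  lift a to Γ₀ˣ using isUnit_iff_ne_zero.mpr a0
  lift s to Γ₀ˣ using isUnit_iff_ne_zero.mpr s0
  lift h to Γ₀ˣ using isUnit_iff_ne_zero.mpr h0
  lift e to Γ₀ˣ using isUnit_iff_ne_zero.mpr e0
  have key := dbl_mul a s h e (by exact_mod_cast ha) (by exact_mod_cast ha')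
    (by exact_mod_cast hs) (by exact_mod_cast hs') (by exact_mod_cast he) (by exact_mod_cast he')
    (by exact_mod_cast h1)
  exact_mod_cast key

end WithZero

/-! ### The chain lemma -/

section ChainAdd

variable {Γ : Type*} [AddCommGroup Γ]

/-- `a` and `b` agree up to sign and multiples of `H`. -/
def RelA (H a b : Γ) : Prop := ∃ n : ℤ, a = b + n • H ∨ a + b = n • H

lemma RelA.refl (H a : Γ) : RelA H a a := ⟨0, Or.inl (by simp)⟩

lemma RelA.symm {H a b : Γ} (h : RelA H a b) : RelA H b a := by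
  obtain ⟨n, h | h⟩ := h
  · exact ⟨-n, Or.inl (by rw [h]; module)⟩
  · exact ⟨n, Or.inr (by rw [add_comm]; exact h)⟩

lemma RelA.trans {H a b c : Γ} (h₁ : RelA H a b) (h₂ : RelA H b c) : RelA H a c := by
  obtain ⟨n, h₁ | h₁⟩ := h₁ <;> obtain ⟨m, h₂ | h₂⟩ := h₂
  · exact ⟨m + n, Or.inl (by rw [h₁, h₂]; module)⟩
  · refine ⟨m + n, Or.inr ?_⟩
    rw [h₁, add_smul, ← h₂]; module
  · refine ⟨n - m, Or.inr ?_⟩
    have : a = n • H - b := by rw [← h₁]; module
    rw [this, h₂]; module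
  · refine ⟨n - m, Or.inl ?_⟩
    have ha : a = n • H - b := by rw [← h₁]; module
    have hc : c = m • H - b := by rw [← h₂]; module
    rw [ha, hc]; module

/-- Key step: if `x ~ (j+1)c` then `{x+c, x-c} ~ {(j+2)c, jc}` in some order. -/
lemma relA_step {H c x : Γ} (j : ℕ) (h : RelA H x ((j + 1) • c)) :
    (RelA H (x + c) ((j + 2) • c) ∧ RelA H (x - c) (j • c)) ∨
    (RelA H (x + c) (j • c) ∧ RelA H (x - c) ((j + 2) • c)) := by
  obtain ⟨n, h | h⟩ := h
  · left
    refine ⟨⟨n, Or.inl ?_⟩, ⟨n, Or.inl ?_⟩⟩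
    · rw [h]; module
    · rw [h]; module
  · right
    have hx : x = n • H - (j + 1) • c := by rw [← h]; module
    refine ⟨⟨n, Or.inr ?_⟩, ⟨n, Or.inr ?_⟩⟩
    · rw [hx]; module
    · rw [hx]; module

theorem chainA (H : Γ) (a : ℕ → Γ) (k : ℕ) (hk : 1 ≤ k)
    (hdbl : RelA H (a 2) (2 • a 1))
    (hrec : ∀ j, 1 ≤ j → j + 1 ≤ k →
      (RelA H (a (j + 2)) (a (j + 1) + a 1) ∧ RelA H (a j) (a (j + 1) - a 1)) ∨
      (RelA H (a (j + 2)) (a (j + 1) - a 1) ∧ RelA H (a j) (a (j + 1) + a 1)))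
    (hsym : a (k + 1) = a k) :
    (∃ n : ℤ, a 1 = n • H) ∨ (∃ n : ℤ, (2 * k + 1) • a 1 = n • H) := by
  have claim : ∀ j, 1 ≤ j → j ≤ k →
      RelA H (a j) (j • a 1) ∧ RelA H (a (j + 1)) ((j + 1) • a 1) := by
    intro j hj
    induction j, hj using Nat.le_induction with
    | base => intro _; exact ⟨by simpa using RelA.refl H (a 1), hdbl⟩
    | succ j hj ih =>
      intro hjk
      obtain ⟨h1, h2⟩ := ih (by omega)
      refine ⟨h2, ?_⟩
      rcases relA_step (H := H) (c := a 1) j h2 with ⟨s1, s2⟩ | ⟨s1, s2⟩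
      · rcases hrec j hj hjk with ⟨r1, r2⟩ | ⟨r1, r2⟩
        · exact r1.trans s1
        · exact (r1.trans s2).trans (h1.symm.trans (r2.trans s1))
      · rcases hrec j hj hjk with ⟨r1, r2⟩ | ⟨r1, r2⟩
        · exact (r1.trans s1).trans (h1.symm.trans (r2.trans s2))
        · exact r1.trans s2
  obtain ⟨h1, h2⟩ := claim k hk le_rfl
  rw [hsym] at h2
  obtain ⟨n, h | h⟩ := h2.symm.trans h1
  · left
    refine ⟨n, ?_⟩
    have : a 1 = (k + 1) • a 1 - k • a 1 := by module
    rw [this, h]; module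
  · right
    refine ⟨n, ?_⟩
    rw [← h]; module

end ChainAdd

section ChainMul

variable {G : Type*} [CommGroup G]

/-- `a` and `b` agree up to inversion and powers of `H`. -/
def Rel (H a b : G) : Prop := ∃ n : ℤ, a = b * H ^ n ∨ a * b = H ^ n

theorem chain (H : G) (a : ℕ → G) (k : ℕ) (hk : 1 ≤ k)
    (hdbl : Rel H (a 2) (a 1 ^ 2))
    (hrec : ∀ j, 1 ≤ j → j + 1 ≤ k →
      (Rel H (a (j + 2)) (a (j + 1) * a 1) ∧ Rel H (a j) (a (j + 1) / a 1)) ∨
      (Rel H (a (j + 2)) (a (j + 1) / a 1) ∧ Rel H (a j) (a (j + 1) * a 1)))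
    (hsym : a (k + 1) = a k) :
    (∃ n : ℤ, a 1 = H ^ n) ∨ (∃ n : ℤ, a 1 ^ (2 * k + 1) = H ^ n) :=
  chainA (Γ := Additive G) (Additive.ofMul H) (fun j => Additive.ofMul (a j)) k hk hdbl hrec hsym

end ChainMul

section ChainWithZero

variable {Γ₀ : Type*} [LinearOrderedCommGroupWithZero Γ₀]

/-- The chain lemma in a linearly ordered commutative group with zero: if the values
`a 1, …, a (2k+1)` lie strictly between `η` and `1` and satisfy the "tropical" addition
and doubling rules, then `a 1 ^ (2k+1)` is a power of `η ^ 2`. -/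
theorem chain₀ (η : Γ₀) (a : ℕ → Γ₀) (k : ℕ) (hk : 1 ≤ k) (hη : η ≠ 0) (hη1 : η < 1)
    (hrange : ∀ j, 1 ≤ j → j ≤ k + 1 → a j ≠ 0)
    (h1lo : η < a 1) (h1hi : a 1 < 1)
    (hdbl : a 2 = a 1 * a 1 ∨ a 2 = η * η / (a 1 * a 1))
    (hrec : ∀ j, 1 ≤ j → j + 1 ≤ k →
      ((a (j + 2) = a (j + 1) * a 1 ∨ a (j + 2) = η * η / (a (j + 1) * a 1)) ∧
        (a j = a (j + 1) / a 1 ∨ a j = a 1 / a (j + 1))) ∨
      ((a j = a (j + 1) * a 1 ∨ a j = η * η / (a (j + 1) * a 1)) ∧
        (a (j + 2) = a (j + 1) / a 1 ∨ a (j + 2) = a 1 / a (j + 1))))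
    (hsym : a (k + 1) = a k) :
    ∃ n : ℤ, a 1 ^ (2 * k + 1) = (η * η) ^ n := by
  classical
  -- lift to units
  let a' : ℕ → Γ₀ˣ := fun j => if h : a j = 0 then 1 else Units.mk0 (a j) h
  let H : Γ₀ˣ := Units.mk0 (η * η) (mul_ne_zero hη hη)
  have ha' : ∀ j, 1 ≤ j → j ≤ k + 1 → ((a' j : Γ₀ˣ) : Γ₀) = a j := by
    intro j h1 h2
    simp only [a', dif_neg (hrange j h1 h2), Units.val_mk0]
  have hH : (H : Γ₀) = η * η := rfl
  -- translate the hypotheses
  have e1 : ∀ {x y z : Γ₀ˣ}, (x : Γ₀) = y * z → Rel H x (y * z) := by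
    intro x y z h
    refine ⟨0, Or.inl ?_⟩
    apply Units.ext
    simp [h]
  have e2 : ∀ {x y z : Γ₀ˣ}, (x : Γ₀) = η * η / (y * z) → Rel H x (y * z) := by
    intro x y z h
    refine ⟨1, Or.inr ?_⟩
    apply Units.ext
    simp only [Units.val_mul, zpow_one, hH, h]
    rw [div_mul_cancel₀]
    exact mul_ne_zero y.ne_zero z.ne_zero
  have e3 : ∀ {x y z : Γ₀ˣ}, (x : Γ₀) = y / z → Rel H x (y / z) := by
    intro x y z h
    refine ⟨0, Or.inl ?_⟩
    apply Units.ext
    simp [h]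
  have e4 : ∀ {x y z : Γ₀ˣ}, (x : Γ₀) = z / y → Rel H x (y / z) := by
    intro x y z h
    refine ⟨0, Or.inr ?_⟩
    apply Units.ext
    simp only [Units.val_mul, h, Units.val_div_eq_div_val, zpow_zero, Units.val_one]
    rw [div_mul_div_comm, mul_comm, div_self]
    exact mul_ne_zero y.ne_zero z.ne_zero
  have hdbl' : Rel H (a' 2) (a' 1 ^ 2) := by
    rw [pow_two]
    rcases hdbl with h | h
    · exact e1 (by rw [ha' 2 (by omega) (by omega), ha' 1 le_rfl (by omega)]; exact h)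
    · exact e2 (by rw [ha' 2 (by omega) (by omega), ha' 1 le_rfl (by omega)]; exact h)
  have hrec' : ∀ j, 1 ≤ j → j + 1 ≤ k →
      (Rel H (a' (j + 2)) (a' (j + 1) * a' 1) ∧ Rel H (a' j) (a' (j + 1) / a' 1)) ∨
      (Rel H (a' (j + 2)) (a' (j + 1) / a' 1) ∧ Rel H (a' j) (a' (j + 1) * a' 1)) := by
    intro j hj hjk
    have c0 := ha' j hj (by omega)
    have c1 := ha' (j + 1) (by omega) (by omega)
    have c2 := ha' (j + 2) (by omega) (by omega)
    have c := ha' 1 le_rfl (by omega)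
    rcases hrec j hj hjk with ⟨h1 | h1, h2 | h2⟩ | ⟨h1 | h1, h2 | h2⟩
    · exact Or.inl ⟨e1 (by rw [c2, c1, c]; exact h1), e3 (by rw [c0, c1, c]; exact h2)⟩
    · exact Or.inl ⟨e1 (by rw [c2, c1, c]; exact h1), e4 (by rw [c0, c1, c]; exact h2)⟩
    · exact Or.inl ⟨e2 (by rw [c2, c1, c]; exact h1), e3 (by rw [c0, c1, c]; exact h2)⟩
    · exact Or.inl ⟨e2 (by rw [c2, c1, c]; exact h1), e4 (by rw [c0, c1, c]; exact h2)⟩
    · exact Or.inr ⟨e3 (by rw [c2, c1, c]; exact h2), e1 (by rw [c0, c1, c]; exact h1)⟩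
    · exact Or.inr ⟨e4 (by rw [c2, c1, c]; exact h2), e1 (by rw [c0, c1, c]; exact h1)⟩
    · exact Or.inr ⟨e3 (by rw [c2, c1, c]; exact h2), e2 (by rw [c0, c1, c]; exact h1)⟩
    · exact Or.inr ⟨e4 (by rw [c2, c1, c]; exact h2), e2 (by rw [c0, c1, c]; exact h1)⟩
  have hsym' : a' (k + 1) = a' k := by
    apply Units.ext
    rw [ha' (k + 1) (by omega) (by omega), ha' k hk (by omega)]
    exact hsym
  have hc := ha' 1 le_rfl (by omega)
  rcases chain H a' k hk hdbl' hrec' hsym' with ⟨n, hn⟩ | ⟨n, hn⟩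
  · -- impossible: `η < a 1 < 1` but `a 1 = (η²)^n`
    exfalso
    have hn' : a 1 = (η * η) ^ n := by
      rw [← hc, hn]; simp [hH]
    have hHpos : (0 : Γ₀) < η * η := lt_of_le_of_ne zero_le (mul_ne_zero hη hη).symm
    have hHlt : η * η < 1 := by
      calc η * η ≤ η * 1 := by gcongr
        _ = η := mul_one η
        _ < 1 := hη1
    rcases le_or_gt n 0 with hn0 | hn0
    · have : 1 ≤ (η * η) ^ n := one_le_zpow_of_nonpos₀ hHpos hHlt.le hn0
      rw [← hn'] at this
      exact absurd h1hi (not_lt.mpr this)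
    · have h2 : (η * η) ^ n ≤ (η * η) ^ (1 : ℤ) :=
        zpow_le_zpow_right_of_le_one₀ hHpos hHlt.le (by omega)
      rw [zpow_one, ← hn'] at h2
      have h3 : η * η ≤ η := by
        calc η * η ≤ η * 1 := by gcongr
          _ = η := mul_one η
      exact absurd h1lo (not_lt.mpr (h2.trans h3))
  · refine ⟨n, ?_⟩
    have := congrArg (fun z : Γ₀ˣ => (z : Γ₀)) hn
    simp only [Units.val_pow_eq_pow_val, Units.val_zpow_eq_zpow_val, hc, hH] at this
    exact this

end ChainWithZero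


/-! ### The curve `y² + a₁xy = x³ + a₂x² + a₄x` -/

open WeierstrassCurve WeierstrassCurve.Affine WeierstrassCurve.Affine.Point

section Curve

variable {K : Type*} [Field K] (W : Affine K)

lemma b₄_eq (ha₃ : W.a₃ = 0) : W.b₄ = 2 * W.a₄ := by simp [b₄, ha₃]
lemma b₆_eq (ha₃ : W.a₃ = 0) (ha₆ : W.a₆ = 0) : W.b₆ = 0 := by simp [b₆, ha₃, ha₆]
lemma b₈_eq (ha₃ : W.a₃ = 0) (ha₆ : W.a₆ = 0) : W.b₈ = -W.a₄ ^ 2 := by simp [b₈, ha₃, ha₆]

/-- The x-coordinate of a point (zero for the point at infinity). -/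
def xOf {W : Affine K} : W.Point → K
  | .zero => 0
  | .some x _ _ => x

@[simp] lemma xOf_some {W : Affine K} {x y : K} (h : W.Nonsingular x y) :
    xOf (Point.some x y h) = x := rfl

@[simp] lemma xOf_neg {W : Affine K} (P : W.Point) : xOf (-P) = xOf P := by
  rcases P with _ | ⟨x, y, h⟩
  · rfl
  · rfl

variable [DecidableEq K]

/-- Sum and product of the x-coordinates of `P + Q` and `P - Q`. -/
theorem pair_formula (ha₃ : W.a₃ = 0) (ha₆ : W.a₆ = 0) {x₁ y₁ x₂ y₂ : K}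
    (h₁ : W.Nonsingular x₁ y₁) (h₂ : W.Nonsingular x₂ y₂) (hx : x₁ ≠ x₂) :
    ∃ (xp yp xm ym : K) (hp : W.Nonsingular xp yp) (hm : W.Nonsingular xm ym),
      Point.some x₁ y₁ h₁ + Point.some x₂ y₂ h₂ = Point.some xp yp hp ∧
      Point.some x₁ y₁ h₁ - Point.some x₂ y₂ h₂ = Point.some xm ym hm ∧
      xp * xm * (x₁ - x₂) ^ 2 = (x₁ * x₂ - W.a₄) ^ 2 ∧
      (xp + xm) * (x₁ - x₂) ^ 2 =
        W.b₂ * (x₁ * x₂) + 2 * ((x₁ + x₂) * (x₁ * x₂ + W.a₄)) := by
  have h₂' : W.Nonsingular x₂ (W.negY x₂ y₂) := (nonsingular_neg ..).mpr h₂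
  refine ⟨_, _, _, _, nonsingular_add h₁ h₂ (fun hxy => hx hxy.left),
    nonsingular_add h₁ h₂' (fun hxy => hx hxy.left), add_of_X_ne hx, ?_, ?_, ?_⟩
  · rw [sub_eq_add_neg, neg_some, add_of_X_ne hx]
  · have := addX_mul_addX_negY W h₁.1 h₂.1 hx
    rw [this, b₄_eq W ha₃, b₆_eq W ha₃ ha₆, b₈_eq W ha₃ ha₆]
    ring
  · have := addX_add_addX_negY W h₁.1 h₂.1 hx
    rw [this, b₄_eq W ha₃, b₆_eq W ha₃ ha₆]
    ring

/-- The x-coordinate of `P + P`. -/
theorem dbl_formula (ha₃ : W.a₃ = 0) (ha₆ : W.a₆ = 0) {x y : K} (h : W.Nonsingular x y)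
    (hy : y ≠ W.negY x y) :
    ∃ (x' y' : K) (h' : W.Nonsingular x' y'),
      Point.some x y h + Point.some x y h = Point.some x' y' h' ∧
      x' * (x * (4 * x ^ 2 + W.b₂ * x + 4 * W.a₄)) = (x ^ 2 - W.a₄) ^ 2 := by
  refine ⟨_, _, nonsingular_add h h (fun hxy => hy hxy.right), add_self_of_Y_ne hy, ?_⟩
  have e := addX_self_mul W h.1 hy
  rw [b₄_eq W ha₃, b₆_eq W ha₃ ha₆, b₈_eq W ha₃ ha₆] at e
  linear_combination e

end Curve

/-! ### The main theorem -/

section Main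

variable {K : Type*} [Field K] [DecidableEq K] {Γ₀ : Type*} [LinearOrderedCommGroupWithZero Γ₀]

/-- **Lagrange lemma at a node**, for a general valuation. -/
theorem main (v : Valuation K Γ₀) (W : Affine K)
    (ha₃ : W.a₃ = 0) (ha₆ : W.a₆ = 0) (ha₄ : v W.a₄ < 1) (ha₄0 : W.a₄ ≠ 0) (hb₂ : v W.b₂ = 1)
    (p : ℕ) (hp : p.Prime) (hp2 : p ≠ 2) {x y : K} (h : W.Nonsingular x y)
    (hQ : p • Point.some x y h = 0)
    (hnode : ∀ k : ℕ, ¬ p ∣ k →
      ∃ (xk yk : K) (hk : W.Nonsingular xk yk),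
        k • Point.some x y h = Point.some xk yk hk ∧ v xk < 1) :
    v W.a₄ < v x ∧ ∃ j : ℤ, v x ^ p = v W.a₄ ^ (2 * j) := by
  have hη0 : v W.a₄ ≠ 0 := v.ne_zero_iff.mpr ha₄0
  have hη0' : 0 < v W.a₄ := lt_of_le_of_ne zero_le hη0.symm
  have v2 : v 2 ≤ 1 := by
    have : (2 : K) = 1 + 1 := by norm_num
    rw [this]
    exact v.map_add_le v.map_one.le v.map_one.le
  have v4 : v 4 ≤ 1 := by
    have : (4 : K) = 2 * 2 := by norm_num
    rw [this, v.map_mul]
    exact mul_le_one' v2 v2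
  obtain ⟨k₀, hk₀⟩ : ∃ k₀, p = 2 * k₀ + 1 := hp.eq_two_or_odd'.resolve_left hp2
  have hk₀1 : 1 ≤ k₀ := by have := hp.two_le; omega
  have hnd : ∀ k, 1 ≤ k → k ≤ p - 1 → ¬ p ∣ k := by
    intro k h1 h2 hd
    have := Nat.le_of_dvd (by omega) hd
    omega
  have h2k : ∀ k, ¬ p ∣ k → ¬ p ∣ 2 * k := by
    intro k hk hd
    rcases (Nat.Prime.dvd_mul hp).mp hd with h | h
    · exact hp2 ((Nat.prime_dvd_prime_iff_eq hp Nat.prime_two).mp h)
    · exact hk h
  -- multiples are not 2-torsion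
  have hyne : ∀ k, ¬ p ∣ k → ∀ (xk yk : K) (hk : W.Nonsingular xk yk),
      k • Point.some x y h = Point.some xk yk hk → yk ≠ W.negY xk yk := by
    intro k hk xk yk hk' hkP hy
    have e1 : Point.some xk yk hk' + Point.some xk yk hk' = 0 := add_of_Y_eq rfl hy
    obtain ⟨x', y', h', h2P, -⟩ := hnode (2 * k) (h2k k hk)
    rw [mul_nsmul', two_nsmul, hkP, e1] at h2P
    exact some_ne_zero _ h2P.symm
  -- description of the multiples: all of them are "shallow" node points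
  have F : ∀ k, ¬ p ∣ k → ∃ (xk yk : K) (hk : W.Nonsingular xk yk),
      k • Point.some x y h = Point.some xk yk hk ∧ v W.a₄ < v xk ∧ v xk < 1 := by
    intro k hk
    obtain ⟨xk, yk, hk', hkP, hxk⟩ := hnode k hk
    refine ⟨xk, yk, hk', hkP, ?_, hxk⟩
    by_contra hdeep
    rw [not_lt] at hdeep
    obtain ⟨x', y', h', h2P, hx'⟩ := hnode (2 * k) (h2k k hk)
    obtain ⟨x'', y'', h'', hd, hform⟩ :=
      dbl_formula W ha₃ ha₆ hk' (hyne k hk xk yk hk' hkP)
    rw [mul_nsmul', two_nsmul, hkP, hd] at h2P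
    simp only [Point.some.injEq] at h2P
    obtain ⟨rfl, rfl⟩ := h2P
    have hsq : v (xk ^ 2) < v W.a₄ := by
      rw [v.map_pow, pow_two]
      rcases eq_or_ne (v xk) 0 with h0 | h0
      · rw [h0, mul_zero]; exact hη0'
      · calc v xk * v xk < 1 * v xk :=
              mul_lt_mul_of_pos_right hxk (lt_of_le_of_ne zero_le (Ne.symm h0))
          _ = v xk := one_mul _
          _ ≤ v W.a₄ := hdeep
    have hnum : v (xk ^ 2 - W.a₄) = v W.a₄ := v.map_sub_eq_of_lt_right hsq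
    have hden : v (4 * xk ^ 2 + W.b₂ * xk + 4 * W.a₄) ≤ v W.a₄ := by
      refine v.map_add_le (v.map_add_le ?_ ?_) ?_
      · rw [v.map_mul]
        exact (mul_le_of_le_one_left' v4).trans hsq.le
      · rw [v.map_mul, hb₂, one_mul]; exact hdeep
      · rw [v.map_mul]
        exact mul_le_of_le_one_left' v4
    have := congrArg v hform
    rw [v.map_mul, v.map_mul, v.map_pow (xk ^ 2 - W.a₄), hnum, pow_two (v W.a₄)] at this
    have hlt : v x'' * (v xk * v (4 * xk ^ 2 + W.b₂ * xk + 4 * W.a₄)) < v W.a₄ * v W.a₄ := by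
      calc v x'' * (v xk * v (4 * xk ^ 2 + W.b₂ * xk + 4 * W.a₄))
          ≤ v x'' * (v W.a₄ * v W.a₄) := mul_le_mul' le_rfl (mul_le_mul' hdeep hden)
        _ < 1 * (v W.a₄ * v W.a₄) := mul_lt_mul_of_pos_right hx' (mul_pos hη0' hη0')
        _ = v W.a₄ * v W.a₄ := one_mul _
    rw [this] at hlt
    exact lt_irrefl _ hlt
  -- the sequence of valuations
  set a : ℕ → Γ₀ := fun k => v (xOf (k • Point.some x y h)) with ha_def
  have ha : ∀ k, 1 ≤ k → k ≤ p - 1 → v W.a₄ < a k ∧ a k < 1 := by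
    intro k h1 h2
    obtain ⟨xk, yk, hk, hkP, h3, h4⟩ := F k (hnd k h1 h2)
    simp only [ha_def, hkP, xOf_some]
    exact ⟨h3, h4⟩
  have ha1 : a 1 = v x := by simp only [ha_def, one_nsmul, xOf_some]
  obtain ⟨lb, ub⟩ := ha 1 le_rfl (by omega)
  rw [ha1] at lb ub
  have hx0 : 0 < v x := lt_of_le_of_lt zero_le lb
  refine ⟨lb, ?_⟩
  -- doubling
  have hdbl : a 2 = a 1 * a 1 ∨ a 2 = v W.a₄ * v W.a₄ / (a 1 * a 1) := by
    obtain ⟨x', y', h', hd, hform⟩ :=
      dbl_formula W ha₃ ha₆ h (hyne 1 (hnd 1 le_rfl (by omega)) x y h (one_nsmul _))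
    have h2P : 2 • Point.some x y h = Point.some x' y' h' := by rw [two_nsmul, hd]
    have ha2 : a 2 = v x' := by simp only [ha_def, h2P, xOf_some]
    obtain ⟨l2, u2⟩ := ha 2 (by omega) (by omega)
    rw [ha2] at l2 u2
    rw [ha1, ha2]
    refine dbl₀ (v x) (v x') (v W.a₄) (v (x ^ 2 - W.a₄)) hη0 lb ub l2 u2 ?_ ?_ ?_
    · have := v.map_sub (x ^ 2) W.a₄
      rwa [v.map_pow, pow_two (v x)] at this
    · intro hne
      have : v (x ^ 2 + -W.a₄) = max (v (x ^ 2)) (v (-W.a₄)) :=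
        v.map_add_of_distinct_val (by rw [v.map_neg, v.map_pow, pow_two (v x)]; exact hne)
      rwa [← sub_eq_add_neg, v.map_neg, v.map_pow, pow_two (v x)] at this
    · have hden : v (4 * x ^ 2 + W.b₂ * x + 4 * W.a₄) = v x := by
        have e : 4 * x ^ 2 + W.b₂ * x + 4 * W.a₄ = W.b₂ * x + (4 * x ^ 2 + 4 * W.a₄) := by ring
        have hmain : v (W.b₂ * x) = v x := by rw [v.map_mul, hb₂, one_mul]
        rw [e, v.map_add_eq_of_lt_left, hmain]
        rw [hmain]
        refine v.map_add_lt ?_ ?_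
        · rw [v.map_mul, v.map_pow, pow_two]
          calc v 4 * (v x * v x) ≤ v x * v x := mul_le_of_le_one_left' v4
            _ < 1 * v x := mul_lt_mul_of_pos_right ub hx0
            _ = v x := one_mul _
        · rw [v.map_mul]
          exact (mul_le_of_le_one_left' v4).trans_lt lb
      have := congrArg v hform
      rw [v.map_mul, v.map_mul, hden, v.map_pow (x ^ 2 - W.a₄), pow_two (v (x ^ 2 - W.a₄))]
        at this
      exact this
  -- the two-point recursion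
  have hrec : ∀ j, 1 ≤ j → j + 1 ≤ k₀ →
      ((a (j + 2) = a (j + 1) * a 1 ∨ a (j + 2) = v W.a₄ * v W.a₄ / (a (j + 1) * a 1)) ∧
        (a j = a (j + 1) / a 1 ∨ a j = a 1 / a (j + 1))) ∨
      ((a j = a (j + 1) * a 1 ∨ a j = v W.a₄ * v W.a₄ / (a (j + 1) * a 1)) ∧
        (a (j + 2) = a (j + 1) / a 1 ∨ a (j + 2) = a 1 / a (j + 1))) := by
    intro j hj hjk
    obtain ⟨x1, y1, h1, h1P, l1, u1⟩ := F (j + 1) (hnd (j + 1) (by omega) (by omega))
    obtain ⟨xs, ys, hs, hsP, ls, us⟩ := F (j + 2) (hnd (j + 2) (by omega) (by omega))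
    obtain ⟨xt, yt, hxt, htP, lt', ut⟩ := F j (hnd j hj (by omega))
    have hx10 : 0 < v x1 := lt_of_le_of_lt zero_le l1
    have hne : x1 ≠ x := by
      intro hxx
      rcases (X_eq_iff (h₁ := h1) (h₂ := h)).mp hxx with e | e
      · have e2 : (j + 1) • Point.some x y h = j • Point.some x y h + Point.some x y h :=
          succ_nsmul _ j
        rw [h1P, e] at e2
        have e3 : j • Point.some x y h = 0 := by
          have := congrArg (fun Q => Q - Point.some x y h) e2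
          simp only [sub_self, add_sub_cancel_right] at this
          exact this.symm
        rw [htP] at e3
        exact some_ne_zero _ e3
      · have e2 : (j + 2) • Point.some x y h = (j + 1) • Point.some x y h + Point.some x y h :=
          succ_nsmul _ (j + 1)
        rw [h1P, e, neg_add_cancel, hsP] at e2
        exact some_ne_zero _ e2
    obtain ⟨xp, yp, xm, ym, hp', hm', hadd, hsub, hprod, hsum⟩ :=
      pair_formula W ha₃ ha₆ h1 h hne
    have hxp : xp = xs := by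
      have e2 : (j + 2) • Point.some x y h = (j + 1) • Point.some x y h + Point.some x y h :=
        succ_nsmul _ (j + 1)
      rw [hsP, h1P, hadd] at e2
      simp only [Point.some.injEq] at e2
      exact e2.1.symm
    have hxm : xm = xt := by
      have e2 : j • Point.some x y h = (j + 1) • Point.some x y h - Point.some x y h := by
        rw [succ_nsmul, add_sub_cancel_right]
      rw [htP, h1P, hsub] at e2
      simp only [Point.some.injEq] at e2
      exact e2.1.symm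
    subst hxp hxm
    have haj1 : a (j + 1) = v x1 := by simp only [ha_def, h1P, xOf_some]
    have haj2 : a (j + 2) = v xp := by simp only [ha_def, hsP, xOf_some]
    have haj : a j = v xm := by simp only [ha_def, htP, xOf_some]
    rw [haj1, haj2, haj, ha1]
    refine twoPt₀ (v x1) (v x) (v xp) (v xm) (v W.a₄) (v (x1 - x)) (v (x1 * x - W.a₄))
      (v (xp + xm)) hη0 l1 u1 lb ub ls us lt' ut ?_ ?_ ?_ ?_ ?_ ?_ ?_ ?_
    · exact v.map_sub x1 x
    · intro hab
      have : v (x1 + -x) = max (v x1) (v (-x)) :=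
        v.map_add_of_distinct_val (by rw [v.map_neg]; exact hab)
      rwa [← sub_eq_add_neg, v.map_neg] at this
    · have := v.map_sub (x1 * x) W.a₄
      rwa [v.map_mul] at this
    · intro hab
      have : v (x1 * x + -W.a₄) = max (v (x1 * x)) (v (-W.a₄)) :=
        v.map_add_of_distinct_val (by rw [v.map_neg, v.map_mul]; exact hab)
      rwa [← sub_eq_add_neg, v.map_neg, v.map_mul] at this
    · exact v.map_add xp xm
    · intro hst
      exact v.map_add_of_distinct_val hst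
    · have := congrArg v hprod
      rw [v.map_mul, v.map_mul, v.map_pow, v.map_pow, pow_two, pow_two] at this
      exact this
    · have := congrArg v hsum
      rw [v.map_mul, v.map_pow, pow_two] at this
      rw [this]
      have hmain : v (W.b₂ * (x1 * x)) = v x1 * v x := by
        rw [v.map_mul, v.map_mul, hb₂, one_mul]
      rw [v.map_add_eq_of_lt_left, hmain]
      rw [hmain]
      have h2le : v (2 * ((x1 + x) * (x1 * x + W.a₄))) ≤ v (x1 + x) * v (x1 * x + W.a₄) := by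
        rw [v.map_mul, v.map_mul]
        exact mul_le_of_le_one_left' v2
      refine lt_of_le_of_lt h2le ?_
      have hM : v (x1 + x) ≤ max (v x1) (v x) := v.map_add x1 x
      have hN : v (x1 * x + W.a₄) ≤ max (v x1 * v x) (v W.a₄) := by
        have := v.map_add (x1 * x) W.a₄
        rwa [v.map_mul] at this
      rcases le_total (v x1) (v x) with hAB | hAB
      · rw [max_eq_right hAB] at hM
        rcases le_total (v W.a₄) (v x1 * v x) with hη | hη
        · rw [max_eq_left hη] at hN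
          calc v (x1 + x) * v (x1 * x + W.a₄) ≤ v x * (v x1 * v x) := mul_le_mul' hM hN
            _ < 1 * (v x1 * v x) := mul_lt_mul_of_pos_right ub (mul_pos hx10 hx0)
            _ = v x1 * v x := one_mul _
        · rw [max_eq_right hη] at hN
          calc v (x1 + x) * v (x1 * x + W.a₄) ≤ v x * v W.a₄ := mul_le_mul' hM hN
            _ < v x * v x1 := mul_lt_mul_of_pos_left l1 hx0
            _ = v x1 * v x := mul_comm _ _
      · rw [max_eq_left hAB] at hM
        rcases le_total (v W.a₄) (v x1 * v x) with hη | hη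
        · rw [max_eq_left hη] at hN
          calc v (x1 + x) * v (x1 * x + W.a₄) ≤ v x1 * (v x1 * v x) := mul_le_mul' hM hN
            _ < 1 * (v x1 * v x) := mul_lt_mul_of_pos_right u1 (mul_pos hx10 hx0)
            _ = v x1 * v x := one_mul _
        · rw [max_eq_right hη] at hN
          calc v (x1 + x) * v (x1 * x + W.a₄) ≤ v x1 * v W.a₄ := mul_le_mul' hM hN
            _ < v x1 * v x := mul_lt_mul_of_pos_left lb hx10
  -- symmetry
  have hsym : a (k₀ + 1) = a k₀ := by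
    have e : (k₀ + 1) • Point.some x y h = -(k₀ • Point.some x y h) := by
      rw [eq_neg_iff_add_eq_zero, ← add_nsmul]
      have : k₀ + 1 + k₀ = p := by omega
      rw [this]
      exact hQ
    simp only [ha_def, e, xOf_neg]
  obtain ⟨n, hn⟩ := chain₀ (v W.a₄) a k₀ hk₀1 hη0 ha₄
    (fun j h1 h2 => (lt_of_le_of_lt zero_le (ha j h1 (by omega)).1).ne')
    (ha1 ▸ lb) (ha1 ▸ ub) hdbl hrec hsym
  rw [ha1, ← hk₀] at hn
  refine ⟨n, ?_⟩
  rw [hn, ← pow_two, ← zpow_natCast (v W.a₄) 2, ← zpow_mul]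
  norm_num

end Main

end Fermat.Agent.S13.NODEL
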