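import Mathlib
import Fermat.Agent.S13.AddSub
import Fermat.Agent.S13.Kernel
import Fermat.Agent.S13.NODEL_helper1863

/-!
# Abstract local lemmas (any field `K`, any valuation subring `A`)  -- task NODEL

Conventions: `A.valuation` is multiplicative; `x ∈ A ↔ v x ≤ 1`, `x ∈ A.nonunits ↔ v x < 1`.
-/

set_option autoImplicit false

namespace Fermat.Agent.S13

open WeierstrassCurve WeierstrassCurve.Affine WeierstrassCurve.Affine.Point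

variable {K : Type*} [Field K] [DecidableEq K] (A : ValuationSubring K) (W : Affine K)

/-! ### Node at the origin: `y² + a₁xy = x³ + a₂x² + a₄x`, `b₂` a unit, `a₄ ∈ m`, `a₄ ≠ 0`.
A "node point" is an affine point with `x ∈ A.nonunits`. -/

/-- **Lagrange lemma** (helper8105's trick). If `Q` has odd prime order `p` and all its nonzero
multiples are node points, then `v(a₄) < v(x(Q)) < 1` and `v(x(Q))^p ∈ ⟨v(a₄)^2⟩`.
Proof: for `R ≠ ±S` nonzero multiples with `c = v(x)`: from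
`x₊ x₋ (x₁-x₂)² = (x₁x₂ - a₄)²`, `(x₊ + x₋)(x₁-x₂)² = 2x₁x₂(x₁+x₂) + b₂x₁x₂ + 2a₄(x₁+x₂)` and
`x(2R) · x(4x² + b₂x + 4a₄) = (x² - a₄)²` one gets (additively, `h = ord a₄`) `0 < c < h`,
`c₁ ≠ c₂`, `c₁ + c₂ ≠ h`, `{c₊, c₋} = {|c₁-c₂|, fold(c₁+c₂)}`, `c(2R) = fold(2c)`; hence
`{0} ∪ {±c_k}` is a subgroup of `Γ/2hℤ` with `p` elements. -/
theorem node_lagrange
    (ha₁ : W.a₁ ∈ A) (ha₂ : W.a₂ ∈ A) (ha₃ : W.a₃ = 0) (ha₆ : W.a₆ = 0)
    (ha₄ : W.a₄ ∈ A.nonunits) (ha₄0 : W.a₄ ≠ 0) (hb₂ : A.valuation W.b₂ = 1)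
    (p : ℕ) (hp : p.Prime) (hp2 : p ≠ 2) (Q : W.Point) (hQ : p • Q = 0) (hQ0 : Q ≠ 0)
    (hnode : ∀ k : ℕ, ¬ p ∣ k →
      ∃ (x y : K) (h : W.Nonsingular x y), k • Q = Point.some x y h ∧ x ∈ A.nonunits)
    {x y : K} (h : W.Nonsingular x y) (hQxy : Q = Point.some x y h) :
    A.valuation W.a₄ < A.valuation x ∧
      ∃ j : ℤ, A.valuation x ^ p = A.valuation W.a₄ ^ (2 * j) := by
  subst hQxy
  refine NODEL.main A.valuation W ha₃ ha₆ (A.mem_nonunits_iff.mp ha₄) ha₄0 hb₂ p hp hp2 h hQ ?_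
  intro k hk
  obtain ⟨xk, yk, hk', hkP, hxk⟩ := hnode k hk
  exact ⟨xk, yk, hk', hkP, A.mem_nonunits_iff.mp hxk⟩

end Fermat.Agent.S13
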