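import Mathlib
import Fermat.Agent.S13.AddSub
import Fermat.Agent.S13.Kernel

/-!
# Abstract local lemmas (any field `K`, any valuation subring `A`)  -- task NODEP

Conventions: `A.valuation` is multiplicative; `x ∈ A ↔ v x ≤ 1`, `x ∈ A.nonunits ↔ v x < 1`.
-/

set_option autoImplicit false

namespace Fermat.Agent.S13

open WeierstrassCurve WeierstrassCurve.Affine WeierstrassCurve.Affine.Point

variable {K : Type*} [Field K] [DecidableEq K] (A : ValuationSubring K) (W : Affine K)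

/-! ### Node at the origin: `y² + a₁xy = x³ + a₂x² + a₄x`, `b₂` a unit, `a₄ ∈ m`, `a₄ ≠ 0`.
A "node point" is an affine point with `x ∈ A.nonunits`. -/

/-- **Pair lemma.** Two node points with the same `v(x)`, strictly between `v(a₄)` and `1`, and
`x₁ ≠ x₂`: `P₁ + P₂` and `P₁ - P₂` are not both node points (one of the two x-coordinates is not in
the maximal ideal). -/
theorem node_pair_unit
    (ha₁ : W.a₁ ∈ A) (ha₂ : W.a₂ ∈ A) (ha₃ : W.a₃ = 0) (ha₆ : W.a₆ = 0)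
    (ha₄ : W.a₄ ∈ A.nonunits) (hb₂ : A.valuation W.b₂ = 1)
    {x₁ y₁ x₂ y₂ : K} (h₁ : W.Equation x₁ y₁) (h₂ : W.Equation x₂ y₂)
    (hx₁ : x₁ ∈ A.nonunits) (hv : A.valuation x₂ = A.valuation x₁)
    (hc : A.valuation W.a₄ < A.valuation x₁) (hne : x₁ ≠ x₂) :
    ¬ (W.addX x₁ x₂ (W.slope x₁ x₂ y₁ y₂) ∈ A.nonunits ∧
        W.addX x₁ x₂ (W.slope x₁ x₂ y₁ (W.negY x₂ y₂)) ∈ A.nonunits) := by
  rintro ⟨hp, hm⟩
  have hsum := addX_add_addX_negY W h₁ h₂ hne
  have hb₄ : W.b₄ = 2 * W.a₄ := by simp [WeierstrassCurve.b₄, ha₃]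
  have hb₆ : W.b₆ = 0 := by simp [WeierstrassCurve.b₆, ha₃, ha₆]
  rw [hb₄, hb₆, add_zero] at hsum
  have hc1 : A.valuation x₁ < 1 := hx₁
  have hc0 : 0 < A.valuation x₁ := lt_of_le_of_lt zero_le hc
  have hcc : 0 < A.valuation x₁ * A.valuation x₁ := mul_pos hc0 hc0
  have hS : A.valuation (W.addX x₁ x₂ (W.slope x₁ x₂ y₁ y₂) +
      W.addX x₁ x₂ (W.slope x₁ x₂ y₁ (W.negY x₂ y₂))) < 1 :=
    (A.valuation.map_add _ _).trans_lt (max_lt hp hm)
  have hd : A.valuation (x₁ - x₂) ≤ A.valuation x₁ :=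
    (A.valuation.map_sub _ _).trans (max_le le_rfl hv.le)
  have ha : A.valuation (x₁ + x₂) ≤ A.valuation x₁ :=
    (A.valuation.map_add _ _).trans (max_le le_rfl hv.le)
  have h2 : A.valuation (2 : K) ≤ 1 := by
    rw [A.valuation_le_one_iff]
    exact ofNat_mem A 2
  have hL : A.valuation ((W.addX x₁ x₂ (W.slope x₁ x₂ y₁ y₂) +
      W.addX x₁ x₂ (W.slope x₁ x₂ y₁ (W.negY x₂ y₂))) * (x₁ - x₂) ^ 2) <
      A.valuation x₁ * A.valuation x₁ := by
    rw [map_mul, map_pow, pow_two]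
    calc _ ≤ A.valuation (W.addX x₁ x₂ (W.slope x₁ x₂ y₁ y₂) +
          W.addX x₁ x₂ (W.slope x₁ x₂ y₁ (W.negY x₂ y₂))) * (A.valuation x₁ * A.valuation x₁) := by
          gcongr
      _ < 1 * (A.valuation x₁ * A.valuation x₁) := by
          gcongr
      _ = _ := one_mul _
  have hR : A.valuation (2 * (x₁ + x₂) * (x₁ * x₂) + W.b₂ * (x₁ * x₂) + 2 * W.a₄ * (x₁ + x₂)) =
      A.valuation x₁ * A.valuation x₁ := by
    have e1 : A.valuation (W.b₂ * (x₁ * x₂)) = A.valuation x₁ * A.valuation x₁ := by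
      rw [map_mul, map_mul, hb₂, hv, one_mul]
    have e2 : A.valuation (2 * (x₁ + x₂) * (x₁ * x₂)) < A.valuation x₁ * A.valuation x₁ := by
      rw [map_mul, map_mul, map_mul, hv]
      calc _ ≤ 1 * A.valuation x₁ * (A.valuation x₁ * A.valuation x₁) := by gcongr
        _ = A.valuation x₁ * (A.valuation x₁ * A.valuation x₁) := by rw [one_mul]
        _ < 1 * (A.valuation x₁ * A.valuation x₁) := by gcongr
        _ = _ := one_mul _
    have e3 : A.valuation (2 * W.a₄ * (x₁ + x₂)) < A.valuation x₁ * A.valuation x₁ := by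
      rw [map_mul, map_mul]
      calc _ ≤ 1 * A.valuation W.a₄ * A.valuation x₁ := by gcongr
        _ = A.valuation W.a₄ * A.valuation x₁ := by rw [one_mul]
        _ < A.valuation x₁ * A.valuation x₁ := by gcongr
    have e4 : 2 * (x₁ + x₂) * (x₁ * x₂) + W.b₂ * (x₁ * x₂) + 2 * W.a₄ * (x₁ + x₂) =
        W.b₂ * (x₁ * x₂) + (2 * (x₁ + x₂) * (x₁ * x₂) + 2 * W.a₄ * (x₁ + x₂)) := by ring
    rw [e4, Valuation.map_add_eq_of_lt_left, e1]
    rw [e1]
    exact (A.valuation.map_add _ _).trans_lt (max_lt e2 e3)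
  rw [hsum, hR] at hL
  exact lt_irrefl _ hL

end Fermat.Agent.S13
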