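import Fermat.Agent.S13.Torsion

/-! # `Ψ_p ≢ 0 mod p` (task PSIP) -/

set_option autoImplicit false

open WeierstrassCurve WeierstrassCurve.Affine WeierstrassCurve.Affine.Point Polynomial

namespace Fermat.Agent.S13

namespace PSIP

/-- At a nonsingular point of order two, the odd ladder polynomial does not vanish. -/
theorem ladPsi_eval_ne_zero_of_two_torsion {F : Type*} [Field F] [DecidableEq F] (W : Affine F)
    {x y : F} (h : W.Nonsingular x y) (hy : y = W.negY x y) (n : ℕ) :
    (ladPsi W n).eval x ≠ 0 := by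
  intro h0
  have h1 : (2 * n + 1) • Point.some x y h = 0 := (nsmul_eq_zero_iff_ladPsi W h n).mpr h0
  have h2 : (2 : ℕ) • Point.some x y h = 0 := by
    rw [two_nsmul]
    exact Point.add_self_of_Y_eq hy
  have h3 : (2 * n + 1) • Point.some x y h = Point.some x y h := by
    rw [add_nsmul, mul_nsmul, h2, nsmul_zero, zero_add, one_nsmul]
  rw [h3] at h1
  exact Point.some_ne_zero h h1

/-- A curve `y² + xy = x³ + αx² + βx` over a field in which `2 ≠ 0`, with `4α = B - 1 - A`,
`16β = -(AB)` and `A`, `B` not both zero, has a nonsingular point of order two. -/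
theorem exists_nonsingular_two_torsion {F : Type*} [Field F] (W : Affine F) (h2 : (2 : F) ≠ 0)
    (h₁ : W.a₁ = 1) (h₃ : W.a₃ = 0) (h₆ : W.a₆ = 0) {A B : F}
    (hα : 4 * W.a₂ = B - 1 - A) (hβ : 16 * W.a₄ = -(A * B)) (hAB : A ≠ 0 ∨ B ≠ 0) :
    ∃ x y : F, W.Nonsingular x y ∧ y = W.negY x y := by
  have h4 : (4 : F) ≠ 0 := by
    have : (4 : F) = 2 * 2 := by norm_num
    rw [this]; exact mul_ne_zero h2 h2
  have h8 : (8 : F) ≠ 0 := by
    have : (8 : F) = 2 * 4 := by norm_num
    rw [this]; exact mul_ne_zero h2 h4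
  have h16 : (16 : F) ≠ 0 := by
    have : (16 : F) = 4 * 4 := by norm_num
    rw [this]; exact mul_ne_zero h4 h4
  have hα' : W.a₂ = (B - 1 - A) / 4 := by
    rw [eq_div_iff h4]; linear_combination hα
  have hβ' : W.a₄ = -(A * B) / 16 := by
    rw [eq_div_iff h16]; linear_combination hβ
  by_cases hA : A = 0
  · -- then `B ≠ 0`; use `x = -B/4`, `y = B/8`
    have hB : B ≠ 0 := by
      rcases hAB with h | h
      · exact absurd hA h
      · exact h
    refine ⟨-B / 4, B / 8, ?_, ?_⟩
    · rw [Affine.nonsingular_iff, Affine.equation_iff, h₁, h₃, h₆, hα', hβ', hA]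
      refine ⟨?_, Or.inl ?_⟩
      · field_simp
        ring
      · intro h
        have e : B ^ 2 = 16 * ((3 * (-B / 4) ^ 2 + 2 * ((B - 1 - 0) / 4) * (-B / 4)
            + -(0 * B) / 16) - 1 * (B / 8)) := by
          field_simp
          ring
        have h' : B ^ 2 = 0 := by
          rw [e, ← h]
          ring
        exact hB (pow_eq_zero_iff (two_ne_zero) |>.mp h')
    · rw [Affine.negY, h₁, h₃]
      field_simp
      ring
  by_cases hB : B = 0
  · -- use `x = A/4`, `y = -A/8`
    refine ⟨A / 4, -A / 8, ?_, ?_⟩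
    · rw [Affine.nonsingular_iff, Affine.equation_iff, h₁, h₃, h₆, hα', hβ', hB]
      refine ⟨?_, Or.inl ?_⟩
      · field_simp
        ring
      · intro h
        have e : A ^ 2 = 16 * ((3 * (A / 4) ^ 2 + 2 * ((0 - 1 - A) / 4) * (A / 4)
            + -(A * 0) / 16) - 1 * (-A / 8)) := by
          field_simp
          ring
        have h' : A ^ 2 = 0 := by
          rw [e, ← h]
          ring
        exact hA (pow_eq_zero_iff (two_ne_zero) |>.mp h')
    · rw [Affine.negY, h₁, h₃]
      field_simp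
      ring
  · -- use the origin
    refine ⟨0, 0, ?_, ?_⟩
    · rw [Affine.nonsingular_zero]
      refine ⟨h₆, Or.inr ?_⟩
      rw [hβ']
      exact div_ne_zero (neg_ne_zero.mpr (mul_ne_zero hA hB)) h16
    · rw [Affine.negY, h₃]
      ring

end PSIP

/-- `Ψ_p` is not the zero polynomial modulo `p` (evaluate the ladder over `ZMod p` at a 2-torsion
point of the reduced curve which is a nonsingular point: x-coordinate `0`, `A/4` or `-B/4`). -/
theorem freyPsi_mod_p_ne_zero (P : FreyPackage) :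
    (freyPsi P).map (Int.castRingHom (ZMod P.p)) ≠ 0 := by
  have : Fact P.p.Prime := ⟨P.pp⟩
  classical
  have hp5 := P.hp5
  set f : ℤ →+* ZMod P.p := Int.castRingHom (ZMod P.p) with hf
  have h2 : (2 : ZMod P.p) ≠ 0 := by
    have h : ((2 : ℕ) : ZMod P.p) ≠ 0 := by
      rw [Ne, ZMod.natCast_eq_zero_iff]
      intro hd
      have := Nat.le_of_dvd (by norm_num) hd
      omega
    exact_mod_cast h
  -- `a` and `b` are not both divisible by `p`
  have hAB : (f (P.a ^ P.p) : ZMod P.p) ≠ 0 ∨ (f (P.b ^ P.p) : ZMod P.p) ≠ 0 := by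
    by_contra hcon
    rw [not_or, not_not, not_not] at hcon
    obtain ⟨ha, hb⟩ := hcon
    rw [map_pow] at ha hb
    have ha' : (f P.a) = 0 := pow_eq_zero_iff (P.hp0) |>.mp ha
    have hb' : (f P.b) = 0 := pow_eq_zero_iff (P.hp0) |>.mp hb
    have hda : (P.p : ℤ) ∣ P.a := (ZMod.intCast_zmod_eq_zero_iff_dvd P.a P.p).mp ha'
    have hdb : (P.p : ℤ) ∣ P.b := (ZMod.intCast_zmod_eq_zero_iff_dvd P.b P.p).mp hb'
    have hd : (P.p : ℤ) ∣ gcd P.a P.b := dvd_gcd hda hdb
    rw [P.hgcdab] at hd
    have : P.p ∣ 1 := by exact_mod_cast hd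
    have := Nat.le_of_dvd (by norm_num) this
    omega
  obtain ⟨x, y, hns, hy⟩ := PSIP.exists_nonsingular_two_torsion
    (W := (P.freyCurveInt.map f)) h2
    (by rw [WeierstrassCurve.map_a₁, freyInt_a₁, map_one])
    (by rw [WeierstrassCurve.map_a₃, freyInt_a₃, _root_.map_zero])
    (by rw [WeierstrassCurve.map_a₆, freyInt_a₆, _root_.map_zero])
    (A := f (P.a ^ P.p)) (B := f (P.b ^ P.p))
    (by
      rw [WeierstrassCurve.map_a₂]
      have := congrArg f (freyInt_a₂ P)
      simpa using this)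
    (by
      rw [WeierstrassCurve.map_a₄]
      have := congrArg f (freyInt_a₄ P)
      simpa using this)
    hAB
  have hne := PSIP.ladPsi_eval_ne_zero_of_two_torsion (P.freyCurveInt.map f) hns hy ((P.p - 1) / 2)
  intro h0
  apply hne
  rw [ladPsi_map, ← freyPsi, h0, eval_zero]

end Fermat.Agent.S13
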