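import Mathlib
import Fermat.Agent.S13.AddSub

/-!
# Montgomery-ladder polynomials for multiplication by `n` on x-coordinates

`ladF W n, ladG W n : R[X]` are defined by the binary ladder from the add-sub map, so that for every
affine nonsingular point `P = (x, y)` of `W` over a field, `(ladF n (x), ladG n (x))` is a NONZERO
multiple of `xRep (n • P)` (no degenerate cases, by `addSub_sym2x`).

All skeleton statements are proved here (helper3460; the leading-term calculus `IsLead` and the
shape of the evaluation induction follow helper9433's independent ladder file).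
-/

set_option autoImplicit false

namespace Fermat.Agent.S13

open WeierstrassCurve Polynomial

section Defs

variable {R : Type*} [CommRing R] (W : WeierstrassCurve R)

/-- polynomial version of `asP` -/
noncomputable def pasP (s t u : R[X]) : R[X] :=
  s ^ 2 - C W.b₄ * s * u - C W.b₆ * t * u - C W.b₈ * u ^ 2

/-- polynomial version of `asS` -/
noncomputable def pasS (s t u : R[X]) : R[X] :=
  2 * t * s + C W.b₂ * s * u + C W.b₄ * t * u + C W.b₆ * u ^ 2

/-- polynomial version of `asD` -/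
noncomputable def pasD (s t u : R[X]) : R[X] := t ^ 2 - 4 * s * u

/-- doubling step: `ξ_n ↦ ξ_{2n}` -/
noncomputable def ldbl (ξ : R[X] × R[X]) : R[X] × R[X] :=
  (pasP W (ξ.1 ^ 2) (2 * ξ.1 * ξ.2) (ξ.2 ^ 2), pasS W (ξ.1 ^ 2) (2 * ξ.1 * ξ.2) (ξ.2 ^ 2))

/-- differential addition step: `(ξ_n, ξ_{n+1}) ↦ ξ_{2n+1}` (the difference is the base point `(X : 1)`) -/
noncomputable def ldadd (ξ η : R[X] × R[X]) : R[X] × R[X] :=
  (pasS W (ξ.1 * η.1) (ξ.1 * η.2 + η.1 * ξ.2) (ξ.2 * η.2)
      - X * pasD (ξ.1 * η.1) (ξ.1 * η.2 + η.1 * ξ.2) (ξ.2 * η.2),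
    pasD (ξ.1 * η.1) (ξ.1 * η.2 + η.1 * ξ.2) (ξ.2 * η.2))

/-- the ladder: `ladder n = (ξ_n, ξ_{n+1})` with `ξ_0 = (1, 0)`, `ξ_1 = (X, 1)`. -/
noncomputable def ladder : ℕ → (R[X] × R[X]) × (R[X] × R[X])
  | 0 => ((1, 0), (X, 1))
  | (n + 1) =>
    if (n + 1) % 2 = 0 then
      (ldbl W (ladder ((n + 1) / 2)).1, ldadd W (ladder ((n + 1) / 2)).1 (ladder ((n + 1) / 2)).2)
    else
      (ldadd W (ladder ((n + 1) / 2)).1 (ladder ((n + 1) / 2)).2, ldbl W (ladder ((n + 1) / 2)).2)
decreasing_by all_goals omega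

/-- numerator of `x(nP)` -/
noncomputable def ladF (n : ℕ) : R[X] := (ladder W n).1.1

/-- denominator of `x(nP)` -/
noncomputable def ladG (n : ℕ) : R[X] := (ladder W n).1.2

/-- `ladPsi W n` is (minus) the `(2n+1)`-division polynomial: `ladG (2n+1) = (ladPsi n)^2`. -/
noncomputable def ladPsi (n : ℕ) : R[X] := ladF W (n + 1) * ladG W n - ladF W n * ladG W (n + 1)

lemma ladder_zero : ladder W 0 = ((1, 0), (X, 1)) := by
  rw [ladder]

namespace LADDER

lemma ladder_succ (n : ℕ) :
    ladder W (n + 1) =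
      if (n + 1) % 2 = 0 then
        (ldbl W (ladder W ((n + 1) / 2)).1,
          ldadd W (ladder W ((n + 1) / 2)).1 (ladder W ((n + 1) / 2)).2)
      else
        (ldadd W (ladder W ((n + 1) / 2)).1 (ladder W ((n + 1) / 2)).2,
          ldbl W (ladder W ((n + 1) / 2)).2) := by
  rw [ladder]

end LADDER

lemma ladder_two_mul (n : ℕ) :
    ladder W (2 * n) = (ldbl W (ladder W n).1, ldadd W (ladder W n).1 (ladder W n).2) := by
  rcases n with _ | n
  · rw [Nat.mul_zero, ladder_zero]
    refine Prod.ext (Prod.ext ?_ ?_) (Prod.ext ?_ ?_)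
    · simp [ldbl, pasP]
    · simp [ldbl, pasS]
    · simp [ldadd, pasS, pasD]
      ring
    · simp [ldadd, pasD]
  · have h1 : 2 * (n + 1) = (2 * n + 1) + 1 := by ring
    have h2 : (2 * n + 1 + 1) % 2 = 0 := by omega
    have h3 : (2 * n + 1 + 1) / 2 = n + 1 := by omega
    rw [h1, LADDER.ladder_succ, if_pos h2, h3]

lemma ladder_two_mul_add_one (n : ℕ) :
    ladder W (2 * n + 1) = (ldadd W (ladder W n).1 (ladder W n).2, ldbl W (ladder W n).2) := by
  have h2 : ¬ (2 * n + 1) % 2 = 0 := by omega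
  have h3 : (2 * n + 1) / 2 = n := by omega
  rw [LADDER.ladder_succ, if_neg h2, h3]

lemma ladder_snd (n : ℕ) : (ladder W n).2 = (ladder W (n + 1)).1 := by
  induction n using Nat.strong_induction_on with
  | _ n ih =>
    rcases Nat.even_or_odd' n with ⟨m, rfl | rfl⟩
    · rw [ladder_two_mul, ladder_two_mul_add_one]
    · have h : 2 * m + 1 + 1 = 2 * (m + 1) := by ring
      rw [h, ladder_two_mul_add_one, ladder_two_mul, ih m (by omega)]

namespace LADDER

lemma ladF_zero : ladF W 0 = 1 := by simp [ladF, ladder_zero]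

lemma ladG_zero : ladG W 0 = 0 := by simp [ladG, ladder_zero]

lemma ladF_two_mul (m : ℕ) :
    ladF W (2 * m) = pasP W (ladF W m ^ 2) (2 * ladF W m * ladG W m) (ladG W m ^ 2) := by
  simp only [ladF, ladG, ladder_two_mul, ldbl]

lemma ladG_two_mul (m : ℕ) :
    ladG W (2 * m) = pasS W (ladF W m ^ 2) (2 * ladF W m * ladG W m) (ladG W m ^ 2) := by
  simp only [ladF, ladG, ladder_two_mul, ldbl]

lemma ladF_two_mul_add_one (m : ℕ) :
    ladF W (2 * m + 1) =
      pasS W (ladF W m * ladF W (m + 1)) (ladF W m * ladG W (m + 1) + ladF W (m + 1) * ladG W m)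
          (ladG W m * ladG W (m + 1))
        - X * pasD (ladF W m * ladF W (m + 1))
          (ladF W m * ladG W (m + 1) + ladF W (m + 1) * ladG W m) (ladG W m * ladG W (m + 1)) := by
  have h := ladder_snd W m
  simp only [ladF, ladG, ladder_two_mul_add_one, ldadd, ← h]

lemma ladG_two_mul_add_one' (m : ℕ) :
    ladG W (2 * m + 1) =
      pasD (ladF W m * ladF W (m + 1))
          (ladF W m * ladG W (m + 1) + ladF W (m + 1) * ladG W m) (ladG W m * ladG W (m + 1)) := by
  have h := ladder_snd W m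
  simp only [ladF, ladG, ladder_two_mul_add_one, ldadd, ← h]

lemma ladder_one_fst : (ladder W 1).1 = (X, 1) := by
  have h := ladder_two_mul_add_one W 0
  simp only [Nat.mul_zero, Nat.zero_add] at h
  rw [h, ladder_zero]
  refine Prod.ext ?_ ?_
  · simp [ldadd, pasS, pasD]
    ring
  · simp [ldadd, pasD]

lemma ladF_one : ladF W 1 = X := by
  rw [ladF, ladder_one_fst]

lemma ladG_one : ladG W 1 = 1 := by
  rw [ladG, ladder_one_fst]

end LADDER

theorem ladG_two_mul_add_one (n : ℕ) : ladG W (2 * n + 1) = ladPsi W n ^ 2 := by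
  rw [LADDER.ladG_two_mul_add_one', ladPsi, pasD]
  ring

namespace LADDER

/-- `p = c * X ^ d + (terms of lower degree)`. -/
def IsLead (p : R[X]) (d : ℕ) (c : R) : Prop := p.natDegree ≤ d ∧ p.coeff d = c

theorem IsLead.mul {p q : R[X]} {d e : ℕ} {c c' : R} (hp : IsLead p d c) (hq : IsLead q e c') :
    IsLead (p * q) (d + e) (c * c') :=
  ⟨natDegree_mul_le.trans (add_le_add hp.1 hq.1), by
    rw [coeff_mul_add_eq_of_natDegree_le hp.1 hq.1, hp.2, hq.2]⟩

theorem IsLead.add {p q : R[X]} {d : ℕ} {c c' : R} (hp : IsLead p d c) (hq : IsLead q d c') :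
    IsLead (p + q) d (c + c') :=
  ⟨(natDegree_add_le _ _).trans (max_le hp.1 hq.1), by rw [coeff_add, hp.2, hq.2]⟩

theorem IsLead.sub {p q : R[X]} {d : ℕ} {c c' : R} (hp : IsLead p d c) (hq : IsLead q d c') :
    IsLead (p - q) d (c - c') :=
  ⟨(natDegree_sub_le _ _).trans (max_le hp.1 hq.1), by rw [coeff_sub, hp.2, hq.2]⟩

theorem IsLead.pow {p : R[X]} {d : ℕ} {c : R} (hp : IsLead p d c) (k : ℕ) :
    IsLead (p ^ k) (k * d) (c ^ k) := by
  induction k with
  | zero => exact ⟨by simp, by simp⟩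
  | succ k ih =>
    have h := ih.mul hp
    rw [pow_succ, pow_succ, Nat.succ_mul]
    exact h

theorem IsLead.lt {p : R[X]} {d e : ℕ} {c : R} (hp : IsLead p d c) (h : d < e) :
    IsLead p e 0 :=
  ⟨hp.1.trans h.le, coeff_eq_zero_of_natDegree_lt (lt_of_le_of_lt hp.1 h)⟩

theorem IsLead.congr {p : R[X]} {d d' : ℕ} {c c' : R} (hp : IsLead p d c) (hd : d = d')
    (hc : c = c') : IsLead p d' c' := by
  subst hd; subst hc; exact hp

theorem isLead_C (a : R) : IsLead (C a) 0 a := ⟨by simp, by simp⟩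

theorem isLead_X : IsLead (X : R[X]) 1 1 := ⟨natDegree_X_le, by simp⟩

theorem isLead_one : IsLead (1 : R[X]) 0 1 := ⟨by simp, by simp⟩

theorem isLead_two : IsLead (2 : R[X]) 0 2 := by
  have h : (2 : R[X]) = C 2 := (C_ofNat 2).symm
  rw [h]; exact isLead_C 2

theorem isLead_four : IsLead (4 : R[X]) 0 4 := by
  have h : (4 : R[X]) = C 4 := (C_ofNat 4).symm
  rw [h]; exact isLead_C 4

theorem isLead_dblF {F G : R[X]} {N d : ℕ} {g : R}
    (hF : IsLead F N 1) (hG : IsLead G d g) (hd : d + 1 = N) :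
    IsLead (pasP W (F ^ 2) (2 * F * G) (G ^ 2)) (4 * N) 1 := by
  have hs := hF.pow 2
  have ht := (isLead_two.mul hF).mul hG
  have hu := hG.pow 2
  have t1 := (hs.pow 2).congr (d' := 4 * N) (by omega) rfl
  have t2 := (((isLead_C W.b₄).mul hs).mul hu).lt (e := 4 * N) (by omega)
  have t3 := (((isLead_C W.b₆).mul ht).mul hu).lt (e := 4 * N) (by omega)
  have t4 := ((isLead_C W.b₈).mul (hu.pow 2)).lt (e := 4 * N) (by omega)
  have h := ((t1.sub t2).sub t3).sub t4
  exact h.congr rfl (by ring)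

theorem isLead_dblG {F G : R[X]} {N d : ℕ} {g : R}
    (hF : IsLead F N 1) (hG : IsLead G d g) (hd : d + 1 = N) :
    IsLead (pasS W (F ^ 2) (2 * F * G) (G ^ 2)) (3 * N + d) (4 * g) := by
  have hs := hF.pow 2
  have ht := (isLead_two.mul hF).mul hG
  have hu := hG.pow 2
  have t1 := ((isLead_two.mul ht).mul hs).congr (d' := 3 * N + d) (by omega) rfl
  have t2 := (((isLead_C W.b₂).mul hs).mul hu).lt (e := 3 * N + d) (by omega)
  have t3 := (((isLead_C W.b₄).mul ht).mul hu).lt (e := 3 * N + d) (by omega)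
  have t4 := ((isLead_C W.b₆).mul (hu.pow 2)).lt (e := 3 * N + d) (by omega)
  have h := ((t1.add t2).add t3).add t4
  exact h.congr rfl (by ring)

theorem isLead_daddG {F G F' G' : R[X]} {N d N' d' : ℕ} {g g' : R}
    (hF : IsLead F N 1) (hG : IsLead G d g) (hF' : IsLead F' N' 1) (hG' : IsLead G' d' g')
    (hd : d + 1 = N) (hd' : d' + 1 = N') :
    IsLead (pasD (F * F') (F * G' + F' * G) (G * G')) (2 * (N + d')) ((g' - g) ^ 2) := by
  have hs := hF.mul hF'
  have ht := (hF.mul hG').add ((hF'.mul hG).congr (d' := N + d') (by omega) rfl)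
  have hu := hG.mul hG'
  have h := (ht.pow 2).sub
    (((isLead_four.mul hs).mul hu).congr (d' := 2 * (N + d')) (by omega) rfl)
  exact h.congr rfl (by ring)

theorem isLead_daddF {F G F' G' : R[X]} {N d N' d' : ℕ} {g g' : R}
    (hF : IsLead F N 1) (hG : IsLead G d g) (hF' : IsLead F' N' 1) (hG' : IsLead G' d' g')
    (hd : d + 1 = N) (hd' : d' + 1 = N') :
    IsLead (pasS W (F * F') (F * G' + F' * G) (G * G')
        - X * pasD (F * F') (F * G' + F' * G) (G * G'))
      (2 * (N + d') + 1) (2 * (g' + g) - (g' - g) ^ 2) := by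
  have hs := hF.mul hF'
  have ht := (hF.mul hG').add ((hF'.mul hG).congr (d' := N + d') (by omega) rfl)
  have hu := hG.mul hG'
  have t1 := ((isLead_two.mul ht).mul hs).congr (d' := 2 * (N + d') + 1) (by omega) rfl
  have t2 := (((isLead_C W.b₂).mul hs).mul hu).lt (e := 2 * (N + d') + 1) (by omega)
  have t3 := (((isLead_C W.b₄).mul ht).mul hu).lt (e := 2 * (N + d') + 1) (by omega)
  have t4 := ((isLead_C W.b₆).mul (hu.pow 2)).lt (e := 2 * (N + d') + 1) (by omega)
  have t5 := (isLead_X.mul (isLead_daddG hF hG hF' hG' hd hd')).congr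
    (d' := 2 * (N + d') + 1) (by omega) rfl
  have h := (((t1.add t2).add t3).add t4).sub t5
  exact h.congr rfl (by ring)

/-- Leading terms of the ladder polynomials: `ladF n` is monic of degree `n ^ 2` and
`ladG n = n ^ 2 * X ^ (n ^ 2 - 1) + ...`. -/
theorem isLead_main (n : ℕ) (hn : 1 ≤ n) :
    IsLead (ladF W n) (n ^ 2) 1 ∧
      ∃ d, d + 1 = n ^ 2 ∧ IsLead (ladG W n) d ((n : R) ^ 2) := by
  induction n using Nat.strong_induction_on with
  | _ n ih =>
    rcases Nat.even_or_odd' n with ⟨m, rfl | rfl⟩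
    · have hm : 1 ≤ m := by omega
      obtain ⟨hF, d, hd, hG⟩ := ih m (by omega) hm
      have e2 : (2 * m) ^ 2 = 4 * m ^ 2 := by ring
      rw [ladF_two_mul, ladG_two_mul]
      refine ⟨(isLead_dblF W hF hG hd).congr e2.symm rfl, 3 * m ^ 2 + d, by omega, ?_⟩
      exact (isLead_dblG W hF hG hd).congr rfl (by push_cast; ring)
    · rcases Nat.eq_zero_or_pos m with rfl | hm
      · simp only [Nat.mul_zero, Nat.zero_add]
        rw [ladF_one, ladG_one]
        exact ⟨isLead_X.congr (by norm_num) rfl, 0, by norm_num, isLead_one.congr rfl (by simp)⟩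
      · obtain ⟨hF, d, hd, hG⟩ := ih m (by omega) hm
        obtain ⟨hF', d', hd', hG'⟩ := ih (m + 1) (by omega) (by omega)
        have e1 : (m + 1) ^ 2 = m ^ 2 + 2 * m + 1 := by ring
        have e2 : (2 * m + 1) ^ 2 = 4 * m ^ 2 + 4 * m + 1 := by ring
        rw [ladF_two_mul_add_one, ladG_two_mul_add_one']
        refine ⟨(isLead_daddF W hF hG hF' hG' hd hd').congr (by omega) (by push_cast; ring),
          2 * (m ^ 2 + d'), by omega, ?_⟩
        exact (isLead_daddG hF hG hF' hG' hd hd').congr rfl (by push_cast; ring)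

theorem isLead_ladPsi (n : ℕ) :
    IsLead (ladPsi W n) (2 * n ^ 2 + 2 * n) (-(2 * (n : R) + 1)) := by
  rcases Nat.eq_zero_or_pos n with rfl | hn
  · have h : ladPsi W 0 = -1 := by
      simp [ladPsi, ladF_zero, ladG_zero, ladF_one, ladG_one]
    rw [h]
    refine ⟨by simp, by simp⟩
  · obtain ⟨hF, d, hd, hG⟩ := isLead_main W n hn
    obtain ⟨hF', d', hd', hG'⟩ := isLead_main W (n + 1) (by omega)
    have e1 : (n + 1) ^ 2 = n ^ 2 + 2 * n + 1 := by ring
    have h := ((hF'.mul hG).congr (d' := 2 * n ^ 2 + 2 * n) (by omega) rfl).sub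
      ((hF.mul hG').congr (d' := 2 * n ^ 2 + 2 * n) (by omega) rfl)
    exact h.congr rfl (by push_cast; ring)

end LADDER

theorem ladF_natDegree_le (n : ℕ) : (ladF W n).natDegree ≤ n ^ 2 := by
  rcases Nat.eq_zero_or_pos n with rfl | hn
  · simp [LADDER.ladF_zero]
  · exact (LADDER.isLead_main W n hn).1.1

theorem ladF_coeff (n : ℕ) : (ladF W n).coeff (n ^ 2) = 1 := by
  rcases Nat.eq_zero_or_pos n with rfl | hn
  · simp [LADDER.ladF_zero]
  · exact (LADDER.isLead_main W n hn).1.2

theorem ladG_natDegree_le (n : ℕ) : (ladG W n).natDegree ≤ n ^ 2 - 1 := by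
  rcases Nat.eq_zero_or_pos n with rfl | hn
  · simp [LADDER.ladG_zero]
  · obtain ⟨-, d, hd, hG⟩ := LADDER.isLead_main W n hn
    have : d = n ^ 2 - 1 := by omega
    rw [← this]
    exact hG.1

theorem ladG_coeff (n : ℕ) (hn : 0 < n) : (ladG W n).coeff (n ^ 2 - 1) = (n : R) ^ 2 := by
  obtain ⟨-, d, hd, hG⟩ := LADDER.isLead_main W n hn
  have : d = n ^ 2 - 1 := by omega
  rw [← this]
  exact hG.2

theorem ladPsi_natDegree_le (n : ℕ) : (ladPsi W n).natDegree ≤ 2 * n ^ 2 + 2 * n :=
  (LADDER.isLead_ladPsi W n).1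

theorem ladPsi_coeff (n : ℕ) : (ladPsi W n).coeff (2 * n ^ 2 + 2 * n) = -(2 * (n : R) + 1) :=
  (LADDER.isLead_ladPsi W n).2

namespace LADDER

variable {S : Type*} [CommRing S] (f : R →+* S)

lemma pasP_map (s t u : R[X]) :
    pasP (W.map f) (s.map f) (t.map f) (u.map f) = (pasP W s t u).map f := by
  simp [pasP, WeierstrassCurve.map_b₄, WeierstrassCurve.map_b₆, WeierstrassCurve.map_b₈]

lemma pasS_map (s t u : R[X]) :
    pasS (W.map f) (s.map f) (t.map f) (u.map f) = (pasS W s t u).map f := by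
  simp [pasS, WeierstrassCurve.map_b₂, WeierstrassCurve.map_b₄, WeierstrassCurve.map_b₆]

lemma pasD_map (s t u : R[X]) :
    pasD (s.map f) (t.map f) (u.map f) = (pasD s t u).map f := by
  simp [pasD]

/-- componentwise base change of a pair of polynomials -/
noncomputable def pmap (ξ : R[X] × R[X]) : S[X] × S[X] := (ξ.1.map f, ξ.2.map f)

lemma ldbl_map (ξ : R[X] × R[X]) : ldbl (W.map f) (pmap f ξ) = pmap f (ldbl W ξ) := by
  simp only [ldbl, pmap, ← pasP_map, ← pasS_map, Polynomial.map_pow, Polynomial.map_mul,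
    Polynomial.map_ofNat]

lemma ldadd_map (ξ η : R[X] × R[X]) :
    ldadd (W.map f) (pmap f ξ) (pmap f η) = pmap f (ldadd W ξ η) := by
  simp only [ldadd, pmap, ← pasS_map, ← pasD_map, Polynomial.map_sub, Polynomial.map_mul,
    Polynomial.map_add, Polynomial.map_X]

lemma ladder_map (n : ℕ) :
    ladder (W.map f) n = (pmap f (ladder W n).1, pmap f (ladder W n).2) := by
  induction n using Nat.strong_induction_on with
  | _ n ih =>
    rcases Nat.even_or_odd' n with ⟨m, rfl | rfl⟩
    · rcases Nat.eq_zero_or_pos m with rfl | hm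
      · simp [ladder_zero, pmap]
      · rw [ladder_two_mul, ladder_two_mul, ih m (by omega), ldbl_map, ldadd_map]
    · rw [ladder_two_mul_add_one, ladder_two_mul_add_one, ih m (by omega), ldbl_map, ldadd_map]

end LADDER

theorem ladF_map {S : Type*} [CommRing S] (f : R →+* S) (n : ℕ) :
    ladF (W.map f) n = (ladF W n).map f := by
  simp only [ladF, LADDER.ladder_map, LADDER.pmap]

theorem ladG_map {S : Type*} [CommRing S] (f : R →+* S) (n : ℕ) :
    ladG (W.map f) n = (ladG W n).map f := by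
  simp only [ladG, LADDER.ladder_map, LADDER.pmap]

theorem ladPsi_map {S : Type*} [CommRing S] (f : R →+* S) (n : ℕ) :
    ladPsi (W.map f) n = (ladPsi W n).map f := by
  simp only [ladPsi, ladF_map, ladG_map, Polynomial.map_sub, Polynomial.map_mul]

end Defs

section Eval

open WeierstrassCurve.Affine

variable {F : Type*} [Field F] [DecidableEq F] (W : Affine F)

namespace LADDER

omit [DecidableEq F] in
lemma eval_pasP (x : F) (s t u : F[X]) :
    (pasP W s t u).eval x = asP W (s.eval x) (t.eval x) (u.eval x) := by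
  simp [pasP, asP]

omit [DecidableEq F] in
lemma eval_pasS (x : F) (s t u : F[X]) :
    (pasS W s t u).eval x = asS W (s.eval x) (t.eval x) (u.eval x) := by
  simp [pasS, asS]

omit [DecidableEq F] in
lemma eval_pasD (x : F) (s t u : F[X]) :
    (pasD s t u).eval x = asD (s.eval x) (t.eval x) (u.eval x) := by
  simp [pasD, asD]

/-- `addSub_sym2x` in terms of `xRep`. -/
theorem addSub_xRep (P Q : W.Point) :
    ∃ c : F, c ≠ 0 ∧
      asP W (P.xRep 0 * Q.xRep 0) (P.xRep 0 * Q.xRep 1 + P.xRep 1 * Q.xRep 0)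
          (P.xRep 1 * Q.xRep 1) = c * ((P + Q).xRep 0 * (P - Q).xRep 0) ∧
      asS W (P.xRep 0 * Q.xRep 0) (P.xRep 0 * Q.xRep 1 + P.xRep 1 * Q.xRep 0)
          (P.xRep 1 * Q.xRep 1) =
        c * ((P + Q).xRep 0 * (P - Q).xRep 1 + (P + Q).xRep 1 * (P - Q).xRep 0) ∧
      asD (P.xRep 0 * Q.xRep 0) (P.xRep 0 * Q.xRep 1 + P.xRep 1 * Q.xRep 0)
          (P.xRep 1 * Q.xRep 1) = c * ((P + Q).xRep 1 * (P - Q).xRep 1) := by
  obtain ⟨c, hc, h0, h1, h2⟩ := addSub_sym2x P Q
  exact ⟨c, hc, by simpa [Point.sym2x] using h0, by simpa [Point.sym2x] using h1,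
    by simpa [Point.sym2x] using h2⟩

end LADDER

/-- The ladder computes `x(nP)` projectively, with NO exceptional cases. -/
theorem ladder_eval {x y : F} (h : W.Nonsingular x y) (n : ℕ) :
    ∃ c : F, c ≠ 0 ∧ (ladF W n).eval x = c * (n • Point.some x y h).xRep 0 ∧
      (ladG W n).eval x = c * (n • Point.some x y h).xRep 1 := by
  induction n using Nat.strong_induction_on with
  | _ n ih =>
    rcases Nat.even_or_odd' n with ⟨m, rfl | rfl⟩
    · rcases Nat.eq_zero_or_pos m with rfl | hm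
      · exact ⟨1, one_ne_zero, by simp [LADDER.ladF_zero], by simp [LADDER.ladG_zero]⟩
      · obtain ⟨c₀, hc₀, e1, e2⟩ := ih m (by omega)
        obtain ⟨c, hc, h0, h1, h2⟩ :=
          LADDER.addSub_xRep W (m • Point.some x y h) (m • Point.some x y h)
        have hadd : m • Point.some x y h + m • Point.some x y h = (2 * m) • Point.some x y h := by
          rw [two_mul, add_nsmul]
        rw [hadd, sub_self] at h0 h1 h2
        simp only [Point.xRep_zero, Matrix.cons_val_zero, Matrix.cons_val_one,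
          mul_one, mul_zero, zero_add] at h0 h1 h2
        refine ⟨c₀ ^ 4 * c, mul_ne_zero (pow_ne_zero 4 hc₀) hc, ?_, ?_⟩
        · rw [LADDER.ladF_two_mul, LADDER.eval_pasP]
          simp only [eval_pow, eval_mul, eval_ofNat, e1, e2]
          simp only [asP] at h0 ⊢
          linear_combination c₀ ^ 4 * h0
        · rw [LADDER.ladG_two_mul, LADDER.eval_pasS]
          simp only [eval_pow, eval_mul, eval_ofNat, e1, e2]
          simp only [asS] at h1 ⊢
          linear_combination c₀ ^ 4 * h1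
    · rcases Nat.eq_zero_or_pos m with rfl | hm
      · exact ⟨1, one_ne_zero, by simp [LADDER.ladF_one], by simp [LADDER.ladG_one]⟩
      · obtain ⟨c₁, hc₁, e1, e2⟩ := ih m (by omega)
        obtain ⟨c₂, hc₂, e3, e4⟩ := ih (m + 1) (by omega)
        obtain ⟨c, hc, h0, h1, h2⟩ :=
          LADDER.addSub_xRep W ((m + 1) • Point.some x y h) (m • Point.some x y h)
        have hadd : (m + 1) • Point.some x y h + m • Point.some x y h =
            (2 * m + 1) • Point.some x y h := by
          rw [← add_nsmul]; congr 1; ring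
        have hsub : (m + 1) • Point.some x y h - m • Point.some x y h = Point.some x y h := by
          rw [add_nsmul, one_nsmul, add_sub_cancel_left]
        rw [hadd, hsub] at h0 h1 h2
        simp only [Point.xRep_some, Matrix.cons_val_zero, Matrix.cons_val_one,
          mul_one] at h0 h1 h2
        refine ⟨(c₁ * c₂) ^ 2 * c, mul_ne_zero (pow_ne_zero 2 (mul_ne_zero hc₁ hc₂)) hc, ?_, ?_⟩
        · rw [LADDER.ladF_two_mul_add_one, eval_sub, eval_mul, eval_X, LADDER.eval_pasS,
            LADDER.eval_pasD]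
          simp only [eval_mul, eval_add, e1, e2, e3, e4]
          simp only [asS, asD] at h1 h2 ⊢
          linear_combination (c₁ * c₂) ^ 2 * h1 - x * (c₁ * c₂) ^ 2 * h2
        · rw [LADDER.ladG_two_mul_add_one', LADDER.eval_pasD]
          simp only [eval_mul, eval_add, e1, e2, e3, e4]
          simp only [asD] at h2 ⊢
          linear_combination (c₁ * c₂) ^ 2 * h2

theorem nsmul_eq_zero_iff_ladG {x y : F} (h : W.Nonsingular x y) (n : ℕ) :
    n • Point.some x y h = 0 ↔ (ladG W n).eval x = 0 := by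
  obtain ⟨c, hc, -, e2⟩ := ladder_eval W h n
  rw [e2]
  constructor
  · intro h0
    rw [h0]
    simp
  · intro h0
    rcases mul_eq_zero.mp h0 with h0 | h0
    · exact absurd h0 hc
    · generalize n • Point.some x y h = Q at h0
      rcases Q with _ | ⟨x', y', h'⟩
      · rfl
      · simp at h0

theorem nsmul_eq_zero_iff_ladPsi {x y : F} (h : W.Nonsingular x y) (n : ℕ) :
    (2 * n + 1) • Point.some x y h = 0 ↔ (ladPsi W n).eval x = 0 := by
  rw [nsmul_eq_zero_iff_ladG, ladG_two_mul_add_one, eval_pow, sq_eq_zero_iff]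

/-- x-coordinate of `n • P` when it is affine. -/
theorem ladder_eval_some {x y : F} (h : W.Nonsingular x y) (n : ℕ) {x' y' : F}
    (h' : W.Nonsingular x' y') (hn : n • Point.some x y h = Point.some x' y' h') :
    (ladG W n).eval x ≠ 0 ∧ (ladF W n).eval x = x' * (ladG W n).eval x := by
  obtain ⟨c, hc, e1, e2⟩ := ladder_eval W h n
  rw [hn] at e1 e2
  simp only [Point.xRep_some, Matrix.cons_val_zero, Matrix.cons_val_one,
    mul_one] at e1 e2
  rw [e1, e2]
  exact ⟨hc, mul_comm _ _⟩

end Eval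

end Fermat.Agent.S13
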