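import Fermat.Agent.S13.Defs
import Fermat.Agent.S13.Ladder
import Fermat.Agent.S13.FreyFacts
import Fermat.Agent.S13.Val

/-! # Structure of the p-torsion of the Frey curve via the ladder polynomial (task T1) -/

set_option autoImplicit false

open WeierstrassCurve WeierstrassCurve.Affine WeierstrassCurve.Affine.Point Polynomial

namespace Fermat.Agent.S13

/-- The integral `p`-division polynomial (up to sign) of the Frey curve. -/
noncomputable def freyPsi (P : FreyPackage) : ℤ[X] := ladPsi P.freyCurveInt ((P.p - 1) / 2)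

namespace T1

lemma two_mul_half (P : FreyPackage) : 2 * ((P.p - 1) / 2) + 1 = P.p := by
  obtain ⟨k, hk⟩ := P.hp_odd
  omega

lemma deg_eq (P : FreyPackage) :
    2 * ((P.p - 1) / 2) ^ 2 + 2 * ((P.p - 1) / 2) = (P.p ^ 2 - 1) / 2 := by
  obtain ⟨k, hk⟩ := P.hp_odd
  have h1 : (P.p - 1) / 2 = k := by omega
  rw [h1, hk]
  have h2 : (2 * k + 1) ^ 2 = 2 * (2 * k ^ 2 + 2 * k) + 1 := by ring
  rw [h2]
  omega

lemma deg_pos (P : FreyPackage) : 0 < (P.p ^ 2 - 1) / 2 := by
  have h5 := P.hp5
  have h2 : 5 ^ 2 ≤ P.p ^ 2 := Nat.pow_le_pow_left h5 2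
  omega

lemma one_add_two_mul_deg (P : FreyPackage) : 1 + 2 * ((P.p ^ 2 - 1) / 2) = P.p ^ 2 := by
  rw [← deg_eq P]
  obtain ⟨k, hk⟩ := P.hp_odd
  have h1 : (P.p - 1) / 2 = k := by omega
  rw [h1, hk]
  ring

/-- The division polynomial over `ℚ̄`. -/
noncomputable def psiQb (P : FreyPackage) : Qb[X] := (freyPsi P).map (Int.castRingHom Qb)

end T1

theorem freyPsi_natDegree_le (P : FreyPackage) : (freyPsi P).natDegree ≤ (P.p ^ 2 - 1) / 2 := by
  rw [← T1.deg_eq P]
  exact ladPsi_natDegree_le _ _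

theorem freyPsi_coeff (P : FreyPackage) :
    (freyPsi P).coeff ((P.p ^ 2 - 1) / 2) = -(P.p : ℤ) := by
  rw [← T1.deg_eq P, freyPsi, ladPsi_coeff]
  have h := T1.two_mul_half P
  congr 1
  exact_mod_cast h

namespace T1

lemma psiQb_coeff (P : FreyPackage) : (psiQb P).coeff ((P.p ^ 2 - 1) / 2) = -(P.p : Qb) := by
  rw [psiQb, coeff_map, freyPsi_coeff]
  simp

lemma psiQb_ne_zero (P : FreyPackage) : psiQb P ≠ 0 := by
  intro h
  have h1 := psiQb_coeff P
  rw [h, coeff_zero] at h1
  have h2 : (P.p : Qb) ≠ 0 := Nat.cast_ne_zero.mpr P.hp0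
  exact h2 (neg_eq_zero.mp h1.symm)

lemma psiQb_natDegree_le (P : FreyPackage) : (psiQb P).natDegree ≤ (P.p ^ 2 - 1) / 2 :=
  (natDegree_map_le).trans (freyPsi_natDegree_le P)

lemma psiQb_degree_ne_zero (P : FreyPackage) : (psiQb P).degree ≠ 0 := by
  intro h
  have h0 : (psiQb P).natDegree = 0 := natDegree_eq_zero_iff_degree_le_zero.mpr h.le
  have h1 := psiQb_coeff P
  rw [coeff_eq_zero_of_natDegree_lt (by rw [h0]; exact deg_pos P)] at h1
  have h2 : (P.p : Qb) ≠ 0 := Nat.cast_ne_zero.mpr P.hp0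
  exact h2 (neg_eq_zero.mp h1.symm)

lemma aeval_eq_eval (P : FreyPackage) (x : Qb) : aeval x (freyPsi P) = (psiQb P).eval x := by
  rw [psiQb, eval_map, aeval_def]
  rfl

end T1

/-- Torsion criterion: `p • (x, y) = 0 ↔ Ψ_p(x) = 0`. -/
theorem nsmul_eq_zero_iff_freyPsi (P : FreyPackage) {x y : Qb} (h : (EQb P).Nonsingular x y) :
    P.p • Point.some x y h = 0 ↔ aeval x (freyPsi P) = 0 := by
  have h1 := nsmul_eq_zero_iff_ladPsi (EQb P) h ((P.p - 1) / 2)
  rw [T1.two_mul_half P] at h1
  rw [h1, T1.aeval_eq_eval, T1.psiQb, freyPsi, ← ladPsi_map, ← EQb_eq_map]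

theorem tors_nontrivial (P : FreyPackage) : Nontrivial (Tors P) := by
  obtain ⟨x, hx⟩ := IsAlgClosed.exists_root (T1.psiQb P) (T1.psiQb_degree_ne_zero P)
  obtain ⟨y, hy⟩ := EQb_exists_y P x
  have hns : (EQb P).Nonsingular x y := EQb_nonsingular P hy
  have hQ : P.p • Point.some x y hns = 0 := by
    rw [nsmul_eq_zero_iff_freyPsi, T1.aeval_eq_eval]
    exact hx
  refine ⟨⟨⟨Point.some x y hns, (mem_tors_iff _).2 hQ⟩, 0, ?_⟩⟩
  intro h
  have h2 : (Point.some x y hns : (EQb P).Point) = 0 := congrArg Subtype.val h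
  exact Point.some_ne_zero _ h2

namespace T1

/-- A choice of `y`-coordinate above each `x`. -/
noncomputable def sel (P : FreyPackage) (x : Qb) : Qb :=
  Classical.epsilon (fun y => (EQb P).Equation x y)

/-- Coordinates of a point: `x` and a flag telling which of the two `y` it is. -/
noncomputable def code (P : FreyPackage) : (EQb P).Point → Option (Qb × Bool)
  | 0 => none
  | Point.some x y _ => some (x, decide (y = sel P x))

lemma code_injective (P : FreyPackage) : Function.Injective (code P) := by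
  intro Q₁ Q₂ h
  rcases Q₁ with _ | ⟨x₁, y₁, h₁⟩ <;> rcases Q₂ with _ | ⟨x₂, y₂, h₂⟩
  · rfl
  · simp [code] at h
  · simp [code] at h
  · simp only [code, Option.some.injEq, Prod.mk.injEq] at h
    obtain ⟨hx, hf⟩ := h
    subst hx
    have hsel : (EQb P).Equation x₁ (sel P x₁) :=
      Classical.epsilon_spec (p := fun y => (EQb P).Equation x₁ y) ⟨y₁, h₁.1⟩
    have hy : y₁ = y₂ := by
      by_cases hy₁ : y₁ = sel P x₁
      · have : y₂ = sel P x₁ := by simpa [hy₁] using hf
        rw [hy₁, this]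
      · have hy₂ : y₂ ≠ sel P x₁ := by
          intro h'
          simp [hy₁, h'] at hf
        have e₁ := (Y_eq_of_X_eq h₁.1 hsel rfl).resolve_left hy₁
        have e₂ := (Y_eq_of_X_eq h₂.1 hsel rfl).resolve_left hy₂
        rw [e₁, e₂]
    subst hy
    rfl

/-- The finite set of possible codes of torsion points. -/
noncomputable def codes (P : FreyPackage) : Finset (Option (Qb × Bool)) :=
  insert none (((psiQb P).roots.toFinset ×ˢ (Finset.univ : Finset Bool)).image some)

lemma card_codes_le (P : FreyPackage) : (codes P).card ≤ P.p ^ 2 := by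
  have h1 : (psiQb P).roots.toFinset.card ≤ (P.p ^ 2 - 1) / 2 :=
    ((Multiset.toFinset_card_le _).trans (card_roots' _)).trans (psiQb_natDegree_le P)
  have h2 : (((psiQb P).roots.toFinset ×ˢ (Finset.univ : Finset Bool)).image some).card
      ≤ 2 * ((P.p ^ 2 - 1) / 2) := by
    refine Finset.card_image_le.trans ?_
    rw [Finset.card_product, Finset.card_univ, Fintype.card_bool, mul_comm]
    exact Nat.mul_le_mul_left 2 h1
  calc (codes P).card ≤ (((psiQb P).roots.toFinset ×ˢ (Finset.univ : Finset Bool)).image some).card + 1 :=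
        Finset.card_insert_le _ _
    _ ≤ 2 * ((P.p ^ 2 - 1) / 2) + 1 := Nat.add_le_add_right h2 1
    _ = P.p ^ 2 := by have := one_add_two_mul_deg P; omega

lemma code_mem (P : FreyPackage) (v : Tors P) : code P (v : (EQb P).Point) ∈ codes P := by
  have hv : P.p • (v : (EQb P).Point) = 0 := (mem_tors_iff _).1 v.2
  rcases hQ : (v : (EQb P).Point) with _ | ⟨x, y, h⟩
  · simp [codes, code]
  · rw [hQ] at hv
    rw [nsmul_eq_zero_iff_freyPsi, aeval_eq_eval] at hv
    have hx : x ∈ (psiQb P).roots.toFinset := by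
      rw [Multiset.mem_toFinset, mem_roots (psiQb_ne_zero P)]
      exact hv
    simp only [codes, code, Finset.mem_insert, Finset.mem_image, Finset.mem_product,
      Finset.mem_univ, and_true]
    right
    exact ⟨(x, decide (y = sel P x)), hx, rfl⟩

/-- The injection of the torsion into the finite set of codes. -/
noncomputable def codeMap (P : FreyPackage) (v : Tors P) : {z // z ∈ codes P} :=
  ⟨code P (v : (EQb P).Point), code_mem P v⟩

lemma codeMap_injective (P : FreyPackage) : Function.Injective (codeMap P) := by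
  intro v w h
  have h1 : code P (v : (EQb P).Point) = code P (w : (EQb P).Point) := congrArg Subtype.val h
  exact Subtype.ext (code_injective P h1)

end T1

theorem tors_finite (P : FreyPackage) : Finite (Tors P) :=
  Finite.of_injective (T1.codeMap P) (T1.codeMap_injective P)

theorem tors_card_le (P : FreyPackage) : Nat.card (Tors P) ≤ P.p ^ 2 := by
  have h1 := Nat.card_le_card_of_injective (T1.codeMap P) (T1.codeMap_injective P)
  have h2 : Nat.card {z // z ∈ T1.codes P} = (T1.codes P).card := by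
    rw [Nat.card_eq_fintype_card, Fintype.card_coe]
  rw [h2] at h1
  exact h1.trans (T1.card_codes_le P)

end Fermat.Agent.S13
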