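import Fermat.Agent.S13.Defs
import Fermat.Agent.S13.LocSame
import Fermat.Agent.S13.NodePair
import Fermat.Agent.S13.NodeLagrange
import Fermat.Agent.S13.PsiModP
import Fermat.Agent.S13.Torsion
import Fermat.Agent.S13.FreyFacts
import Fermat.Agent.S13.Val

/-! # Local analysis at p (task P01) -/

set_option autoImplicit false

open WeierstrassCurve WeierstrassCurve.Affine WeierstrassCurve.Affine.Point

namespace Fermat.Agent.S13

namespace P01

/-- `2` is a unit at a valuation subring over the (odd) prime `p` of a Frey package. -/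
theorem valuation_two (P : FreyPackage) (A : ValuationSubring Qb)
    (hA : A.LiesOverPrime P.p) : A.valuation (2 : Qb) = 1 := by
  have h := valuation_intCast_eq_one A hA P.pp 2 (by
    intro hdvd
    have h1 := Int.le_of_dvd (by norm_num) hdvd
    have h2 := P.hp5
    omega)
  simpa using h

/-- The `b`-invariants of the Frey curve over `ℚ̄` lie in every valuation subring. -/
theorem b_mem (P : FreyPackage) (A : ValuationSubring Qb) :
    (EQb P).b₂ ∈ A ∧ (EQb P).b₄ ∈ A ∧ (EQb P).b₆ ∈ A ∧ (EQb P).b₈ ∈ A := by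
  rw [EQb_eq_map P]
  refine ⟨?_, ?_, ?_, ?_⟩
  · rw [WeierstrassCurve.map_b₂]; exact intCast_mem A _
  · rw [WeierstrassCurve.map_b₄]; exact intCast_mem A _
  · rw [WeierstrassCurve.map_b₆]; exact intCast_mem A _
  · rw [WeierstrassCurve.map_b₈]; exact intCast_mem A _

/-- `NonIntegral` for a torsion point whose underlying point is `0`. -/
theorem nonIntegral_of_coe_eq_zero (A : ValuationSubring Qb) {P : FreyPackage} (v : Tors P)
    (hv : (v : (EQb P).Point) = 0) : NonIntegral A v := by
  intro x y h hxy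
  rw [hv] at hxy
  exact absurd hxy (by simp [Point.zero_def])

/-- `NonIntegral` for a torsion point whose underlying point is affine with non-integral `x`. -/
theorem nonIntegral_of_coe_eq_some (A : ValuationSubring Qb) {P : FreyPackage} (v : Tors P)
    {x y : Qb} {h : (EQb P).Nonsingular x y} (hv : (v : (EQb P).Point) = Point.some x y h)
    (hx : x ∉ A) : NonIntegral A v := by
  intro x' y' h' hxy
  rw [hv] at hxy
  have := (Point.some.injEq ..).mp hxy
  rw [← this.1]
  exact hx

/-- The additive subgroup of non-integral torsion points. -/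
noncomputable def nonIntegralAddSubgroup (P : FreyPackage) (A : ValuationSubring Qb)
    (hA : A.LiesOverPrime P.p) : AddSubgroup (Tors P) where
  carrier := {v | NonIntegral A v}
  zero_mem' := nonIntegral_of_coe_eq_zero A 0 rfl
  add_mem' := by
    intro v w hv hw
    obtain ⟨hb₂, hb₄, hb₆, hb₈⟩ := b_mem P A
    have h2 := valuation_two P A hA
    rcases hvc : (v : (EQb P).Point) with _ | ⟨x₁, y₁, h₁⟩
    · have hv0 : v = 0 := Subtype.ext hvc
      rw [hv0, zero_add]; exact hw
    rcases hwc : (w : (EQb P).Point) with _ | ⟨x₂, y₂, h₂⟩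
    · have hw0 : w = 0 := Subtype.ext hwc
      rw [hw0, add_zero]; exact hv
    have hx₁ : x₁ ∉ A := hv x₁ y₁ h₁ hvc
    have hx₂ : x₂ ∉ A := hw x₂ y₂ h₂ hwc
    have hsum : ((v + w : Tors P) : (EQb P).Point) = Point.some x₁ y₁ h₁ + Point.some x₂ y₂ h₂ := by
      rw [Submodule.coe_add, hvc, hwc]
    rcases add_nonintegral A (EQb P) hb₂ hb₄ hb₆ hb₈ h2 h₁ h₂ hx₁ hx₂ with h0 | ⟨x, y, h, hxy, hx⟩
    · exact nonIntegral_of_coe_eq_zero A _ (hsum.trans h0)
    · exact nonIntegral_of_coe_eq_some A _ (hsum.trans hxy) hx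
  neg_mem' := by
    intro v hv
    rcases hvc : (v : (EQb P).Point) with _ | ⟨x₁, y₁, h₁⟩
    · have hv0 : v = 0 := Subtype.ext hvc
      rw [hv0, _root_.neg_zero]; exact nonIntegral_of_coe_eq_zero A 0 rfl
    · have hx₁ : x₁ ∉ A := hv x₁ y₁ h₁ hvc
      have hneg : ((-v : Tors P) : (EQb P).Point) = -Point.some x₁ y₁ h₁ := by
        rw [Submodule.coe_neg, hvc]
      rw [Point.neg_some] at hneg
      exact nonIntegral_of_coe_eq_some A _ hneg hx₁

end P01

/-- (P0) The non-integral torsion points (kernel of reduction) form a submodule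
(`add_nonintegral`; 2 is a unit at `A`). -/
theorem nonIntegral_submodule (P : FreyPackage) (A : ValuationSubring Qb)
    (hA : A.LiesOverPrime P.p) :
    ∃ V1 : Submodule (ZMod P.p) (Tors P), ∀ v : Tors P, v ∈ V1 ↔ NonIntegral A v :=
  ⟨AddSubgroup.toZModSubmodule P.p (P01.nonIntegralAddSubgroup P A hA), fun _ => Iff.rfl⟩

namespace P01

open Polynomial in
/-- A product of `X - C a` with all `a` in a subring `A` has all its coefficients in `A`. -/
theorem coeff_prod_X_sub_C_mem (A : ValuationSubring Qb) (m : Multiset Qb)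
    (hm : ∀ a ∈ m, a ∈ A) (n : ℕ) : ((m.map (fun a => X - C a)).prod).coeff n ∈ A := by
  have hmem : (m.map (fun a => X - C a)).prod ∈ Polynomial.lifts A.subtype := by
    apply Subsemiring.multiset_prod_mem
    intro q hq
    obtain ⟨a, ha, rfl⟩ := Multiset.mem_map.mp hq
    rw [Polynomial.mem_lifts]
    refine ⟨X - C ⟨a, hm a ha⟩, ?_⟩
    simp
  rw [Polynomial.lifts_iff_coeff_lifts] at hmem
  obtain ⟨c, hc⟩ := hmem n
  rw [← hc]
  exact c.2

open Polynomial in
/-- If every root in `ℚ̄` of `Ψ_p` lies in `A`, then `p` divides every coefficient of `Ψ_p`. -/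
theorem dvd_coeff_of_roots_mem (P : FreyPackage) (A : ValuationSubring Qb)
    (hA : A.LiesOverPrime P.p)
    (hroots : ∀ a ∈ ((freyPsi P).map (Int.castRingHom Qb)).roots, a ∈ A) (n : ℕ) :
    (P.p : ℤ) ∣ (freyPsi P).coeff n := by
  set f : Qb[X] := (freyPsi P).map (Int.castRingHom Qb) with hf
  have hinj : Function.Injective (Int.castRingHom Qb) := Int.cast_injective
  have hpne : (P.p : ℤ) ≠ 0 := by exact_mod_cast P.hp0
  have hcd : (freyPsi P).coeff ((P.p ^ 2 - 1) / 2) ≠ 0 := by
    rw [freyPsi_coeff]; exact neg_ne_zero.mpr hpne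
  have hnd : (freyPsi P).natDegree = (P.p ^ 2 - 1) / 2 :=
    le_antisymm (freyPsi_natDegree_le P) (Polynomial.le_natDegree_of_ne_zero hcd)
  have hlc : f.leadingCoeff = -(P.p : Qb) := by
    rw [hf, Polynomial.leadingCoeff_map_of_injective hinj, Polynomial.leadingCoeff, hnd,
      freyPsi_coeff]
    simp
  have hsplit : f = C f.leadingCoeff * (f.roots.map (fun a => X - C a)).prod :=
    (IsAlgClosed.splits f).eq_prod_roots
  have hcoef : ((freyPsi P).coeff n : Qb) =
      -(P.p : Qb) * ((f.roots.map (fun a => X - C a)).prod).coeff n := by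
    have h1 : f.coeff n = ((freyPsi P).coeff n : Qb) := by
      rw [hf, Polynomial.coeff_map]; rfl
    rw [← h1, ← hlc]
    conv_lhs => rw [hsplit]
    rw [Polynomial.coeff_C_mul]
  by_contra hndvd
  have hv1 : A.valuation (((freyPsi P).coeff n : ℤ) : Qb) = 1 :=
    valuation_intCast_eq_one A hA P.pp _ hndvd
  have hmemA := coeff_prod_X_sub_C_mem A f.roots hroots n
  have hle : A.valuation (((f.roots.map (fun a => X - C a)).prod).coeff n) ≤ 1 :=
    (A.valuation_le_one_iff _).mpr hmemA
  have hlt : A.valuation ((P.p : ℕ) : Qb) < 1 := valuation_prime_lt_one A hA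
  rw [hcoef, map_mul, Valuation.map_neg] at hv1
  have : A.valuation ((P.p : ℕ) : Qb) *
      A.valuation (((f.roots.map (fun a => X - C a)).prod).coeff n) < 1 := by
    calc A.valuation ((P.p : ℕ) : Qb) *
        A.valuation (((f.roots.map (fun a => X - C a)).prod).coeff n)
        ≤ A.valuation ((P.p : ℕ) : Qb) * 1 := mul_le_mul' le_rfl hle
      _ < 1 := by rw [mul_one]; exact hlt
  rw [hv1] at this
  exact lt_irrefl _ this

end P01

/-- (P1) There is a nonzero non-integral torsion point: otherwise all roots of `freyPsi` (leading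
coefficient `-p`) are integral, so `freyPsi ≡ 0 mod p`, contradicting `freyPsi_mod_p_ne_zero`. -/
theorem exists_nonIntegral (P : FreyPackage) (A : ValuationSubring Qb)
    (hA : A.LiesOverPrime P.p) : ∃ v : Tors P, v ≠ 0 ∧ NonIntegral A v := by
  by_contra hcon
  push Not at hcon
  apply freyPsi_mod_p_ne_zero P
  have hroots : ∀ a ∈ ((freyPsi P).map (Int.castRingHom Qb)).roots, a ∈ A := by
    intro a ha
    have hev : Polynomial.aeval a (freyPsi P) = 0 := by
      have := (Polynomial.mem_roots'.mp ha).2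
      rw [Polynomial.IsRoot.def, Polynomial.eval_map] at this
      rw [Polynomial.aeval_def, RingHom.ext_int (algebraMap ℤ Qb) (Int.castRingHom Qb)]; exact this
    obtain ⟨y, hy⟩ := EQb_exists_y P a
    have hns := EQb_nonsingular P hy
    have htor : P.p • Point.some a y hns = 0 := (nsmul_eq_zero_iff_freyPsi P hns).mpr hev
    let v : Tors P := ⟨Point.some a y hns, (mem_tors_iff _).mpr htor⟩
    have hv0 : v ≠ 0 := by
      intro h0
      have : (v : (EQb P).Point) = 0 := by rw [h0]; rfl
      exact absurd this (by simp [v, Point.zero_def])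
    have hnot := hcon v hv0
    unfold NonIntegral at hnot
    push Not at hnot
    obtain ⟨x', y', h', hxy, hx'⟩ := hnot
    have := (Point.some.injEq ..).mp hxy
    rw [this.1]
    exact hx'
  ext n
  rw [Polynomial.coeff_map, Polynomial.coeff_zero]
  exact (ZMod.intCast_zmod_eq_zero_iff_dvd _ _).mpr (P01.dvd_coeff_of_roots_mem P A hA hroots n)

end Fermat.Agent.S13
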