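import Fermat.Agent.S13.Defs
import Fermat.Agent.S13.LocSame
import Fermat.Agent.S13.NodePair
import Fermat.Agent.S13.NodeLagrange
import Fermat.Agent.S13.PsiModP
import Fermat.Agent.S13.Torsion
import Fermat.Agent.S13.FreyFacts
import Fermat.Agent.S13.Val

/-! # Local analysis at p (task P2) -/

set_option autoImplicit false

open WeierstrassCurve WeierstrassCurve.Affine WeierstrassCurve.Affine.Point

namespace Fermat.Agent.S13

namespace P2

open Polynomial

/-- Coefficients of `∏ (1 - a X)` with all `a` of valuation `< 1`: constant coefficient `1`,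
all coefficients integral, all higher coefficients of valuation `< 1`. -/
theorem coeff_prod_one_sub (A : ValuationSubring Qb) (m : Multiset Qb)
    (hm : ∀ a ∈ m, A.valuation a < 1) :
    ((m.map (fun a => (1 : Qb[X]) - C a * X)).prod).coeff 0 = 1 ∧
    (∀ i, A.valuation (((m.map (fun a => (1 : Qb[X]) - C a * X)).prod).coeff i) ≤ 1) ∧
    ∀ i, 1 ≤ i → A.valuation (((m.map (fun a => (1 : Qb[X]) - C a * X)).prod).coeff i) < 1 := by
  induction m using Multiset.induction_on with
  | empty =>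
    refine ⟨by simp, fun i => ?_, fun i hi => ?_⟩
    · simp only [Multiset.map_zero, Multiset.prod_zero, coeff_one]
      split_ifs <;> simp
    · simp only [Multiset.map_zero, Multiset.prod_zero, coeff_one]
      rw [if_neg (by omega)]; simp
  | cons a s ih =>
    obtain ⟨h0, hle, hlt⟩ := ih (fun b hb => hm b (Multiset.mem_cons_of_mem hb))
    have ha : A.valuation a < 1 := hm a (Multiset.mem_cons_self a s)
    set Q := (s.map (fun a => (1 : Qb[X]) - C a * X)).prod with hQ
    have hprod : ((a ::ₘ s).map (fun a => (1 : Qb[X]) - C a * X)).prod = Q - C a * (X * Q) := by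
      rw [Multiset.map_cons, Multiset.prod_cons]; ring
    rw [hprod]
    have hsucc : ∀ j, (Q - C a * (X * Q)).coeff (j + 1) = Q.coeff (j + 1) - a * Q.coeff j := by
      intro j
      rw [coeff_sub, coeff_C_mul, coeff_X_mul]
    have hzero : (Q - C a * (X * Q)).coeff 0 = 1 := by
      rw [coeff_sub, coeff_C_mul, coeff_X_mul_zero, mul_zero, sub_zero, h0]
    have hmul : ∀ j, A.valuation (a * Q.coeff j) < 1 := by
      intro j
      rw [map_mul]
      calc A.valuation a * A.valuation (Q.coeff j) ≤ A.valuation a * 1 := mul_le_mul' le_rfl (hle j)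
        _ < 1 := by rw [mul_one]; exact ha
    refine ⟨hzero, fun i => ?_, fun i hi => ?_⟩
    · rcases i with _ | j
      · rw [hzero, map_one]
      · rw [hsucc]
        exact Valuation.map_sub_le _ (hle _) (hmul j).le
    · obtain ⟨j, rfl⟩ : ∃ j, i = j + 1 := ⟨i - 1, by omega⟩
      rw [hsucc]
      exact Valuation.map_sub_lt _ (hlt _ (by omega)) (hmul j)

/-- If `f = C c * ∏ (X - x_i)` with all `v(x_i) > 1`, then every higher coefficient of `f` has
valuation at most that of the constant coefficient, strictly less when the constant coefficient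
is nonzero; written multiplicatively: `f.coeff i = f.coeff 0 * r` with `v r < 1`. -/
theorem coeff_eq_coeff_zero_mul (A : ValuationSubring Qb) (c : Qb) (m : Multiset Qb)
    (hm : ∀ a ∈ m, 1 < A.valuation a) (i : ℕ) (hi : 1 ≤ i) :
    ∃ r : Qb, A.valuation r < 1 ∧
      (C c * (m.map (fun a => X - C a)).prod).coeff i =
        (C c * (m.map (fun a => X - C a)).prod).coeff 0 * r := by
  have hne : ∀ a ∈ m, a ≠ 0 := by
    intro a ha h0
    have := hm a ha
    rw [h0, _root_.map_zero] at this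
    exact absurd this (by simp)
  have hfac : (m.map (fun a => X - C a)).prod =
      C ((m.map (fun a => -a)).prod) * ((m.map (fun a => a⁻¹)).map
        (fun a => (1 : Qb[X]) - C a * X)).prod := by
    rw [Multiset.map_map]
    have h1 : (m.map (fun a => (X : Qb[X]) - C a)) =
        m.map (fun a => C (-a) * (((fun a => (1 : Qb[X]) - C a * X) ∘ fun a => a⁻¹) a)) := by
      apply Multiset.map_congr rfl
      intro a ha
      have ha0 := hne a ha
      have h2 : C a * C a⁻¹ = (1 : Qb[X]) := by rw [← C_mul, mul_inv_cancel₀ ha0, C_1]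
      simp only [Function.comp]
      rw [C_neg]
      linear_combination (-X : Qb[X]) * h2
    rw [h1, Multiset.prod_map_mul]
    congr 1
    rw [← Multiset.prod_hom _ (C : Qb →+* Qb[X]), Multiset.map_map]
    rfl
  have hm' : ∀ a ∈ m.map (fun a => a⁻¹), A.valuation a < 1 := by
    intro a ha
    obtain ⟨b, hb, rfl⟩ := Multiset.mem_map.mp ha
    rw [map_inv₀]
    exact inv_lt_one_of_one_lt₀ (hm b hb)
  obtain ⟨h0, -, hlt⟩ := coeff_prod_one_sub A _ hm'
  refine ⟨_, hlt i hi, ?_⟩
  rw [hfac, ← mul_assoc, ← C_mul, coeff_C_mul, coeff_C_mul, h0, mul_one]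

/-- When all roots of `Ψ_p` in `ℚ̄` are non-integral: the constant coefficient is a unit at `A`
and `p` divides all the other coefficients. -/
theorem coeff_facts (P : FreyPackage) (A : ValuationSubring Qb) (hA : A.LiesOverPrime P.p)
    (hroots : ∀ a ∈ ((freyPsi P).map (Int.castRingHom Qb)).roots, a ∉ A) :
    A.valuation (((freyPsi P).coeff 0 : ℤ) : Qb) = 1 ∧
      ∀ i, 1 ≤ i → (P.p : ℤ) ∣ (freyPsi P).coeff i := by
  set f : Qb[X] := (freyPsi P).map (Int.castRingHom Qb) with hf
  have hsplit : f = C f.leadingCoeff * (f.roots.map (fun a => X - C a)).prod :=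
    (IsAlgClosed.splits f).eq_prod_roots
  have hm : ∀ a ∈ f.roots, 1 < A.valuation a := by
    intro a ha
    have := hroots a ha
    rw [← A.valuation_le_one_iff] at this
    exact not_le.mp this
  have hcoe : ∀ i, f.coeff i = (((freyPsi P).coeff i : ℤ) : Qb) := by
    intro i; rw [hf, Polynomial.coeff_map]; rfl
  have key : ∀ i, 1 ≤ i → ∃ r : Qb, A.valuation r < 1 ∧
      (((freyPsi P).coeff i : ℤ) : Qb) = (((freyPsi P).coeff 0 : ℤ) : Qb) * r := by
    intro i hi
    obtain ⟨r, hr, h⟩ := coeff_eq_coeff_zero_mul A f.leadingCoeff f.roots hm i hi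
    rw [← hsplit, hcoe, hcoe] at h
    exact ⟨r, hr, h⟩
  have hp5 := P.hp5
  have hd1 : 1 ≤ (P.p ^ 2 - 1) / 2 := by
    have : 25 ≤ P.p ^ 2 := by nlinarith
    omega
  have hpQ : ((P.p : ℕ) : Qb) ≠ 0 := by exact_mod_cast P.hp0
  have hle : ∀ n : ℤ, A.valuation (n : Qb) ≤ 1 := fun n =>
    (A.valuation_le_one_iff _).mpr (intCast_mem A n)
  have h0 : A.valuation (((freyPsi P).coeff 0 : ℤ) : Qb) = 1 := by
    apply valuation_intCast_eq_one A hA P.pp
    rintro ⟨k, hk⟩
    obtain ⟨r, hr, h⟩ := key _ hd1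
    rw [freyPsi_coeff, hk] at h
    push_cast at h
    have h1 : (-1 : Qb) = (k : Qb) * r := by
      have h2 : ((P.p : ℕ) : Qb) * (-1) = ((P.p : ℕ) : Qb) * ((k : Qb) * r) := by
        rw [← mul_assoc, ← h]; ring
      exact mul_left_cancel₀ hpQ h2
    have h3 : A.valuation ((k : Qb) * r) < 1 := by
      rw [map_mul]
      calc A.valuation (k : Qb) * A.valuation r ≤ 1 * A.valuation r := mul_le_mul' (hle k) le_rfl
        _ < 1 := by rw [one_mul]; exact hr
    rw [← h1, Valuation.map_neg, map_one] at h3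
    exact lt_irrefl _ h3
  refine ⟨h0, fun i hi => ?_⟩
  by_contra hnd
  have h1 := valuation_intCast_eq_one A hA P.pp _ hnd
  obtain ⟨r, hr, h⟩ := key i hi
  rw [h, map_mul, h0, one_mul] at h1
  rw [h1] at hr
  exact lt_irrefl _ hr

/-- Every non-integral root `x` of `Ψ_p` satisfies `v(p)·v(x)^d = 1`, `d = (p²-1)/2`, as soon as
the constant coefficient is a unit and `p` divides all the other coefficients. -/
theorem root_valuation (P : FreyPackage) (A : ValuationSubring Qb)
    (h0 : A.valuation (((freyPsi P).coeff 0 : ℤ) : Qb) = 1)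
    (hdvd : ∀ i, 1 ≤ i → (P.p : ℤ) ∣ (freyPsi P).coeff i)
    (x : Qb) (hx : x ∉ A) (hroot : aeval x (freyPsi P) = 0) :
    A.valuation ((P.p : ℕ) : Qb) * A.valuation x ^ ((P.p ^ 2 - 1) / 2) = 1 := by
  have hp5 := P.hp5
  have hd1 : 1 ≤ (P.p ^ 2 - 1) / 2 := by
    have : 25 ≤ P.p ^ 2 := by nlinarith
    omega
  obtain ⟨d', hd'⟩ : ∃ d', (P.p ^ 2 - 1) / 2 = d' + 1 := ⟨(P.p ^ 2 - 1) / 2 - 1, by omega⟩
  have hx1 : 1 < A.valuation x := by
    rw [← A.valuation_le_one_iff] at hx
    exact not_le.mp hx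
  have hvp0 : A.valuation ((P.p : ℕ) : Qb) ≠ 0 := valuation_prime_ne_zero A P.pp
  have hvx0 : A.valuation x ≠ 0 := (lt_trans zero_lt_one hx1).ne'
  have hle : ∀ n : ℤ, A.valuation (n : Qb) ≤ 1 := fun n =>
    (A.valuation_le_one_iff _).mpr (intCast_mem A n)
  have hsum := Polynomial.aeval_eq_sum_range' (p := freyPsi P) (n := (P.p ^ 2 - 1) / 2 + 1)
    (Nat.lt_succ_of_le (freyPsi_natDegree_le P)) x
  rw [hroot, Finset.sum_range_succ, freyPsi_coeff, hd', Finset.sum_range_succ'] at hsum
  simp only [zsmul_eq_mul, pow_zero, mul_one] at hsum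
  set M : Qb := ∑ j ∈ Finset.range d', (((freyPsi P).coeff (j + 1) : ℤ) : Qb) * x ^ (j + 1) with hM
  set T : Qb := ((-(P.p : ℤ) : ℤ) : Qb) * x ^ (d' + 1) with hT
  have hvT : A.valuation T = A.valuation ((P.p : ℕ) : Qb) * A.valuation x ^ (d' + 1) := by
    rw [hT, map_mul, map_pow]
    congr 1
    push_cast
    rw [Valuation.map_neg]
  have hvT0 : A.valuation T ≠ 0 := by
    rw [hvT]; exact mul_ne_zero hvp0 (pow_ne_zero _ hvx0)
  have hvM : A.valuation M < A.valuation T := by
    rw [hM]
    apply Valuation.map_sum_lt _ hvT0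
    intro j hj
    have hj' : j + 1 < d' + 1 := by simpa using hj
    obtain ⟨k, hk⟩ := hdvd (j + 1) (by omega)
    rw [hvT, map_mul, map_pow, hk]
    push_cast
    rw [map_mul]
    have h1 : A.valuation ((P.p : ℕ) : Qb) * A.valuation (k : Qb) ≤ A.valuation ((P.p : ℕ) : Qb) :=
      calc A.valuation ((P.p : ℕ) : Qb) * A.valuation (k : Qb)
          ≤ A.valuation ((P.p : ℕ) : Qb) * 1 := mul_le_mul' le_rfl (hle k)
        _ = _ := mul_one _
    have h2 : A.valuation x ^ (j + 1) < A.valuation x ^ (d' + 1) :=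
      pow_lt_pow_right₀ hx1 hj'
    calc A.valuation ((P.p : ℕ) : Qb) * A.valuation (k : Qb) * A.valuation x ^ (j + 1)
        ≤ A.valuation ((P.p : ℕ) : Qb) * A.valuation x ^ (j + 1) := mul_le_mul' h1 le_rfl
      _ < A.valuation ((P.p : ℕ) : Qb) * A.valuation x ^ (d' + 1) :=
        mul_lt_mul_of_pos_left h2 (zero_lt_iff.mpr hvp0)
  have hc0 : (((freyPsi P).coeff 0 : ℤ) : Qb) = -(M + T) := by
    linear_combination -hsum
  have : A.valuation (((freyPsi P).coeff 0 : ℤ) : Qb) = A.valuation T := by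
    rw [hc0, Valuation.map_neg]
    exact Valuation.map_add_eq_of_lt_right _ hvM
  rw [h0, hvT] at this
  rw [hd']
  exact this.symm

/-- x-coordinate of a point (`0` for the point at infinity). -/
noncomputable def xc {P : FreyPackage} : (EQb P).Point → Qb
  | .zero => 0
  | @Point.some _ _ _ x _ _ => x

end P2

/-- (P2) (supersingular exclusion) If all torsion points are non-integral, every root `x` of
`freyPsi` satisfies `v(p)·v(x)^d = 1`, `d = (p²-1)/2` (constant term is a unit, all other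
coefficients are in `pℤ`, leading term `-p x^d` dominates). For a Galois-stable finite set `S` of
nonzero torsion points, `∏_{v ∈ S} x(v)` is rational, so its valuation is an integer power of
`v(p)`; hence `d ∣ #S`. -/
theorem card_dvd_of_all_nonIntegral (P : FreyPackage) (A : ValuationSubring Qb)
    (hA : A.LiesOverPrime P.p) (hall : ∀ v : Tors P, NonIntegral A v)
    (S : Finset (Tors P)) (h0 : (0 : Tors P) ∉ S) (hS : ∀ σ : GQ, ∀ v ∈ S, σ • v ∈ S) :
    (P.p ^ 2 - 1) / 2 ∣ S.card := by
  have hroots : ∀ a ∈ ((freyPsi P).map (Int.castRingHom Qb)).roots, a ∉ A := by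
    intro a ha
    have hev : Polynomial.aeval a (freyPsi P) = 0 := by
      have := (Polynomial.mem_roots'.mp ha).2
      rw [Polynomial.IsRoot.def, Polynomial.eval_map] at this
      rw [Polynomial.aeval_def, RingHom.ext_int (algebraMap ℤ Qb) (Int.castRingHom Qb)]; exact this
    obtain ⟨y, hy⟩ := EQb_exists_y P a
    have hns := EQb_nonsingular P hy
    have htor : P.p • Point.some a y hns = 0 := (nsmul_eq_zero_iff_freyPsi P hns).mpr hev
    exact hall ⟨Point.some a y hns, (mem_tors_iff _).mpr htor⟩ a y hns rfl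
  obtain ⟨hc0, hdvd⟩ := P2.coeff_facts P A hA hroots
  have hvp0 : A.valuation ((P.p : ℕ) : Qb) ≠ 0 := valuation_prime_ne_zero A P.pp
  have hpt : ∀ v ∈ S, A.valuation ((P.p : ℕ) : Qb) *
      A.valuation (P2.xc (v : (EQb P).Point)) ^ ((P.p ^ 2 - 1) / 2) = 1 := by
    intro v hv
    rcases hvc : (v : (EQb P).Point) with _ | ⟨x, y, h⟩
    · exact absurd (Subtype.ext hvc : v = 0) (fun h => h0 (h ▸ hv))
    · have hx : x ∉ A := hall v x y h hvc
      have htor : P.p • Point.some x y h = 0 := by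
        rw [← hvc]; exact (mem_tors_iff _).mp v.2
      exact P2.root_valuation P A hc0 hdvd x hx ((nsmul_eq_zero_iff_freyPsi P h).mp htor)
  have hequiv : ∀ (σ : GQ) (v : Tors P),
      P2.xc ((σ • v : Tors P) : (EQb P).Point) = σ (P2.xc (v : (EQb P).Point)) := by
    intro σ v
    rcases hvc : (v : (EQb P).Point) with _ | ⟨x, y, h⟩
    · rw [smul_coe_zero σ v hvc]
      show P2.xc (Point.zero) = σ (P2.xc Point.zero)
      simp [P2.xc]
    · obtain ⟨h', hs⟩ := smul_coe_some σ v hvc
      rw [hs]; rfl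
  set c : Qb := ∏ v ∈ S, P2.xc (v : (EQb P).Point) with hc
  have hfix : ∀ σ : GQ, σ c = c := by
    intro σ
    rw [hc, map_prod]
    have h1 : ∏ v ∈ S, σ (P2.xc (v : (EQb P).Point)) =
        ∏ v ∈ S, P2.xc ((σ • v : Tors P) : (EQb P).Point) :=
      Finset.prod_congr rfl (fun v _ => (hequiv σ v).symm)
    rw [h1]
    refine Finset.prod_bij (fun v _ => σ • v) (fun v hv => hS σ v hv) ?_ ?_ (fun v _ => rfl)
    · intro v₁ _ v₂ _ h
      exact smul_left_cancel σ h
    · intro w hw
      exact ⟨σ⁻¹ • w, hS σ⁻¹ w hw, smul_inv_smul σ w⟩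
  obtain ⟨q, hq⟩ := rational_of_fixed c hfix
  have hvc : A.valuation c ^ ((P.p ^ 2 - 1) / 2) = (A.valuation ((P.p : ℕ) : Qb))⁻¹ ^ S.card := by
    rw [hc, map_prod, ← Finset.prod_pow, ← Finset.prod_const]
    exact Finset.prod_congr rfl (fun v hv => eq_inv_of_mul_eq_one_right (hpt v hv))
  have hq0 : q ≠ 0 := by
    rintro rfl
    rw [_root_.map_zero] at hq
    rw [← hq, _root_.map_zero, zero_pow (by
      have hp5 := P.hp5
      have : 25 ≤ P.p ^ 2 := by nlinarith
      omega)] at hvc
    exact pow_ne_zero _ (inv_ne_zero hvp0) hvc.symm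
  obtain ⟨k, hk⟩ := valuation_rat A hA P.pp q hq0
  rw [← hq, hk] at hvc
  have hkd : k * (((P.p ^ 2 - 1) / 2 : ℕ) : ℤ) = -(S.card : ℤ) := by
    apply valuation_prime_zpow_injective A hA P.pp
    rw [zpow_mul, zpow_natCast, hvc, zpow_neg, zpow_natCast, inv_pow]
  exact Int.natCast_dvd_natCast.mp ⟨-k, by linarith⟩

end Fermat.Agent.S13
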