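import Fermat.Agent.S05.Main

/-!
# Task P3 (helper117): inertia at `p` moves `p`-torsion points only inside the kernel of reduction

Auxiliary file for `Fermat/Agent/S13/P3.lean`.  Everything is derived from the (landed, sorry-free)
S05 library: the special form `Y² = X³ + uX² + wX`, the kernel of reduction `InE1`, the
same-reduction lemma `sub_mem_e1`, and the multiplicative-reduction lemmas `deep_double`,
`shallow_tower`, `shallow_sub_mem_e1`.  None of these needs the torsion order to be a unit; only the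
final step of S05 did.  Here the conclusion is `φ P - P ∈ E₁` instead of `φ P = P`.
-/

set_option autoImplicit false
set_option linter.unusedSectionVars false
set_option linter.unusedVariables false

namespace Fermat.Agent.S13.P3

open WeierstrassCurve WeierstrassCurve.Affine WeierstrassCurve.Affine.Point
open Fermat.Agent.S05

section abstract

variable {K : Type*} [Field K] [DecidableEq K]
variable {Γ₀ : Type*} [LinearOrderedCommGroupWithZero Γ₀] (v : Valuation K Γ₀)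
variable {W : Affine K}

/-- `E₁` is stable under negation (special form). -/
lemma inE1_neg (hW : IsSpecial W) {P : W.Point} (hP : InE1 v P) : InE1 v (-P) := by
  rcases P with _ | ⟨x, y, h⟩
  · exact hP
  · obtain ⟨h', e⟩ := hW.neg_some h
    rw [e]
    exact hP

/-- `E₁` is stable under addition (special form, integral coefficients). -/
lemma inE1_add (hW : IsSpecial W) (hu : v W.a₂ ≤ 1) (hw : v W.a₄ ≤ 1) {P₁ P₂ : W.Point}
    (h₁ : InE1 v P₁) (h₂ : InE1 v P₂) : InE1 v (P₁ + P₂) := by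
  rcases le_total (v (zc P₁)) (v (zc P₂)) with hle | hle
  · exact (e1_add v hW hu hw (c := zc P₂) (zc_val_lt_one v hW hu hw h₂) h₁ h₂ hle le_rfl).1
  · exact (e1_add v hW hu hw (c := zc P₁) (zc_val_lt_one v hW hu hw h₁) h₁ h₂ le_rfl hle).1

/-- `E₁` is stable under subtraction. -/
lemma inE1_sub (hW : IsSpecial W) (hu : v W.a₂ ≤ 1) (hw : v W.a₄ ≤ 1) {P₁ P₂ : W.Point}
    (h₁ : InE1 v P₁) (h₂ : InE1 v P₂) : InE1 v (P₁ - P₂) := by
  rw [sub_eq_add_neg]
  exact inE1_add v hW hu hw h₁ (inE1_neg v hW h₂)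

/-- `E₁` is stable under natural multiples. -/
lemma inE1_nsmul (hW : IsSpecial W) (hu : v W.a₂ ≤ 1) (hw : v W.a₄ ≤ 1) {P : W.Point}
    (hP : InE1 v P) (k : ℕ) : InE1 v (k • P) :=
  (e1_nsmul v hW hu hw hP k).1

section setup

variable {σ : K →+* K} {φ : W.Point →+ W.Point} (S : Setup v W σ φ)
include S

/-- `σ` preserves non-integrality. -/
lemma one_lt_val_map {x : K} (hx : 1 < v x) : 1 < v (σ x) := by
  have hx0 : x ≠ 0 := by
    rintro rfl
    simp at hx
  have hvx0 : v x ≠ 0 := (v.ne_zero_iff).mpr hx0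
  have hσx0 : σ x ≠ 0 := (map_ne_zero σ).mpr hx0
  have hvσx0 : v (σ x) ≠ 0 := (v.ne_zero_iff).mpr hσx0
  have ht : v x⁻¹ < 1 := by
    rw [map_inv₀]
    exact inv_lt_one_of_one_lt₀ hx
  have h1 : v (σ x⁻¹ - x⁻¹) < 1 := S.hσ _ ht.le
  have h2 : v (σ x⁻¹) < 1 := by
    have : σ x⁻¹ = (σ x⁻¹ - x⁻¹) + x⁻¹ := by ring
    rw [this]
    exact v.map_add_lt h1 ht
  rw [map_inv₀, map_inv₀] at h2
  by_contra hcon
  have hle : v (σ x) ≤ 1 := not_lt.mp hcon
  have : 1 ≤ (v (σ x))⁻¹ := (one_le_inv₀ (zero_lt_iff.mpr hvσx0)).mpr hle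
  exact absurd h2 (not_lt.mpr this)

/-- `φ` preserves `E₁`. -/
lemma inE1_map {P : W.Point} (hP : InE1 v P) : InE1 v (φ P) := by
  rcases P with _ | ⟨x, y, h⟩
  · have : φ (Point.zero : W.Point) = 0 := _root_.map_zero φ
    rw [this]
    trivial
  · obtain ⟨h', e⟩ := S.hφ x y h
    rw [e]
    exact one_lt_val_map v S hP

/-- A point of `E₁` is moved by `φ` inside `E₁`. -/
lemma sub_mem_e1_of_inE1 {P : W.Point} (hP : InE1 v P) : InE1 v (φ P - P) :=
  inE1_sub v S.special S.hu S.hw (inE1_map v S hP) hP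

/-- An integral point with nonsingular reduction is moved by `φ` inside `E₁`. -/
lemma sub_mem_e1_of_nonsing {x y : K} (h : W.Nonsingular x y) (hx : v x ≤ 1)
    (hns : ¬(v y < 1 ∧ v (3 * x ^ 2 + 2 * W.a₂ * x + W.a₄) < 1)) :
    InE1 v (φ (Point.some x y h) - Point.some x y h) := by
  obtain ⟨h', hφ⟩ := S.hφ x y h
  rw [hφ]
  have hy : v y ≤ 1 := val_y_le_one_of_le_one v S.special S.hu S.hw h.1 hx
  exact sub_mem_e1 v S.special S.hu S.hw S.h2 h h' hx (S.hσ x hx) (S.hσ y hy) hns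

/-- Good reduction: every point is moved by `φ` inside `E₁`. -/
theorem good_sub_mem_e1 (hΔ : v (W.a₄ * (W.a₂ ^ 2 - 4 * W.a₄)) = 1) (P : W.Point) :
    InE1 v (φ P - P) := by
  rcases P with _ | ⟨x, y, h⟩
  · have : φ (Point.zero : W.Point) - Point.zero = 0 := by
      have h0 : φ (Point.zero : W.Point) = 0 := _root_.map_zero φ
      rw [h0]
      exact sub_self _
    rw [this]
    trivial
  by_cases hx : v x ≤ 1
  swap
  · exact sub_mem_e1_of_inE1 v S (P := Point.some x y h) (not_le.mp hx)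
  apply sub_mem_e1_of_nonsing v S h hx
  rintro ⟨hy, hf'⟩
  have e := (S.special.equation_iff x y).mp h.1
  have hn : ∀ n : ℕ, v (n : K) ≤ 1 := val_natCast_le_one v
  have hu := S.hu
  have hw := S.hw
  set u := W.a₂
  set w := W.a₄
  have hy2 : v (x ^ 3 + u * x ^ 2 + w * x) < 1 := by
    rw [← e, map_pow]
    exact pow_lt_one₀ zero_le hy (by norm_num)
  have hu2 : v (u ^ 2) ≤ 1 := by rw [map_pow]; exact pow_le_one₀ zero_le hu
  have hu3 : v (u ^ 3) ≤ 1 := by rw [map_pow]; exact pow_le_one₀ zero_le hu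
  have hx2 : v (x ^ 2) ≤ 1 := by rw [map_pow]; exact pow_le_one₀ zero_le hx
  have mul1 : ∀ a b : K, v a ≤ 1 → v b ≤ 1 → v (a * b) ≤ 1 := fun a b ha hb => by
    rw [map_mul]; exact mul_le_one' ha hb
  have c4 : v (4 : K) ≤ 1 := by simpa using hn 4
  have c15 : v (15 : K) ≤ 1 := by simpa using hn 15
  have c6 : v (6 : K) ≤ 1 := by simpa using hn 6
  have c18 : v (18 : K) ≤ 1 := by simpa using hn 18
  have c2 : v (2 : K) ≤ 1 := by simpa using hn 2
  have c7 : v (7 : K) ≤ 1 := by simpa using hn 7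
  have hA : v (-4 * u ^ 3 + 15 * u * w + (-6 * u ^ 2 + 18 * w) * x) ≤ 1 := by
    refine v.map_add_le (v.map_add_le ?_ ?_) ?_
    · rw [neg_mul, Valuation.map_neg]; exact mul1 _ _ c4 hu3
    · exact mul1 _ _ (mul1 _ _ c15 hu) hw
    · refine mul1 _ _ (v.map_add_le ?_ (mul1 _ _ c18 hw)) hx
      rw [neg_mul, Valuation.map_neg]; exact mul1 _ _ c6 hu2
  have hB : v (w * (u ^ 2 - 4 * w) + u * (2 * u ^ 2 - 7 * w) * x + (2 * u ^ 2 - 6 * w) * x ^ 2)
      ≤ 1 := by
    refine v.map_add_le (v.map_add_le ?_ ?_) ?_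
    · exact mul1 _ _ hw (v.map_sub_le hu2 (mul1 _ _ c4 hw))
    · exact mul1 _ _ (mul1 _ _ hu (v.map_sub_le (mul1 _ _ c2 hu2) (mul1 _ _ c7 hw))) hx
    · exact mul1 _ _ (v.map_sub_le (mul1 _ _ c2 hu2) (mul1 _ _ c6 hw)) hx2
  have hdisc : v (w ^ 2 * (u ^ 2 - 4 * w)) < 1 := by
    rw [← disc_identity v S u w x]
    refine v.map_add_lt ?_ ?_
    · rw [map_mul]
      calc _ ≤ 1 * v (x ^ 3 + u * x ^ 2 + w * x) := by gcongr
        _ = _ := one_mul _
        _ < 1 := hy2
    · rw [map_mul]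
      calc _ ≤ 1 * v (3 * x ^ 2 + 2 * u * x + w) := by gcongr
        _ = _ := one_mul _
        _ < 1 := hf'
  have : v (w ^ 2 * (u ^ 2 - 4 * w)) = v w := by
    have : w ^ 2 * (u ^ 2 - 4 * w) = w * (w * (u ^ 2 - 4 * w)) := by ring
    rw [this, map_mul, hΔ, mul_one]
  rw [this] at hdisc
  have : v (w * (u ^ 2 - 4 * w)) < 1 := by
    rw [map_mul]
    calc v w * v (u ^ 2 - 4 * w) ≤ v w * 1 := by
          gcongr
          exact v.map_sub_le hu2 (mul1 _ _ c4 hw)
      _ = v w := mul_one _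
      _ < 1 := hdisc
  rw [hΔ] at this
  exact lt_irrefl _ this

/-- A point of `E₀` is moved by `φ` inside `E₁` (multiplicative reduction). -/
lemma sub_mem_e1_of_inE0 (hu1 : v W.a₂ = 1) (hw1 : v W.a₄ < 1) {Q : W.Point} (hQ : InE0 v Q) :
    InE1 v (φ Q - Q) := by
  rcases Q with _ | ⟨x, y, h⟩
  · have : φ (Point.zero : W.Point) - Point.zero = 0 := by
      have h0 : φ (Point.zero : W.Point) = 0 := _root_.map_zero φ
      rw [h0]
      exact sub_self _
    rw [this]
    trivial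
  by_cases hx : v x ≤ 1
  swap
  · exact sub_mem_e1_of_inE1 v S (P := Point.some x y h) (not_le.mp hx)
  have hx1 : v x = 1 := le_antisymm hx hQ
  apply sub_mem_e1_of_nonsing v S h hx
  rintro ⟨hy, hf'⟩
  have e := (S.special.equation_iff x y).mp h.1
  have hg : v (x ^ 2 + W.a₂ * x + W.a₄) < 1 := by
    have hyy : y ^ 2 = x * (x ^ 2 + W.a₂ * x + W.a₄) := by rw [e]; ring
    have := congrArg v hyy
    rw [map_pow, map_mul, hx1, one_mul] at this
    rw [← this]
    exact pow_lt_one₀ zero_le hy (by norm_num)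
  have h3 : 3 * x ^ 2 + 2 * W.a₂ * x + W.a₄ =
      x ^ 2 + (2 * (x ^ 2 + W.a₂ * x + W.a₄) - W.a₄) := by ring
  have hsmall : v (2 * (x ^ 2 + W.a₂ * x + W.a₄) - W.a₄) < 1 := by
    refine v.map_sub_lt ?_ hw1
    rw [map_mul, S.h2, one_mul]; exact hg
  have hx2 : v (x ^ 2) = 1 := by rw [map_pow, hx1, one_pow]
  rw [h3, v.map_add_eq_of_lt_left (by rw [hx2]; exact hsmall), hx2] at hf'
  exact lt_irrefl _ hf'

/-- Multiplicative reduction with `|w| = |μ|ᵖ` for a `σ`-fixed `μ`: every `p`-torsion point is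
moved by `φ` inside `E₁` (`p` an odd prime, NOT assumed to be a unit). -/
theorem mult_sub_mem_e1 (hu1 : v W.a₂ = 1) (hw1 : v W.a₄ < 1) {p : ℕ} (hp : p.Prime)
    (hp2 : p ≠ 2) {μ : K} (hμ : σ μ = μ) (hwμ : v W.a₄ = v μ ^ p) {P : W.Point}
    (hP : p • P = 0) : InE1 v (φ P - P) := by
  have hW := S.special
  have h2 := S.h2
  by_cases hex : ∃ k : ℕ, Nat.Coprime k p ∧ InE0 v (k • P)
  · obtain ⟨k, hk, hE0⟩ := hex
    have h1 : InE1 v (φ (k • P) - k • P) := sub_mem_e1_of_inE0 v S hu1 hw1 hE0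
    have h1' : InE1 v (k • (φ P - P)) := by
      rw [smul_sub, ← map_nsmul]; exact h1
    have hpD : p • (φ P - P) = 0 := by
      rw [smul_sub, ← map_nsmul, hP, _root_.map_zero, sub_zero]
    obtain ⟨m, -, hm⟩ := Nat.exists_mul_mod_eq_one_of_coprime hk hp.one_lt
    have hD : (m * k) • (φ P - P) = φ P - P := by
      have hdm := Nat.div_add_mod (k * m) p
      rw [hm] at hdm
      rw [mul_comm m k, ← hdm, add_smul, one_smul, mul_comm p, mul_smul, hpD, smul_zero, zero_add]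
    rw [← hD, mul_smul]
    exact inE1_nsmul v hW S.hu S.hw h1' m
  have hall : ∀ k : ℕ, Nat.Coprime k p → ¬ InE0 v (k • P) := fun k hk hE => hex ⟨k, hk, hE⟩
  rcases P with _ | ⟨x, y, h⟩
  · have : φ (Point.zero : W.Point) - Point.zero = 0 := by
      have h0 : φ (Point.zero : W.Point) = 0 := _root_.map_zero φ
      rw [h0]
      exact sub_self _
    rw [this]
    trivial
  have hcop : ∀ j : ℕ, 0 < j → j < p → Nat.Coprime j p := fun j hj hjp =>
    Nat.Coprime.symm ((Nat.Prime.coprime_iff_not_dvd hp).mpr (Nat.not_dvd_of_pos_of_lt hj hjp))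
  have h2p : Nat.Coprime 2 p := (Nat.coprime_primes Nat.prime_two hp).mpr (Ne.symm hp2)
  have hsh : ∀ j : ℕ, 0 < j → j < p → IsShallow v (j • Point.some x y h) := by
    intro j hj hjp
    have h1 := hall j (hcop j hj hjp)
    have h2' := hall (2 * j) (Nat.Coprime.mul_left h2p (hcop j hj hjp))
    rw [mul_smul, two_nsmul] at h2'
    generalize j • Point.some x y h = Q at h1 h2'
    rcases Q with _ | ⟨x', y', hQ⟩
    · exact absurd trivial h1
    · have hx' : v x' < 1 := not_le.mp h1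
      refine ⟨?_, hx'⟩
      by_contra hcon
      exact h2' (deep_double v hW hu1 h2 hw1 hQ (not_lt.mp hcon))
  obtain ⟨m, hm⟩ := shallow_tower v hW hu1 h2 hp.two_le h hP hsh
  have sh : IsShallow v (Point.some x y h) := by
    have := hsh 1 one_pos hp.one_lt
    rwa [one_smul] at this
  have hk : v x = v (μ ^ (2 * (m + 1))) := by
    have : v x ^ p = (v (μ ^ (2 * (m + 1)))) ^ p := by
      rw [hm, hwμ, map_pow, ← pow_mul, ← pow_mul, ← pow_mul]
      congr 1
      ring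
    exact (pow_left_inj₀ zero_le zero_le hp.ne_zero).mp this
  exact shallow_sub_mem_e1 v S hu1 hw1 h sh hμ hk

end setup

end abstract

section transfer

variable {k K : Type*} [Field k] [Field K] [DecidableEq K] [Algebra k K]
variable {Γ₀ : Type*} [LinearOrderedCommGroupWithZero Γ₀] (v : Valuation K Γ₀)

/-- Assembly: for a curve `E` over `k` in Frey form, transferred to the special form
`Y² = X³ + u₀X² + w₀X`, an automorphism `σ` of `K/k` congruent to the identity on the valuation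
ring moves every `p`-torsion point only inside the kernel of reduction, in the good and in the
multiplicative case (`p` is NOT assumed to be a unit). -/
theorem frey_form_sub (E : WeierstrassCurve k) (hE₁ : E.a₁ = 1) (hE₃ : E.a₃ = 0)
    (hE₆ : E.a₆ = 0) (r₀ u₀ w₀ : k)
    (hr : -r₀ ^ 3 + (4 * E.a₂ + 1) * r₀ ^ 2 - 16 * E.a₄ * r₀ = 0)
    (hu₀ : u₀ = 4 * E.a₂ + 1 - 3 * r₀)
    (hw₀ : w₀ = 3 * r₀ ^ 2 - 2 * r₀ * (4 * E.a₂ + 1) + 16 * E.a₄)
    (σ : K ≃ₐ[k] K) (hσ : ∀ x : K, v x ≤ 1 → v (σ x - x) < 1)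
    (h2 : v (2 : K) = 1) {p : ℕ} (hp : p.Prime) (hp2 : p ≠ 2)
    (hrv : v (algebraMap k K r₀) ≤ 1)
    (hu : v (algebraMap k K u₀) ≤ 1) (hw : v (algebraMap k K w₀) ≤ 1)
    (hcase : v (algebraMap k K (w₀ * (u₀ ^ 2 - 4 * w₀))) = 1 ∨
      (v (algebraMap k K u₀) = 1 ∧ v (algebraMap k K w₀) < 1 ∧
        ∃ μ : k, v (algebraMap k K w₀) = v (algebraMap k K μ) ^ p))
    (P : (E⁄K).Point) (hP : p • P = 0) {x y : K} {h : (E⁄K).Nonsingular x y}
    (hD : Point.map (W' := E) σ.toAlgHom P - P = Point.some x y h) : 1 < v x := by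
  let W₂' : WeierstrassCurve k := ⟨0, u₀, 0, w₀, 0⟩
  have h20 : (2 : K) ≠ 0 := by rintro h0; rw [h0] at h2; simp at h2
  have T : TransferData (E⁄K) (W₂'⁄K) (algebraMap k K r₀) :=
    { frey := ⟨by simp [hE₁], by simp [hE₃], by simp [hE₆]⟩
      special := ⟨by simp [W₂'], by simp [W₂'], by simp [W₂']⟩
      two_ne := h20
      hu := by
        simp only [W₂', hu₀]
        simp [map_sub, map_add, map_mul, map_ofNat]
      hw := by
        simp only [W₂', hw₀]
        simp [map_sub, map_add, map_mul, map_ofNat]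
      hr := by
        have := congrArg (algebraMap k K) hr
        simpa [map_sub, map_add, map_mul, map_ofNat] using this }
  let φ₂ : (W₂'⁄K).Point →+ (W₂'⁄K).Point := Point.map (W' := W₂') σ.toAlgHom
  have S : Setup v (W₂'⁄K) (σ : K →+* K) φ₂ :=
    { special := T.special
      hu := by simpa [W₂'] using hu
      hw := by simpa [W₂'] using hw
      h2 := h2
      hφ := fun x y h => ⟨_, rfl⟩
      hσ := hσ }
  -- the transfer map commutes with the Galois action
  have hcomm : ∀ Q : (E⁄K).Point, T.toFun (Point.map (W' := E) σ.toAlgHom Q) = φ₂ (T.toFun Q) := by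
    rintro (_ | ⟨x, y, h⟩)
    · rfl
    · change Point.some _ _ _ = Point.some _ _ _
      simp only [Point.some.injEq]
      constructor
      · simp [map_add, map_mul, map_ofNat]
      · simp [map_add, map_mul, map_ofNat]
  have hP' : p • T.toFun P = 0 := by
    have := congrArg T.hom hP
    rw [map_nsmul, _root_.map_zero] at this
    exact this
  have key : InE1 v (φ₂ (T.toFun P) - T.toFun P) := by
    rcases hcase with hgood | ⟨hu1, hw1, μ, hμ⟩
    · refine good_sub_mem_e1 v S ?_ _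
      simpa [W₂', map_sub, map_mul, map_ofNat] using hgood
    · refine mult_sub_mem_e1 v S (by simpa [W₂'] using hu1) (by simpa [W₂'] using hw1) hp hp2
        (μ := algebraMap k K μ) ?_ (by simpa [W₂'] using hμ) hP'
      exact σ.commutes μ
  have hT : T.toFun (Point.map (W' := E) σ.toAlgHom P - P) = φ₂ (T.toFun P) - T.toFun P := by
    rw [← hcomm]
    exact map_sub T.hom (Point.map (W' := E) σ.toAlgHom P) P
  rw [← hT, hD, T.toFun_some] at key
  have key' : 1 < v (4 * x + algebraMap k K r₀) := key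
  by_contra hcon
  have hx : v x ≤ 1 := not_lt.mp hcon
  have h4 : v (4 : K) = 1 := by
    have : (4 : K) = 2 * 2 := by norm_num
    rw [this, map_mul, h2, one_mul]
  have : v (4 * x + algebraMap k K r₀) ≤ 1 := by
    refine v.map_add_le ?_ hrv
    rw [map_mul, h4, one_mul]
    exact hx
  exact absurd key' (not_lt.mpr this)

/-- Integral version over `ℚ` (compare `Fermat.Agent.S05.frey_fixed_int`): no hypothesis `q ≠ p`,
conclusion "the difference is not an integral point". -/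
theorem frey_sub_int {K : Type*} [Field K] [DecidableEq K] [Algebra ℚ K]
    (A : ValuationSubring K) (E : WeierstrassCurve ℚ) (hE₁ : E.a₁ = 1) (hE₃ : E.a₃ = 0)
    (hE₆ : E.a₆ = 0) (Ai Bi ri ui wi : ℤ) (hE₂ : 4 * E.a₂ + 1 = (Bi : ℚ) - Ai)
    (hE₄ : 16 * E.a₄ = -((Ai : ℚ) * Bi))
    (hu : ui = Bi - Ai - 3 * ri) (hw : wi = 3 * ri ^ 2 - 2 * ri * (Bi - Ai) - Ai * Bi)
    (hcubic : -ri ^ 3 + (Bi - Ai) * ri ^ 2 + Ai * Bi * ri = 0)
    (σ : K ≃ₐ[ℚ] K) (hσ : ∀ x : K, A.valuation x ≤ 1 → A.valuation (σ x - x) < 1)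
    {q : ℕ} (hq : q.Prime) (hqv : A.valuation (q : K) < 1) (hq2 : q ≠ 2)
    {p : ℕ} (hp : p.Prime) (hp2 : p ≠ 2)
    (hcase : ¬ (q : ℤ) ∣ wi * (ui ^ 2 - 4 * wi) ∨
      (¬ (q : ℤ) ∣ ui ∧ (q : ℤ) ∣ wi ∧ ∃ m : ℤ, wi = m ^ p ∨ wi = -m ^ p))
    (P : (E⁄K).Point) (hP : p • P = 0) {x y : K} {h : (E⁄K).Nonsingular x y}
    (hD : Point.map (W' := E) σ.toAlgHom P - P = Point.some x y h) : x ∉ A := by
  have cast_int : ∀ n : ℤ, algebraMap ℚ K (n : ℚ) = (n : K) := fun n => map_intCast _ n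
  have h2 : A.valuation (2 : K) = 1 := by
    have : ¬ (q : ℤ) ∣ (2 : ℤ) := by
      intro h
      have h' : q ∣ 2 := by exact_mod_cast h
      exact hq2 ((Nat.prime_dvd_prime_iff_eq hq Nat.prime_two).mp h')
    have := val_intCast_eq_one_of_not_dvd A hq hqv this
    simpa using this
  have key : 1 < A.valuation x := by
    refine frey_form_sub A.valuation E hE₁ hE₃ hE₆ (ri : ℚ) (ui : ℚ) (wi : ℚ) ?_ ?_ ?_ σ hσ h2 hp
      hp2 ?_ ?_ ?_ ?_ P hP hD
    · rw [hE₂]
      have h4 : E.a₄ = -((Ai : ℚ) * Bi) / 16 := by rw [← hE₄]; ring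
      rw [h4]
      have := congrArg (Int.cast : ℤ → ℚ) hcubic
      push_cast at this
      linear_combination this
    · rw [hE₂, hu]; push_cast; ring
    · have h4 : 16 * E.a₄ = -((Ai : ℚ) * Bi) := hE₄
      rw [hE₂, h4, hw]; push_cast; ring
    · rw [cast_int]; exact val_intCast_le_one A ri
    · rw [cast_int]; exact val_intCast_le_one A ui
    · rw [cast_int]; exact val_intCast_le_one A wi
    · rcases hcase with hgood | ⟨hu1, hw1, m, hm⟩
      · left
        have : algebraMap ℚ K ((wi : ℚ) * ((ui : ℚ) ^ 2 - 4 * (wi : ℚ))) =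
            ((wi * (ui ^ 2 - 4 * wi) : ℤ) : K) := by
          rw [← cast_int]; push_cast; ring_nf
        rw [this]
        exact val_intCast_eq_one_of_not_dvd A hq hqv hgood
      · right
        refine ⟨?_, ?_, (m : ℚ), ?_⟩
        · rw [cast_int]; exact val_intCast_eq_one_of_not_dvd A hq hqv hu1
        · rw [cast_int]; exact val_intCast_lt_one_of_dvd A hqv hw1
        · rw [cast_int, cast_int]
          rcases hm with hm | hm
          · rw [hm, Int.cast_pow, map_pow]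
          · rw [hm, Int.cast_neg, Int.cast_pow, Valuation.map_neg, map_pow]
  intro hxA
  exact absurd ((A.valuation_le_one_iff x).mpr hxA) (not_le.mpr key)

end transfer

/-- (P3), in coordinates: for a valuation subring `A` of `ℚ̄` over `p` and `σ` in its inertia
group, `σ Q - Q` is never an integral affine point, for every `p`-torsion point `Q` of the Frey
curve. -/
theorem frey_inertia_p_sub (P : FreyPackage) (A : ValuationSubring (AlgebraicClosure ℚ))
    (hA : A.LiesOverPrime P.p) (σ : AlgebraicClosure ℚ ≃ₐ[ℚ] AlgebraicClosure ℚ)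
    (hσ : σ ∈ A.inertiaSubgroupIn ℚ)
    (Q : (P.freyCurve⁄(AlgebraicClosure ℚ)).Point) (hQ : P.p • Q = 0)
    {x y : AlgebraicClosure ℚ} {h : (P.freyCurve⁄(AlgebraicClosure ℚ)).Nonsingular x y}
    (hD : Point.map (W' := P.freyCurve) σ.toAlgHom Q - Q = Point.some x y h) : x ∉ A := by
  have hq : P.p.Prime := P.pp
  have hqv : A.valuation (P.p : AlgebraicClosure ℚ) < 1 := A.mem_nonunits_iff.mp hA
  have hσ' : ∀ z : AlgebraicClosure ℚ, A.valuation z ≤ 1 → A.valuation (σ z - z) < 1 :=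
    inertia_congr A σ hσ
  have hp2 : P.p ≠ 2 := by have := P.hp5; omega
  have hqZ : Prime (P.p : ℤ) := Nat.prime_iff_prime_int.mp hq
  have hFLT : P.a ^ P.p + P.b ^ P.p = P.c ^ P.p := P.hFLT
  have hE₂ : 4 * P.freyCurve.a₂ + 1 = ((P.b ^ P.p : ℤ) : ℚ) - ((P.a ^ P.p : ℤ) : ℚ) := by
    simp only [FreyPackage.freyCurve]; push_cast; ring
  have hE₄ : 16 * P.freyCurve.a₄ = -(((P.a ^ P.p : ℤ) : ℚ) * ((P.b ^ P.p : ℤ) : ℚ)) := by
    simp only [FreyPackage.freyCurve]; push_cast; ring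
  -- no prime divides two of `a`, `b`, `c`
  have hab : ¬((P.p : ℤ) ∣ P.a ∧ (P.p : ℤ) ∣ P.b) := by
    rintro ⟨h1, h2⟩
    have := dvd_gcd h1 h2
    rw [P.hgcdab] at this
    exact hqZ.not_dvd_one this
  have hac : ¬((P.p : ℤ) ∣ P.a ∧ (P.p : ℤ) ∣ P.c) := by
    rintro ⟨h1, h2⟩
    have := dvd_gcd h1 h2
    rw [P.hgcdac] at this
    exact hqZ.not_dvd_one this
  have hpow : ∀ z : ℤ, (P.p : ℤ) ∣ z ^ P.p ↔ (P.p : ℤ) ∣ z := fun z =>
    ⟨fun h => hqZ.dvd_of_dvd_pow h, fun h => dvd_pow h P.hp0⟩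
  by_cases hc : (P.p : ℤ) ∣ P.c
  · -- multiplicative reduction, node at `X = a ^ p`
    have ha : ¬ (P.p : ℤ) ∣ P.a := fun h => hac ⟨h, hc⟩
    refine frey_sub_int A P.freyCurve rfl rfl rfl (P.a ^ P.p) (P.b ^ P.p) (-(P.a ^ P.p))
      (2 * P.a ^ P.p + P.b ^ P.p) (P.a ^ P.p * (P.a ^ P.p + P.b ^ P.p)) hE₂ hE₄ (by ring) (by ring)
      (by ring) σ hσ' hq hqv hp2 P.pp hp2 (Or.inr ⟨?_, ?_, P.a * P.c, Or.inl ?_⟩) Q hQ hD
    · intro h
      have h1 : (P.p : ℤ) ∣ P.a ^ P.p + P.b ^ P.p := by rw [hFLT]; exact (hpow _).mpr hc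
      have h2 : (P.p : ℤ) ∣ P.a ^ P.p := by
        have : P.a ^ P.p = (2 * P.a ^ P.p + P.b ^ P.p) - (P.a ^ P.p + P.b ^ P.p) := by ring
        rw [this]; exact dvd_sub h h1
      exact ha ((hpow _).mp h2)
    · rw [hFLT]
      exact dvd_mul_of_dvd_right ((hpow _).mpr hc) _
    · rw [hFLT, mul_pow]
  · by_cases hab' : (P.p : ℤ) ∣ P.a ∨ (P.p : ℤ) ∣ P.b
    · -- multiplicative reduction, node at `X = 0`
      refine frey_sub_int A P.freyCurve rfl rfl rfl (P.a ^ P.p) (P.b ^ P.p) 0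
        (P.b ^ P.p - P.a ^ P.p) (-(P.a ^ P.p * P.b ^ P.p)) hE₂ hE₄ (by ring) (by ring)
        (by ring) σ hσ' hq hqv hp2 P.pp hp2 (Or.inr ⟨?_, ?_, P.a * P.b, Or.inr ?_⟩) Q hQ hD
      · intro h
        rcases hab' with ha | hb
        · have hb : ¬ (P.p : ℤ) ∣ P.b := fun hb => hab ⟨ha, hb⟩
          apply hb
          apply (hpow _).mp
          have : P.b ^ P.p = (P.b ^ P.p - P.a ^ P.p) + P.a ^ P.p := by ring
          rw [this]; exact dvd_add h ((hpow _).mpr ha)
        · have ha : ¬ (P.p : ℤ) ∣ P.a := fun ha => hab ⟨ha, hb⟩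
          apply ha
          apply (hpow _).mp
          have : P.a ^ P.p = P.b ^ P.p - (P.b ^ P.p - P.a ^ P.p) := by ring
          rw [this]; exact dvd_sub ((hpow _).mpr hb) h
      · rw [dvd_neg]
        rcases hab' with ha | hb
        · exact dvd_mul_of_dvd_left ((hpow _).mpr ha) _
        · exact dvd_mul_of_dvd_right ((hpow _).mpr hb) _
      · rw [mul_pow]
    · -- good reduction
      have ha : ¬ (P.p : ℤ) ∣ P.a := fun h => hab' (Or.inl h)
      have hb : ¬ (P.p : ℤ) ∣ P.b := fun h => hab' (Or.inr h)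
      refine frey_sub_int A P.freyCurve rfl rfl rfl (P.a ^ P.p) (P.b ^ P.p) 0
        (P.b ^ P.p - P.a ^ P.p) (-(P.a ^ P.p * P.b ^ P.p)) hE₂ hE₄ (by ring) (by ring)
        (by ring) σ hσ' hq hqv hp2 P.pp hp2 (Or.inl ?_) Q hQ hD
      have : -(P.a ^ P.p * P.b ^ P.p) * ((P.b ^ P.p - P.a ^ P.p) ^ 2 - 4 * -(P.a ^ P.p * P.b ^ P.p))
          = -(P.a ^ P.p * P.b ^ P.p * (P.c ^ P.p) ^ 2) := by
        rw [← hFLT]; ring
      rw [this, dvd_neg]
      intro h
      rcases hqZ.dvd_or_dvd h with h | h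
      · rcases hqZ.dvd_or_dvd h with h | h
        · exact ha ((hpow _).mp h)
        · exact hb ((hpow _).mp h)
      · exact hc ((hpow _).mp (hqZ.dvd_of_dvd_pow h))

end Fermat.Agent.S13.P3
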