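import Fermat.Agent.S13.Defs
import Fermat.Agent.S13.P3_helper117

/-! # Local analysis at p (task P3)

Proved by helper117 from the landed S05 library (see `P3_helper117.lean`): the S05 argument
(special form `Y² = X³ + uX² + wX`, same-reduction lemma, shallow/deep node points) never uses
that the torsion order is a unit except in its very last step, so at `q = p` it yields
"`σ v - v` lies in the kernel of reduction".  No other S13 task file is needed. -/

set_option autoImplicit false

open WeierstrassCurve WeierstrassCurve.Affine WeierstrassCurve.Affine.Point

namespace Fermat.Agent.S13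

/-- (P3) Inertia at `p` acts trivially modulo the kernel of reduction. -/
theorem inertia_p_sub (P : FreyPackage) (A : ValuationSubring Qb) (hA : A.LiesOverPrime P.p)
    (σ : GQ) (hσ : σ ∈ A.inertiaSubgroupIn ℚ) (v : Tors P) : NonIntegral A (σ • v - v) := by
  intro x y h hxy
  have hv : P.p • (v : (EQb P).Point) = 0 := by
    have := v.2
    rw [Submodule.mem_torsionBy_iff] at this
    rw [← natCast_zsmul]
    exact this
  exact P3.frey_inertia_p_sub P A hA σ hσ v.1 hv (h := h) hxy

end Fermat.Agent.S13
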