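import Fermat.Agent.S13.Defs
import Fermat.Agent.S05

/-! # Interface to S05 (unramifiedness at odd primes different from `p`) -/

set_option autoImplicit false

namespace Fermat.Agent.S13

theorem s05 (P : FreyPackage) {q : ℕ} (hq : q.Prime) (hq2 : q ≠ 2) (hqp : q ≠ P.p) :
    P.GaloisRepUnramifiedAt q :=
  Fermat.Agent.S05.result P hq hq2 hqp

end Fermat.Agent.S13
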