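import Fermat.Agent.S13.Defs
import Fermat.Agent.S13.LocSame
import Fermat.Agent.S13.FreyFacts
import Fermat.Agent.S13.Val

/-! # Local analysis at 2 (task T2A)

Model: `y² + xy = x³ + a₂x² + a₄x` (integral), `b₂ = b^p - a^p` odd, `a₄ = -a^p b^p/16` even, node of
the reduction mod 2 at `(0,0)`, `ord₂ a₄ = p·ord₂ b - 4` (prime to `p` after doubling).

Proof of `inertia_two_sq` (helper973).  Let `Q = (x, y)` be a nonzero `p`-torsion point, `σ` in the
inertia group of a valuation subring `A` over `2`, `𝔪 = A.nonunits`.  Torsion points are integral.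
* `x ∉ 𝔪`: the reduction of `Q` is nonsingular, so `σ Q = Q` (same-reduction lemma + no torsion
  in the kernel of reduction).
* `x ∈ 𝔪`, `v(x) ≤ v(a₄)`: the duplication formula shows that `x(2Q) ∉ 𝔪`, so `σ (2Q) = 2Q` and
  then `σ Q = Q` (`p` odd).
* `x ∈ 𝔪`, `v(a₄) < v(x)`: `t = y / x` is integral, `σ t ≡ t mod 𝔪` ("same branch") and
  `v(σ x) = v(x)`; an explicit formula for `x(σ Q - Q)` shows that it is not in `𝔪`, so
  `σ Q - Q` is fixed by `σ` by the first case.
-/

set_option autoImplicit false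

open WeierstrassCurve WeierstrassCurve.Affine WeierstrassCurve.Affine.Point

namespace Fermat.Agent.S13.T2A

/-! ### Valuation subrings: elementary facts -/

section Val

variable {K : Type*} [Field K] (A : ValuationSubring K)

lemma mul_mem_nonunits_left {a b : K} (ha : a ∈ A) (hb : b ∈ A.nonunits) :
    a * b ∈ A.nonunits := by
  rw [ValuationSubring.mem_nonunits_iff] at hb ⊢
  rw [map_mul]
  calc A.valuation a * A.valuation b ≤ 1 * A.valuation b :=
        mul_le_mul_left ((A.valuation_le_one_iff a).mpr ha) _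
    _ = A.valuation b := one_mul _
    _ < 1 := hb

lemma mul_mem_nonunits_right {a b : K} (ha : a ∈ A.nonunits) (hb : b ∈ A) :
    a * b ∈ A.nonunits := by
  rw [mul_comm]; exact mul_mem_nonunits_left A hb ha

lemma one_not_mem_nonunits : (1 : K) ∉ A.nonunits := by
  rw [ValuationSubring.mem_nonunits_iff, map_one]; exact lt_irrefl _

lemma one_add_not_mem_nonunits {m : K} (hm : m ∈ A.nonunits) : 1 + m ∉ A.nonunits := by
  intro h
  apply one_not_mem_nonunits A
  have := A.nonunits.sub_mem h hm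
  simpa using this

lemma mem_of_mem_nonunits {a : K} (ha : a ∈ A.nonunits) : a ∈ A := A.nonunits_subset ha

/-- A root of a monic quadratic `t² + t - c` with `c ∈ A` lies in `A`. -/
lemma mem_of_sq_add_mem {t : K} (h : t ^ 2 + t ∈ A) : t ∈ A := by
  by_contra ht
  have ht0 : t ≠ 0 := fun h0 => ht (h0 ▸ A.zero_mem)
  have hinv : t⁻¹ ∈ A.nonunits := by
    rw [ValuationSubring.inv_mem_nonunits_iff]; exact Or.inr ht
  have h1 : 1 + t⁻¹ = (t ^ 2 + t) * (t⁻¹ * t⁻¹) := by
    field_simp
  have h2 : 1 + t⁻¹ ∈ A.nonunits := by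
    rw [h1]
    exact mul_mem_nonunits_left A h (A.nonunits.mul_mem hinv hinv)
  exact one_add_not_mem_nonunits A hinv h2

/-- A root of a monic quadratic `y² + x y - c` with `x, c ∈ A` lies in `A`. -/
lemma mem_of_sq_add_mul_mem {x y : K} (hx : x ∈ A) (h : y ^ 2 + x * y ∈ A) : y ∈ A := by
  by_contra hy
  have hy0 : y ≠ 0 := fun h0 => hy (h0 ▸ A.zero_mem)
  have hinv : y⁻¹ ∈ A.nonunits := by
    rw [ValuationSubring.inv_mem_nonunits_iff]; exact Or.inr hy
  have h1 : 1 + x * y⁻¹ = (y ^ 2 + x * y) * (y⁻¹ * y⁻¹) := by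
    field_simp
  have h2 : 1 + x * y⁻¹ ∈ A.nonunits := by
    rw [h1]
    exact mul_mem_nonunits_left A h (A.nonunits.mul_mem hinv hinv)
  exact one_add_not_mem_nonunits A (mul_mem_nonunits_left A hx hinv) h2

/-- Duplication at a node point close to the node: the double has a unit `x`-coordinate. -/
lemma dup_not_mem_nonunits {a₄ b₂ x X₂ : K} (ha₄0 : a₄ ≠ 0)
    (hx : x ∈ A.nonunits) (hxa : x / a₄ ∈ A) (hb₂ : b₂ ∈ A)
    (hdup : X₂ * (x * (4 * x ^ 2 + b₂ * x + 4 * a₄)) = (x ^ 2 - a₄) ^ 2) :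
    X₂ ∉ A.nonunits := by
  intro hX
  have h4 : (4 : K) ∈ A := by
    have : (4 : K) = ((4 : ℕ) : K) := by norm_num
    rw [this]; exact natCast_mem A 4
  -- `x² / a₄ ∈ 𝔪`
  have hm : x * (x / a₄) ∈ A.nonunits := mul_mem_nonunits_right A hx hxa
  have hD : 4 * (x * (x / a₄)) + b₂ * (x / a₄) + 4 ∈ A :=
    add_mem (add_mem (mul_mem h4 (mem_of_mem_nonunits A hm)) (mul_mem hb₂ hxa)) h4
  have key : X₂ * ((x / a₄) * (4 * (x * (x / a₄)) + b₂ * (x / a₄) + 4)) =
      1 + (x * (x / a₄)) * (x * (x / a₄) - 2) := by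
    have h1 : X₂ * ((x / a₄) * (4 * (x * (x / a₄)) + b₂ * (x / a₄) + 4)) =
        (X₂ * (x * (4 * x ^ 2 + b₂ * x + 4 * a₄))) / a₄ ^ 2 := by
      field_simp
    rw [h1, hdup]
    field_simp
    ring
  have hL : X₂ * ((x / a₄) * (4 * (x * (x / a₄)) + b₂ * (x / a₄) + 4)) ∈ A.nonunits :=
    mul_mem_nonunits_right A hX (mul_mem hxa hD)
  rw [key] at hL
  have h2 : (2 : K) ∈ A := by
    have : (2 : K) = ((2 : ℕ) : K) := by norm_num
    rw [this]; exact natCast_mem A 2
  exact one_add_not_mem_nonunits A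
    (mul_mem_nonunits_right A hm (sub_mem (mem_of_mem_nonunits A hm) h2)) hL

/-- Two node points at the same depth on the same branch: their difference has a unit
`x`-coordinate. -/
lemma sub_not_mem_nonunits {a₂ a₄ x y x' y' X : K} (h2 : (2 : K) ∈ A.nonunits) (ha₂ : a₂ ∈ A)
    (hx : x ∈ A.nonunits) (hx' : x' ∈ A.nonunits) (hx0 : x ≠ 0) (hx'0 : x' ≠ 0)
    (hv : A.valuation x' = A.valuation x)
    (hax : a₄ / x ∈ A.nonunits) (ht : y / x ∈ A) (htt : y' / x' - y / x ∈ A.nonunits)
    (hX : X * (x' - x) ^ 2 = 2 * y * y' + y' * x + y * x' + x * x' * (1 + 2 * a₂ + x + x')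
      + a₄ * (x + x')) :
    X ∉ A.nonunits := by
  intro hXm
  have hv1 : A.valuation (x' / x) = 1 := by
    rw [map_div₀, hv, div_self]
    exact (Valuation.ne_zero_iff _).mpr hx0
  have hv2 : A.valuation (x / x') = 1 := by
    rw [map_div₀, hv, div_self]
    exact (Valuation.ne_zero_iff _).mpr hx0
  have hr1 : x' / x ∈ A := (A.valuation_le_one_iff _).mp hv1.le
  have hr2 : x / x' ∈ A := (A.valuation_le_one_iff _).mp hv2.le
  have h2A : (2 : K) ∈ A := mem_of_mem_nonunits A h2
  have ht' : y' / x' ∈ A := by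
    have := add_mem (mem_of_mem_nonunits A htt) ht
    simpa using this
  have hax' : a₄ / x' ∈ A.nonunits := by
    have : a₄ / x' = (a₄ / x) * (x / x') := by field_simp
    rw [this]; exact mul_mem_nonunits_right A hax hr2
  have hfac : x' / x - 2 + x / x' ∈ A := add_mem (sub_mem hr1 h2A) hr2
  have key : X * (x' / x - 2 + x / x') =
      1 + (2 * ((y / x) * (y' / x')) + 2 * a₂ + x + x' + a₄ / x + a₄ / x'
        + (y' / x' - y / x) + 2 * (y / x)) := by
    have h1 : X * (x' / x - 2 + x / x') = (X * (x' - x) ^ 2) / (x * x') := by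
      field_simp
      ring
    rw [h1, hX]
    field_simp
    ring
  have hL : X * (x' / x - 2 + x / x') ∈ A.nonunits := mul_mem_nonunits_right A hXm hfac
  rw [key] at hL
  refine one_add_not_mem_nonunits A ?_ hL
  refine A.nonunits.add_mem (A.nonunits.add_mem (A.nonunits.add_mem (A.nonunits.add_mem
    (A.nonunits.add_mem (A.nonunits.add_mem (A.nonunits.add_mem ?_ ?_) hx) hx') hax) hax') htt) ?_
  · exact mul_mem_nonunits_right A h2 (mul_mem ht ht')
  · exact mul_mem_nonunits_right A h2 ha₂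
  · exact mul_mem_nonunits_right A h2 ht

end Val

/-! ### Formulas on the model `y² + xy = x³ + a₂x² + a₄x` -/

section Curve

variable {K : Type*} [Field K] [DecidableEq K] (W : Affine K)

/-- The `x`-coordinate of `P' - P` in the model `y² + xy = x³ + a₂x² + a₄x`. -/
lemma subX_formula (h₁ : W.a₁ = 1) (h₃ : W.a₃ = 0) (h₆ : W.a₆ = 0) {x y x' y' : K}
    (h : W.Equation x y) (h' : W.Equation x' y') (hne : x' ≠ x) :
    W.addX x' x (W.slope x' x y' (W.negY x y)) * (x' - x) ^ 2 =
      2 * y * y' + y' * x + y * x' + x * x' * (1 + 2 * W.a₂ + x + x') + W.a₄ * (x + x') := by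
  rw [equation_iff] at h h'
  rw [h₁, h₃, h₆] at h h'
  have hx' : x' - x ≠ 0 := sub_ne_zero.mpr hne
  simp_rw [slope_of_X_ne hne, addX, negY, h₁, h₃]
  field_simp
  linear_combination h + h'

/-- The duplication formula in the model `y² + xy = x³ + a₂x² + a₄x`. -/
lemma dupX_formula (h₁ : W.a₁ = 1) (h₃ : W.a₃ = 0) (h₆ : W.a₆ = 0) {x y : K}
    (h : W.Equation x y) (hy : y ≠ W.negY x y) :
    W.addX x x (W.slope x x y y) * (x * (4 * x ^ 2 + W.b₂ * x + 4 * W.a₄)) =
      (x ^ 2 - W.a₄) ^ 2 := by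
  have e := addX_self_mul W h hy
  have hb₄ : W.b₄ = 2 * W.a₄ := by simp [b₄, h₁, h₃]
  have hb₆ : W.b₆ = 0 := by simp [b₆, h₃, h₆]
  have hb₈ : W.b₈ = -W.a₄ ^ 2 := by simp [b₈, h₁, h₃, h₆]
  rw [hb₄, hb₆, hb₈] at e
  linear_combination e

/-- A point killed by `2` and by an odd number is zero. -/
lemma eq_zero_of_two_nsmul {p : ℕ} (hp : Odd p) {R : W.Point} (h2 : 2 • R = 0)
    (hpR : p • R = 0) : R = 0 := by
  obtain ⟨m, rfl⟩ := hp
  have h : (2 * m + 1) • R = m • (2 • R) + R := by
    rw [add_smul, mul_comm, mul_smul, one_smul]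
  rw [h, h2, smul_zero, zero_add] at hpR
  exact hpR

end Curve

/-! ### The Frey curve at a place over `2` -/

section Frey

variable (P : FreyPackage) (A : ValuationSubring Qb)

lemma E_a₁ : (EQb P).a₁ = 1 := by
  rw [EQb_eq_map]; simp [freyInt_a₁]

lemma E_a₃ : (EQb P).a₃ = 0 := by
  rw [EQb_eq_map]; simp [freyInt_a₃]

lemma E_a₆ : (EQb P).a₆ = 0 := by
  rw [EQb_eq_map]; simp [freyInt_a₆]

lemma E_a₂_mem : (EQb P).a₂ ∈ A := by
  rw [EQb_eq_map]
  simp only [map_a₂, eq_intCast]
  exact _root_.intCast_mem A _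

lemma two_mem_nonunits (hA : A.LiesOverPrime 2) : (2 : Qb) ∈ A.nonunits := by
  have h : ((2 : ℕ) : Qb) ∈ A.nonunits := hA
  simpa using h

lemma E_a₄_mem (hA : A.LiesOverPrime 2) : (EQb P).a₄ ∈ A.nonunits := by
  obtain ⟨k, hk⟩ := frey_thirtytwo_dvd P
  have h16 : (16 : ℤ) * P.freyCurveInt.a₄ = 16 * (2 * (-(P.a ^ P.p * k))) := by
    rw [freyInt_a₄, hk]; ring
  have h1 : P.freyCurveInt.a₄ = 2 * (-(P.a ^ P.p * k)) := mul_left_cancel₀ (by norm_num) h16
  rw [EQb_eq_map]
  simp only [map_a₄, eq_intCast]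
  rw [h1]
  push_cast
  exact mul_mem_nonunits_right A (two_mem_nonunits A hA)
    (neg_mem (mul_mem (pow_mem (_root_.intCast_mem A _) _) (_root_.intCast_mem A _)))

lemma E_a₄_ne : (EQb P).a₄ ≠ 0 := by
  rw [EQb_eq_map]
  simp only [map_a₄, eq_intCast]
  intro h
  have h0 : P.freyCurveInt.a₄ = 0 := by exact_mod_cast h
  have h1 := freyInt_a₄ P
  rw [h0, mul_zero] at h1
  have h2 : P.a ^ P.p * P.b ^ P.p ≠ 0 := mul_ne_zero (pow_ne_zero _ P.ha0) (pow_ne_zero _ P.hb0)
  apply h2
  linarith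

lemma E_b₂ : (EQb P).b₂ = 1 + 4 * (EQb P).a₂ := by
  rw [WeierstrassCurve.b₂, E_a₁]; ring

lemma E_b₄ : (EQb P).b₄ = 2 * (EQb P).a₄ := by
  rw [WeierstrassCurve.b₄, E_a₁, E_a₃]; ring

lemma E_b₆ : (EQb P).b₆ = 0 := by
  rw [WeierstrassCurve.b₆, E_a₃, E_a₆]; ring

lemma E_b₈ : (EQb P).b₈ = -(EQb P).a₄ ^ 2 := by
  rw [WeierstrassCurve.b₈, E_a₁, E_a₃, E_a₆]; ring

lemma four_mem : (4 : Qb) ∈ A := by
  have : (4 : Qb) = ((4 : ℕ) : Qb) := by norm_num
  rw [this]; exact natCast_mem A 4

lemma E_b₂_mem : (EQb P).b₂ ∈ A := by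
  rw [E_b₂]
  exact add_mem A.one_mem (mul_mem (four_mem A) (E_a₂_mem P A))

/-- The residue characteristic is `2`, so odd numbers are nonzero in the residue field. -/
lemma natCast_residue_ne_zero (hA : A.LiesOverPrime 2) {p : ℕ} (hp : Odd p) :
    (p : IsLocalRing.ResidueField A) ≠ 0 := by
  obtain ⟨m, rfl⟩ := hp
  have h2 : (2 : IsLocalRing.ResidueField A) = 0 := by
    have h : IsLocalRing.residue A (2 : A) = 0 := by
      rw [IsLocalRing.residue_eq_zero_iff]
      apply (ValuationSubring.coe_mem_nonunits_iff (A := A)).mp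
      exact_mod_cast two_mem_nonunits A hA
    rw [← h]
    exact (map_ofNat (IsLocalRing.residue A) 2).symm
  push_cast
  rw [h2, zero_mul, zero_add]
  exact one_ne_zero

/-- The Galois action on an affine point, in coordinates. -/
lemma smul_some (σ : GQ) {x y : Qb} (h : (EQb P).Nonsingular x y) :
    ∃ h' : (EQb P).Nonsingular (σ x) (σ y),
      σ • (Point.some x y h : (EQb P).Point) = Point.some (σ x) (σ y) h' :=
  ⟨_, rfl⟩

lemma smul_zero' (σ : GQ) : σ • (0 : (EQb P).Point) = 0 := rfl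

/-- The Galois action commutes with natural multiples. -/
lemma smul_nsmul' (σ : GQ) (n : ℕ) (Q : (EQb P).Point) : σ • (n • Q) = n • (σ • Q) := by
  have h := algEquiv_smul_zsmul (S := ℚ) (W' := P.freyCurve) σ (n : ℤ) Q
  rwa [natCast_zsmul, natCast_zsmul] at h

/-- `σ Q - Q` is again killed by `n`. -/
lemma nsmul_smul_sub (σ : GQ) (n : ℕ) (Q : (EQb P).Point) (hQ : n • Q = 0) :
    n • (σ • Q - Q) = 0 := by
  rw [nsmul_sub, ← smul_nsmul', hQ, smul_zero', sub_self]

/-- Torsion points of odd order are integral at places over `2`: the `x`-coordinate. -/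
lemma x_mem_of_nsmul_eq_zero (hA : A.LiesOverPrime 2) {x y : Qb}
    (h : (EQb P).Nonsingular x y)
    (hp : P.p • (Point.some x y h : (EQb P).Point) = 0) : x ∈ A := by
  by_contra hx
  have ha₄ : (EQb P).a₄ ∈ A := mem_of_mem_nonunits A (E_a₄_mem P A hA)
  have hb₄ : (EQb P).b₄ ∈ A := by
    rw [E_b₄]; exact mul_mem (mem_of_mem_nonunits A (two_mem_nonunits A hA)) ha₄
  have hb₆ : (EQb P).b₆ ∈ A := by
    rw [E_b₆]; exact A.zero_mem
  have hb₈ : (EQb P).b₈ ∈ A := by
    rw [E_b₈]; exact neg_mem (pow_mem ha₄ 2)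
  exact nsmul_ne_zero_of_x_not_mem A ⟨_, E_b₂_mem P A⟩ ⟨_, hb₄⟩ ⟨_, hb₆⟩ ⟨_, hb₈⟩ rfl rfl rfl rfl
    h hx P.p (natCast_residue_ne_zero A hA P.hp_odd) hp

/-- Integrality of the `y`-coordinate. -/
lemma y_mem_of_x_mem (hA : A.LiesOverPrime 2) {x y : Qb} (h : (EQb P).Equation x y)
    (hx : x ∈ A) : y ∈ A := by
  rw [equation_iff, E_a₁, E_a₃, E_a₆] at h
  apply mem_of_sq_add_mul_mem A hx
  have e : y ^ 2 + x * y = x ^ 3 + (EQb P).a₂ * x ^ 2 + (EQb P).a₄ * x := by
    linear_combination h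
  rw [e]
  exact add_mem (add_mem (pow_mem hx 3) (mul_mem (E_a₂_mem P A) (pow_mem hx 2)))
    (mul_mem (mem_of_mem_nonunits A (E_a₄_mem P A hA)) hx)

/-- Integrality of `t = y / x` for node points not too close to the node. -/
lemma t_mem {x y : Qb} (h : (EQb P).Equation x y)
    (hx : x ∈ A) (hx0 : x ≠ 0) (hax : (EQb P).a₄ / x ∈ A) : y / x ∈ A := by
  rw [equation_iff, E_a₁, E_a₃, E_a₆] at h
  apply mem_of_sq_add_mem A
  have e : (y / x) ^ 2 + y / x = x + (EQb P).a₂ + (EQb P).a₄ / x := by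
    field_simp
    linear_combination h
  rw [e]
  exact add_mem (add_mem hx (E_a₂_mem P A)) hax

/-- **Unit case.** A torsion point whose `x`-coordinate is not in the maximal ideal is fixed by
inertia. -/
theorem fixed_of_unit (hA : A.LiesOverPrime 2) (σ : GQ) (hσ : σ ∈ A.inertiaSubgroupIn ℚ)
    {x y : Qb} (h : (EQb P).Nonsingular x y)
    (hp : P.p • (Point.some x y h : (EQb P).Point) = 0) (hx : x ∉ A.nonunits) :
    σ • (Point.some x y h : (EQb P).Point) = Point.some x y h := by
  have hxA : x ∈ A := x_mem_of_nsmul_eq_zero P A hA h hp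
  have hyA : y ∈ A := y_mem_of_x_mem P A hA h.1 hxA
  obtain ⟨h', e⟩ := smul_some P σ h
  have hσx := inertia_mem A hσ x hxA
  have hσy := inertia_mem A hσ y hyA
  have h2 := two_mem_nonunits A hA
  have hns : 2 * y + (EQb P).a₁ * x + (EQb P).a₃ ∉ A.nonunits := by
    rw [E_a₁, E_a₃, one_mul, add_zero]
    intro hmem
    apply hx
    have := A.nonunits.sub_mem hmem (mul_mem_nonunits_right A h2 hyA)
    simpa using this
  have key := sub_nonintegral_of_same_reduction A (EQb P)
    (by rw [E_a₁]; exact A.one_mem) (E_a₂_mem P A) (by rw [E_a₃]; exact A.zero_mem)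
    (mem_of_mem_nonunits A (E_a₄_mem P A hA)) h h' hxA hyA hσx.2 hσy.2 (Or.inl hns)
  rcases key with h0 | ⟨x₃, y₃, h₃, e₃, hx₃⟩
  · rw [e]; exact sub_eq_zero.mp h0
  · exfalso
    have hp₃ : P.p • (Point.some x₃ y₃ h₃ : (EQb P).Point) = 0 := by
      rw [← e₃, ← e]
      exact nsmul_smul_sub P σ P.p _ hp
    exact hx₃ (x_mem_of_nsmul_eq_zero P A hA h₃ hp₃)

/-- **Main local statement at `2`**, on points: `(σ - 1)² = 0` on `p`-torsion points. -/
theorem main (hA : A.LiesOverPrime 2) (σ : GQ) (hσ : σ ∈ A.inertiaSubgroupIn ℚ)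
    (Q : (EQb P).Point) (hQ : P.p • Q = 0) : σ • (σ • Q - Q) = σ • Q - Q := by
  rcases Q with _ | ⟨x, y, h⟩
  · have e : σ • (Point.zero : (EQb P).Point) = Point.zero := rfl
    rw [e, ← zero_def, sub_self]
    exact smul_zero' P σ
  · by_cases hxm : x ∈ A.nonunits
    swap
    · rw [fixed_of_unit P A hA σ hσ h hQ hxm, sub_self]
      exact smul_zero' P σ
    have hxA : x ∈ A := mem_of_mem_nonunits A hxm
    -- `Q` is not a `2`-torsion point
    have hy : y ≠ (EQb P).negY x y := by
      intro hy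
      have h2 : 2 • (Point.some x y h : (EQb P).Point) = 0 := by
        rw [two_nsmul]; exact add_of_Y_eq rfl hy
      exact some_ne_zero h (eq_zero_of_two_nsmul (EQb P) P.hp_odd h2 hQ)
    have hx0 : x ≠ 0 := by
      rintro rfl
      apply hy
      have heq := h.1
      rw [equation_iff, E_a₁, E_a₃, E_a₆] at heq
      have hy0 : y = 0 := by
        have : y ^ 2 = 0 := by linear_combination heq
        exact pow_eq_zero_iff (two_ne_zero) |>.mp this
      rw [hy0, negY, E_a₃]
      ring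
    have ha₄0 := E_a₄_ne P
    have hvx : A.valuation x ≠ 0 := (Valuation.ne_zero_iff _).mpr hx0
    have hva : A.valuation (EQb P).a₄ ≠ 0 := (Valuation.ne_zero_iff _).mpr ha₄0
    by_cases hc : A.valuation x ≤ A.valuation (EQb P).a₄
    · -- close to the node: `2 • Q` has a unit `x`-coordinate
      have hxa : x / (EQb P).a₄ ∈ A := by
        rw [← A.valuation_le_one_iff, map_div₀]
        exact div_le_one_of_le₀ hc zero_le
      have h2Q : 2 • (Point.some x y h : (EQb P).Point) =
          Point.some _ _ (nonsingular_add h h fun hxy => hy hxy.right) := by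
        rw [two_nsmul]; exact add_self_of_Y_ne hy
      have hX₂ := dup_not_mem_nonunits A ha₄0 hxm hxa (E_b₂_mem P A)
        (dupX_formula (EQb P) (E_a₁ P) (E_a₃ P) (E_a₆ P) h.1 hy)
      have hp2 : P.p • (2 • (Point.some x y h : (EQb P).Point)) = 0 := by
        rw [← mul_nsmul, mul_comm, mul_nsmul, hQ, nsmul_zero]
      have hfix : σ • (2 • (Point.some x y h : (EQb P).Point)) =
          2 • (Point.some x y h : (EQb P).Point) := by
        rw [h2Q] at hp2 ⊢
        exact fixed_of_unit P A hA σ hσ _ hp2 hX₂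
      have h2' : 2 • (σ • (Point.some x y h : (EQb P).Point) - Point.some x y h) = 0 := by
        rw [nsmul_sub, ← smul_nsmul', hfix, sub_self]
      have h0 := eq_zero_of_two_nsmul (EQb P) P.hp_odd h2' (nsmul_smul_sub P σ P.p _ hQ)
      rw [h0]
      exact smul_zero' P σ
    · -- away from the node: same depth, same branch
      push Not at hc
      have hax : (EQb P).a₄ / x ∈ A.nonunits := by
        rw [ValuationSubring.mem_nonunits_iff, map_div₀]
        exact (div_lt_one₀ (zero_lt_iff.mpr hvx)).mpr hc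
      have ht : y / x ∈ A := t_mem P A h.1 hxA hx0 (mem_of_mem_nonunits A hax)
      obtain ⟨h', e⟩ := smul_some P σ h
      have hσt := (inertia_mem A hσ (y / x) ht).2
      rw [map_div₀] at hσt
      have h2 := two_mem_nonunits A hA
      by_cases hxx : σ x = x
      · rcases Y_eq_of_X_eq h'.1 h.1 hxx with hyy | hyy
        · have e' : σ • (Point.some x y h : (EQb P).Point) = Point.some x y h := by
            rw [e]
            simp only [Point.some.injEq]
            exact ⟨hxx, hyy⟩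
          rw [e', sub_self]
          exact smul_zero' P σ
        · exfalso
          rw [hxx, hyy, negY, E_a₁, E_a₃] at hσt
          have e1 : (-y - 1 * x - 0) / x - y / x = -(1 + 2 * (y / x)) := by
            field_simp
            ring
          rw [e1] at hσt
          exact one_add_not_mem_nonunits A (mul_mem_nonunits_right A h2 ht)
            (by simpa using A.nonunits.neg_mem hσt)
      · have hσx0 : σ x ≠ 0 := by
          intro h0
          apply hx0
          have : σ x = σ 0 := by rw [h0, _root_.map_zero]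
          exact σ.injective this
        have hσxm : σ x ∈ A.nonunits := by
          rw [ValuationSubring.mem_nonunits_iff, inertia_valuation A hσ x]
          exact (ValuationSubring.mem_nonunits_iff A).mp hxm
        have hsub : σ • (Point.some x y h : (EQb P).Point) - Point.some x y h =
            Point.some _ _ (nonsingular_add h' ((nonsingular_neg ..).mpr h)
              fun hxy => hxx hxy.left) := by
          rw [e, sub_eq_add_neg, neg_some]
          exact add_of_X_ne hxx
        have hX := sub_not_mem_nonunits A h2 (E_a₂_mem P A) hxm hσxm hx0 hσx0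
          (inertia_valuation A hσ x) hax ht hσt
          (subX_formula (EQb P) (E_a₁ P) (E_a₃ P) (E_a₆ P) h.1 h'.1 hxx)
        have hp' := nsmul_smul_sub P σ P.p _ hQ
        rw [hsub] at hp' ⊢
        exact fixed_of_unit P A hA σ hσ _ hp' hX

end Frey

end Fermat.Agent.S13.T2A

namespace Fermat.Agent.S13

/-- (T2a) Inertia at 2 acts unipotently: `(σ - 1)² = 0` on `E[p]`.
Cases for `v = (x, y) ≠ 0` (integral by `nsmul_ne_zero_of_x_not_mem`):
* `x` a unit: `σ v - v` is in the kernel of reduction (`sub_nonintegral_of_same_reduction`), so `= 0`;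
* `x ∈ m`, `v(x) ≤ v(a₄)`: `x(2v)` is not in `m` (duplication formula), so `2v` is fixed, hence `v`;
* `x ∈ m`, `v(a₄) < v(x)`: by `node_pair_unit` one of `σv - v`, `σv + v` has unit `x`, hence is
  σ-fixed; the case `σ v + v` is excluded by the branch invariant (`α, β` roots of `t² + t - a₂`,
  `branch(P) = ` the root with `v(y - root·x) < v(x)`; `branch(σP) = branch(P)`,
  `branch(-P) ≠ branch(P)`, `branch(P + R) = branch(P)` for `R` with unit x-coordinate). -/
theorem inertia_two_sq (P : FreyPackage) (A : ValuationSubring Qb) (hA : A.LiesOverPrime 2)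
    (σ : GQ) (hσ : σ ∈ A.inertiaSubgroupIn ℚ) (v : Tors P) :
    σ • (σ • v - v) = σ • v - v := by
  have hv : P.p • (v : (EQb P).Point) = 0 := by
    have h := v.2
    rw [Submodule.mem_torsionBy_iff, natCast_zsmul] at h
    exact h
  apply Subtype.ext
  exact T2A.main P A hA σ hσ (v : (EQb P).Point) hv

end Fermat.Agent.S13
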