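import Fermat.Agent.S13.Defs
import Fermat.Agent.S13.LocSame
import Fermat.Agent.S13.NodePair
import Fermat.Agent.S13.NodeLagrange
import Fermat.Agent.S13.Ladder
import Fermat.Agent.S13.FreyFacts
import Fermat.Agent.S13.Val

/-! # Local analysis at 2 (task T2B)

Model: `y² + xy = x³ + a₂x² + a₄x` (integral), `b₂ = b^p - a^p` odd, `a₄ = -a^p b^p/16` even, node of
the reduction mod 2 at `(0,0)`, `ord₂ a₄ = p·ord₂ b - 4` (prime to `p` after doubling).

Proof of `no_rational_torsion` (helper9429): a Galois-fixed torsion point and all its multiples have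
rational coordinates. Take `A` over `2`.
* No nonzero multiple has a non-integral x-coordinate (`nsmul_ne_zero_of_x_not_mem`, `p` odd).
* No nonzero multiple `R` has a unit x-coordinate: a rational 2-adic unit is `≡ 1 mod 2`, so by the
  add-sub formulas (`addSub_sym2x`, applied to `(R, R)` and `(2R, R)`) `x(2R)` is a unit and
  `x(3R) x(R) (x(2R) - x(R))² = (x(2R) x(R) - a₄)²` forces `x(3R)` to be non-integral
  (`T2B.unit_triple`).
* Hence all nonzero multiples are node points and `node_lagrange` gives `v(x)^p = v(a₄)^(2j)` with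
  `v(x) = v(2)^c`, `v(a₄) = v(2)^e`, `e = p·ord₂ b - 4`, `0 < c < e`: `p c = 2 e j`, so `p ∣ j` and
  `c = 2 e j'`, impossible. -/

set_option autoImplicit false

open WeierstrassCurve WeierstrassCurve.Affine WeierstrassCurve.Affine.Point

namespace Fermat.Agent.S13.T2B

open Fermat.Agent.S13

section Coeffs

variable (P : FreyPackage)

lemma coe_a₁ : (EQb P).a₁ = 1 := by
  rw [EQb_eq_map]; simp [freyInt_a₁]

lemma coe_a₂ : (EQb P).a₂ = ((P.freyCurveInt.a₂ : ℤ) : Qb) := by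
  rw [EQb_eq_map]; simp

lemma coe_a₃ : (EQb P).a₃ = 0 := by
  rw [EQb_eq_map]; simp [freyInt_a₃]

lemma coe_a₄ : (EQb P).a₄ = ((P.freyCurveInt.a₄ : ℤ) : Qb) := by
  rw [EQb_eq_map]; simp

lemma coe_a₆ : (EQb P).a₆ = 0 := by
  rw [EQb_eq_map]; simp [freyInt_a₆]

lemma coe_b₂ : (EQb P).b₂ = ((P.freyCurveInt.b₂ : ℤ) : Qb) := by
  rw [EQb_eq_map]; simp

lemma coe_b₄ : (EQb P).b₄ = 2 * (EQb P).a₄ := by
  rw [WeierstrassCurve.b₄, coe_a₁, coe_a₃]; ring

lemma coe_b₆ : (EQb P).b₆ = 0 := by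
  rw [WeierstrassCurve.b₆, coe_a₃, coe_a₆]; ring

lemma coe_b₈ : (EQb P).b₈ = -(EQb P).a₄ ^ 2 := by
  rw [WeierstrassCurve.b₈, coe_a₁, coe_a₃, coe_a₆]; ring

lemma a₄_ne_zero : P.freyCurveInt.a₄ ≠ 0 := by
  intro h0
  have h := freyInt_a₄ P
  rw [h0, mul_zero] at h
  have h1 : P.a ^ P.p * P.b ^ P.p ≠ 0 :=
    mul_ne_zero (pow_ne_zero _ P.ha0) (pow_ne_zero _ P.hb0)
  exact h1 (by linarith)

lemma two_dvd_a₄ : (2 : ℤ) ∣ P.freyCurveInt.a₄ := by
  obtain ⟨t, ht⟩ := frey_thirtytwo_dvd P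
  have h := freyInt_a₄ P
  refine ⟨-(P.a ^ P.p * t), ?_⟩
  have h' : 16 * P.freyCurveInt.a₄ = 16 * (2 * -(P.a ^ P.p * t)) := by
    rw [h, ht]; ring
  exact Int.eq_of_mul_eq_mul_left (by norm_num) h'

lemma b₂_odd : ¬ (2 : ℤ) ∣ P.freyCurveInt.b₂ := by
  intro h
  rw [freyInt_b₂] at h
  obtain ⟨t, ht⟩ := frey_thirtytwo_dvd P
  apply frey_a_pow_odd P
  have h2 : (2 : ℤ) ∣ P.b ^ P.p := ⟨16 * t, by rw [ht]; ring⟩
  have := dvd_sub h2 h
  simpa using this

end Coeffs

section Val2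

variable (A : ValuationSubring Qb)

lemma val_two_lt_one (hA : A.LiesOverPrime 2) : A.valuation (2 : Qb) < 1 := by
  have h := valuation_prime_lt_one A hA
  simpa using h

lemma val_two_pos : 0 < A.valuation (2 : Qb) := by
  have h2 : (2 : Qb) ≠ 0 := two_ne_zero
  exact lt_of_le_of_ne zero_le (Ne.symm ((Valuation.ne_zero_iff _).mpr h2))

lemma val_int_le_one (n : ℤ) : A.valuation (n : Qb) ≤ 1 :=
  (A.valuation_le_one_iff _).mpr (intCast_mem A n)

lemma val_int_even (hA : A.LiesOverPrime 2) {n : ℤ} (hn : (2 : ℤ) ∣ n) :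
    A.valuation (n : Qb) < 1 := by
  obtain ⟨m, rfl⟩ := hn
  push_cast
  rw [map_mul]
  calc A.valuation 2 * A.valuation (m : Qb) ≤ A.valuation 2 * 1 :=
        mul_le_mul' le_rfl (val_int_le_one A m)
    _ < 1 := by rw [mul_one]; exact val_two_lt_one A hA

lemma val_int_odd (hA : A.LiesOverPrime 2) {n : ℤ} (hn : ¬ (2 : ℤ) ∣ n) :
    A.valuation (n : Qb) = 1 :=
  valuation_intCast_eq_one A hA Nat.prime_two n (by simpa using hn)

lemma val_unit_add {u m : Qb} (hu : A.valuation u = 1) (hm : A.valuation m < 1) :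
    A.valuation (u + m) = 1 := by
  rw [Valuation.map_add_eq_of_lt_left _ (by rw [hu]; exact hm), hu]

lemma val_unit_sub {u m : Qb} (hu : A.valuation u = 1) (hm : A.valuation m < 1) :
    A.valuation (u - m) = 1 := by
  rw [Valuation.map_sub_eq_of_lt_left _ (by rw [hu]; exact hm), hu]

/-- A rational number which is a unit at (a place over) `2` is congruent to `1`. -/
lemma rat_unit_sub_one (hA : A.LiesOverPrime 2) (q : ℚ)
    (hq : A.valuation (algebraMap ℚ Qb q) = 1) :
    A.valuation (algebraMap ℚ Qb q - 1) < 1 := by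
  have hd : ((q.den : ℤ) : Qb) ≠ 0 := by
    exact_mod_cast q.den_ne_zero
  have hqe : algebraMap ℚ Qb q * ((q.den : ℤ) : Qb) = ((q.num : ℤ) : Qb) := by
    have h1 : q * (q.den : ℚ) = (q.num : ℚ) := Rat.mul_den_eq_num q
    have h2 := congrArg (algebraMap ℚ Qb) h1
    rw [map_mul, map_natCast, map_intCast] at h2
    rw [Int.cast_natCast]
    exact h2
  have hv : A.valuation ((q.den : ℤ) : Qb) = A.valuation ((q.num : ℤ) : Qb) := by
    rw [← hqe, map_mul, hq, one_mul]
  have hden : ¬ (2 : ℤ) ∣ (q.den : ℤ) := by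
    intro h2
    have h3 : A.valuation ((q.num : ℤ) : Qb) < 1 := hv ▸ val_int_even A hA h2
    have hnum : (2 : ℤ) ∣ q.num := by
      by_contra hnn
      rw [val_int_odd A hA hnn] at h3
      exact lt_irrefl _ h3
    have hcop := q.reduced
    have h4 : (2 : ℕ) ∣ q.num.natAbs := by
      have := Int.natAbs_dvd_natAbs.mpr hnum
      simpa using this
    have h5 : (2 : ℕ) ∣ q.den := by exact_mod_cast h2
    exact Nat.not_coprime_of_dvd_of_dvd (by norm_num) h4 h5 hcop
  have hvd : A.valuation ((q.den : ℤ) : Qb) = 1 := val_int_odd A hA hden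
  have hnum : ¬ (2 : ℤ) ∣ q.num := by
    intro h2
    have h3 := val_int_even A hA h2
    rw [← hv, hvd] at h3
    exact lt_irrefl _ h3
  have hsub : (2 : ℤ) ∣ q.num - (q.den : ℤ) := by omega
  have h6 : (algebraMap ℚ Qb q - 1) * ((q.den : ℤ) : Qb) = ((q.num - (q.den : ℤ) : ℤ) : Qb) := by
    rw [Int.cast_sub, sub_mul, hqe, one_mul]
  have h7 : A.valuation (algebraMap ℚ Qb q - 1) =
      A.valuation ((q.num - (q.den : ℤ) : ℤ) : Qb) := by
    rw [← h6, map_mul, hvd, mul_one]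
  rw [h7]
  exact val_int_even A hA hsub

end Val2

section Triple

variable (P : FreyPackage) (A : ValuationSubring Qb)

lemma val_a₄_lt_one (hA : A.LiesOverPrime 2) : A.valuation (EQb P).a₄ < 1 := by
  rw [coe_a₄]; exact val_int_even A hA (two_dvd_a₄ P)

lemma val_b₂_eq_one (hA : A.LiesOverPrime 2) : A.valuation (EQb P).b₂ = 1 := by
  rw [coe_b₂]; exact val_int_odd A hA (b₂_odd P)

/-- If a point `Q` of the Frey curve has a rational x-coordinate which is a unit at `2`, and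
`2 • Q` has a rational x-coordinate as well, then `3 • Q` is zero or non-integral at `2`. -/
lemma unit_triple (hA : A.LiesOverPrime 2) {x y : Qb} (h : (EQb P).Nonsingular x y)
    (hx : A.valuation x = 1) (hxr : ∃ q : ℚ, algebraMap ℚ Qb q = x)
    (hrat2 : ∀ (x' y' : Qb) (h' : (EQb P).Nonsingular x' y'),
      (2 : ℕ) • Point.some x y h = Point.some x' y' h' → ∃ q : ℚ, algebraMap ℚ Qb q = x') :
    (3 : ℕ) • Point.some x y h = 0 ∨
      ∃ (x₃ y₃ : Qb) (h₃ : (EQb P).Nonsingular x₃ y₃),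
        (3 : ℕ) • Point.some x y h = Point.some x₃ y₃ h₃ ∧ x₃ ∉ A := by
  have ha4 := val_a₄_lt_one P A hA
  have hb2 := val_b₂_eq_one P A hA
  have h2lt := val_two_lt_one A hA
  have hxA : x ∈ A := (A.valuation_le_one_iff x).mp hx.le
  have ha4A : (EQb P).a₄ ∈ A := (A.valuation_le_one_iff _).mp ha4.le
  set Q : (EQb P).Point := Point.some x y h with hQ
  -- doubling
  obtain ⟨c, hc, e0, e1, -⟩ := addSub_sym2x Q Q
  have hQQ : Q + Q = (2 : ℕ) • Q := (two_nsmul Q).symm
  rw [sub_self, hQQ] at e0 e1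
  have hs0 : Q.sym2x Q 0 = x * x := by simp [hQ]
  have hs1 : Q.sym2x Q 1 = x + x := by simp [hQ]
  have hs2 : Q.sym2x Q 2 = 1 := by simp [hQ]
  rw [hs0, hs1, hs2] at e0 e1
  have hN : asP (EQb P) (x * x) (x + x) 1 = (x ^ 2 - (EQb P).a₄) ^ 2 := by
    simp only [asP, coe_b₄, coe_b₆, coe_b₈]; ring
  have hD : asS (EQb P) (x * x) (x + x) 1 =
      (EQb P).b₂ * x ^ 2 + 2 * (2 * (x ^ 3 + (EQb P).a₄ * x)) := by
    simp only [asS, coe_b₄, coe_b₆]; ring
  have hvN : A.valuation (asP (EQb P) (x * x) (x + x) 1) = 1 := by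
    rw [hN, map_pow, val_unit_sub A (by rw [map_pow, hx, one_pow]) ha4, one_pow]
  have hvD : A.valuation (asS (EQb P) (x * x) (x + x) 1) = 1 := by
    rw [hD]
    apply val_unit_add A (by rw [map_mul, map_pow, hb2, hx, one_pow, one_mul])
    rw [map_mul]
    have h2A : (2 : Qb) ∈ A := by
      exact_mod_cast intCast_mem A 2
    have hle : A.valuation (2 * (x ^ 3 + (EQb P).a₄ * x)) ≤ 1 :=
      (A.valuation_le_one_iff _).mpr
        (A.mul_mem _ _ h2A (A.add_mem _ _ (pow_mem hxA 3) (A.mul_mem _ _ ha4A hxA)))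
    calc A.valuation 2 * A.valuation (2 * (x ^ 3 + (EQb P).a₄ * x))
        ≤ A.valuation 2 * 1 := mul_le_mul' le_rfl hle
      _ < 1 := by rw [mul_one]; exact h2lt
  rcases h2 : (2 : ℕ) • Q with _ | ⟨x₂, y₂, h₂⟩
  · -- `2 • Q = 0` is impossible
    exfalso
    rw [h2] at e1
    have h0 : asS (EQb P) (x * x) (x + x) 1 = 0 := by
      rw [e1]; simp [← zero_def]
    rw [h0, _root_.map_zero] at hvD
    exact zero_ne_one hvD
  · rw [h2] at e0 e1
    have e0' : asP (EQb P) (x * x) (x + x) 1 = c * x₂ := by rw [e0]; simp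
    have e1' : asS (EQb P) (x * x) (x + x) 1 = c := by rw [e1]; simp
    have hvc : A.valuation c = 1 := by rw [← e1']; exact hvD
    have hvx₂ : A.valuation x₂ = 1 := by
      have h1 := hvN
      rw [e0', map_mul, hvc, one_mul] at h1
      exact h1
    -- `x₂ - x` is in the maximal ideal
    obtain ⟨q, hq⟩ := hxr
    obtain ⟨q₂, hq₂⟩ := hrat2 x₂ y₂ h₂ h2
    have hd : A.valuation (x₂ - x) < 1 := by
      have h1 := rat_unit_sub_one A hA q (by rw [hq]; exact hx)
      have h2' := rat_unit_sub_one A hA q₂ (by rw [hq₂]; exact hvx₂)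
      rw [hq] at h1
      rw [hq₂] at h2'
      have hring : x₂ - x = (x₂ - 1) - (x - 1) := by ring
      rw [hring]
      exact Valuation.map_sub_lt _ h2' h1
    -- tripling
    obtain ⟨c', hc', f0, -, f2⟩ := addSub_sym2x (Point.some x₂ y₂ h₂) Q
    have hadd : Point.some x₂ y₂ h₂ + Q = (3 : ℕ) • Q := by
      rw [← h2, ← succ_nsmul]
    have hsub : Point.some x₂ y₂ h₂ - Q = Q := by
      rw [← h2, two_nsmul, add_sub_cancel_right]
    rw [hadd, hsub] at f0 f2
    have ht0 : (Point.some x₂ y₂ h₂).sym2x Q 0 = x₂ * x := by simp [hQ]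
    have ht1 : (Point.some x₂ y₂ h₂).sym2x Q 1 = x₂ + x := by simp [hQ]
    have ht2 : (Point.some x₂ y₂ h₂).sym2x Q 2 = 1 := by simp [hQ]
    rw [ht0, ht1, ht2] at f0 f2
    have hN3 : asP (EQb P) (x₂ * x) (x₂ + x) 1 = (x₂ * x - (EQb P).a₄) ^ 2 := by
      simp only [asP, coe_b₄, coe_b₆, coe_b₈]; ring
    have hD3 : asD (x₂ * x) (x₂ + x) 1 = (x₂ - x) ^ 2 := by
      simp only [asD]; ring
    have hvN3 : A.valuation (asP (EQb P) (x₂ * x) (x₂ + x) 1) = 1 := by
      rw [hN3, map_pow, val_unit_sub A (by rw [map_mul, hvx₂, hx, one_mul]) ha4, one_pow]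
    rcases h3 : (3 : ℕ) • Q with _ | ⟨x₃, y₃, h₃⟩
    · left; rfl
    · right
      refine ⟨x₃, y₃, h₃, rfl, ?_⟩
      rw [h3] at f0 f2
      have f0' : asP (EQb P) (x₂ * x) (x₂ + x) 1 = c' * (x₃ * x) := by rw [f0]; simp [hQ]
      have f2' : asD (x₂ * x) (x₂ + x) 1 = c' := by rw [f2]; simp [hQ]
      have hvc' : A.valuation c' < 1 := by
        rw [← f2', hD3, map_pow]
        exact pow_lt_one₀ zero_le hd two_ne_zero
      intro hx₃
      have hx₃' : A.valuation x₃ ≤ 1 := (A.valuation_le_one_iff _).mpr hx₃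
      have hlt : A.valuation (c' * (x₃ * x)) < 1 := by
        rw [map_mul, map_mul, hx, mul_one]
        calc A.valuation c' * A.valuation x₃ ≤ A.valuation c' * 1 := mul_le_mul' le_rfl hx₃'
          _ < 1 := by rw [mul_one]; exact hvc'
      rw [← f0', hvN3] at hlt
      exact lt_irrefl _ hlt

end Triple

section Misc

variable (P : FreyPackage) (A : ValuationSubring Qb)

lemma b_mem : (EQb P).b₂ ∈ A ∧ (EQb P).b₄ ∈ A ∧ (EQb P).b₆ ∈ A ∧ (EQb P).b₈ ∈ A := by
  rw [EQb_eq_map]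
  simp only [WeierstrassCurve.map_b₂, WeierstrassCurve.map_b₄, WeierstrassCurve.map_b₆,
    WeierstrassCurve.map_b₈, eq_intCast]
  exact ⟨intCast_mem A _, intCast_mem A _, intCast_mem A _, intCast_mem A _⟩

lemma residue_p_ne_zero (hA : A.LiesOverPrime 2) {p : ℕ} (hp : p.Prime) (hp5 : 5 ≤ p) :
    (p : IsLocalRing.ResidueField A) ≠ 0 := by
  have h2 : (2 : IsLocalRing.ResidueField A) = 0 := by
    have hmem : (2 : A) ∈ IsLocalRing.maximalIdeal A := by
      rw [← ValuationSubring.coe_mem_nonunits_iff]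
      have h : ((2 : ℕ) : Qb) ∈ A.nonunits := hA
      have e : ((2 : A) : Qb) = ((2 : ℕ) : Qb) := by
        rw [Nat.cast_ofNat]; rfl
      rw [e]
      exact h
    have h := (IsLocalRing.residue_eq_zero_iff (2 : A)).mpr hmem
    rwa [map_ofNat] at h
  have hodd : Odd p := hp.odd_of_ne_two (by omega)
  obtain ⟨m, rfl⟩ := hodd
  push_cast
  rw [h2, zero_mul, zero_add]
  exact one_ne_zero

end Misc

end Fermat.Agent.S13.T2B

namespace Fermat.Agent.S13

open T2B in
/-- (T2b) No nonzero rational `p`-torsion point (2-adic argument).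
If `v = (x, y) ≠ 0` is Galois-fixed then `x, y ∈ ℚ`. Take `A` over 2. If some multiple has unit `x`:
three times that multiple is non-integral (or zero), contradiction. Otherwise all nonzero multiples
are node points and `node_lagrange` gives `v(x)^p = v(a₄)^(2j)` with `v(x) = v(2)^c`,
`v(a₄) = v(2)^h`, `h = p·ord₂ b - 4`, `0 < c < h`: `p c = 2 h j`, `gcd(p, 2h) = 1`, contradiction. -/
theorem no_rational_torsion (P : FreyPackage) (v : Tors P) (hv : ∀ σ : GQ, σ • v = v) : v = 0 := by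
  by_contra hv0
  obtain ⟨A, hA⟩ := exists_valuationSubring_over 2 Nat.prime_two
  have hp := P.pp
  have hp5 := P.hp5
  set Q : (EQb P).Point := (v : (EQb P).Point) with hQ
  have hpQ : P.p • Q = 0 := (mem_tors_iff Q).mp v.2
  have hQ0 : Q ≠ 0 := fun h => hv0 (Subtype.ext h)
  -- multiples are Galois-fixed
  have hfix : ∀ (k : ℕ) (σ : GQ), σ • (k • v) = k • v := by
    intro k σ
    have h1 := map_nsmul (DistribSMul.toAddMonoidHom (Tors P) σ) k v
    simp only [DistribSMul.toAddMonoidHom_apply] at h1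
    rw [h1, hv σ]
  have hcoe : ∀ k : ℕ, ((k • v : Tors P) : (EQb P).Point) = k • Q := fun k => by
    rw [hQ]; exact AddSubmonoidClass.coe_nsmul _ _
  -- rationality of the coordinates of all multiples
  have hrat : ∀ (k : ℕ) (x y : Qb) (h : (EQb P).Nonsingular x y),
      k • Q = Point.some x y h → ∃ q : ℚ, algebraMap ℚ Qb q = x := by
    intro k x y h hk
    apply rational_of_fixed
    intro σ
    obtain ⟨h', hσ⟩ := smul_coe_some σ (k • v) (x := x) (y := y) (h := h) (by rw [hcoe, hk])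
    rw [hfix k σ, hcoe, hk] at hσ
    exact (Point.some.inj hσ).1.symm
  -- nonzero multiples
  have hne : ∀ k : ℕ, ¬ P.p ∣ k → k • Q ≠ 0 := by
    intro k hk h0
    have h1 : addOrderOf Q ∣ k := addOrderOf_dvd_of_nsmul_eq_zero h0
    have h2 : addOrderOf Q ∣ P.p := addOrderOf_dvd_of_nsmul_eq_zero hpQ
    have h3 : addOrderOf Q = 1 := by
      rcases (Nat.dvd_prime hp).mp h2 with h | h
      · exact h
      · rw [h] at h1; exact absurd h1 hk
    exact hQ0 (AddMonoid.addOrderOf_eq_one_iff.mp h3)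
  -- integrality of all multiples
  have hres := residue_p_ne_zero A hA hp hp5
  obtain ⟨hb2, hb4, hb6, hb8⟩ := b_mem P A
  have hint : ∀ (k : ℕ) (x y : Qb) (h : (EQb P).Nonsingular x y),
      k • Q = Point.some x y h → x ∈ A := by
    intro k x y h hk
    by_contra hx
    have h1 := nsmul_ne_zero_of_x_not_mem A ⟨_, hb2⟩ ⟨_, hb4⟩ ⟨_, hb6⟩ ⟨_, hb8⟩ rfl rfl rfl rfl
      h hx P.p hres
    apply h1
    rw [← hk, ← mul_nsmul, mul_nsmul', hpQ, smul_zero]
  -- all nonzero multiples are node points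
  have hnode : ∀ k : ℕ, ¬ P.p ∣ k →
      ∃ (x y : Qb) (h : (EQb P).Nonsingular x y),
        k • Q = Point.some x y h ∧ x ∈ A.nonunits := by
    intro k hk
    rcases hkQ : k • Q with _ | ⟨x, y, h⟩
    · exact absurd hkQ (hne k hk)
    · refine ⟨x, y, h, rfl, ?_⟩
      have hxA := hint k x y h hkQ
      by_contra hxn
      have hvx : A.valuation x = 1 := by
        have h1 : A.valuation x ≤ 1 := (A.valuation_le_one_iff x).mpr hxA
        have h2 : ¬ A.valuation x < 1 := fun h => hxn (A.mem_nonunits_iff.mpr h)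
        exact le_antisymm h1 (not_lt.mp h2)
      have h3k : ¬ P.p ∣ 3 * k := by
        intro hd
        rcases (Nat.Prime.dvd_mul hp).mp hd with h | h
        · have := Nat.le_of_dvd (by norm_num) h
          omega
        · exact hk h
      rcases unit_triple P A hA h hvx (hrat k x y h hkQ)
          (fun x' y' h' h2 => hrat (2 * k) x' y' h' (by rw [mul_nsmul', hkQ]; exact h2))
        with h0 | ⟨x₃, y₃, h₃, h3, hx₃⟩
      · apply hne (3 * k) h3k
        rw [mul_nsmul', hkQ]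
        exact h0
      · apply hx₃
        exact hint (3 * k) x₃ y₃ h₃ (by rw [mul_nsmul', hkQ]; exact h3)
  -- the Lagrange lemma
  obtain ⟨x, y, h, hQxy⟩ :
      ∃ (x y : Qb) (h : (EQb P).Nonsingular x y), Q = Point.some x y h := by
    rcases hQ' : Q with _ | ⟨x, y, h⟩
    · exact absurd hQ' hQ0
    · exact ⟨x, y, h, rfl⟩
  have ha₁ : (EQb P).a₁ ∈ A := by rw [coe_a₁]; exact A.one_mem
  have ha₂ : (EQb P).a₂ ∈ A := by rw [coe_a₂]; exact intCast_mem A _
  have ha₄ : (EQb P).a₄ ∈ A.nonunits := A.mem_nonunits_iff.mpr (val_a₄_lt_one P A hA)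
  have ha₄0 : (EQb P).a₄ ≠ 0 := by
    rw [coe_a₄]
    exact_mod_cast a₄_ne_zero P
  obtain ⟨hlt, j, hj⟩ := node_lagrange A (EQb P) ha₁ ha₂ (coe_a₃ P) (coe_a₆ P) ha₄ ha₄0
    (val_b₂_eq_one P A hA) P.p hp (by omega) Q hpQ hQ0 hnode h hQxy
  -- valuations as powers of `v(2)`
  have ht0 : 0 < A.valuation (2 : Qb) := val_two_pos A
  have ht1 : A.valuation (2 : Qb) < 1 := val_two_lt_one A hA
  -- `x` is a nonzero rational number
  obtain ⟨q, hq⟩ := hrat 1 x y h (by rw [one_nsmul]; exact hQxy)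
  have hx0 : x ≠ 0 := by
    intro h0
    rw [h0, _root_.map_zero] at hlt
    exact not_lt_zero hlt
  have hq0 : q ≠ 0 := by
    rintro rfl
    exact hx0 (by rw [← hq, _root_.map_zero])
  obtain ⟨c, hc⟩ := valuation_rat A hA Nat.prime_two q hq0
  rw [hq, Nat.cast_ofNat] at hc
  -- `x` is a node point
  have hxm : A.valuation x < 1 := by
    obtain ⟨x', y', h', h1, hx'⟩ := hnode 1 (by
      intro hd
      have := Nat.le_of_dvd one_pos hd
      omega)
    rw [one_nsmul, hQxy] at h1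
    rw [(Point.some.inj h1).1]
    exact A.mem_nonunits_iff.mp hx'
  -- the valuation of `a₄`
  have hb := valuation_intCast A hA Nat.prime_two P.b P.hb0
  rw [Nat.cast_ofNat] at hb
  have hva4 : A.valuation (EQb P).a₄ * A.valuation (2 : Qb) ^ 4 =
      A.valuation (2 : Qb) ^ (padicValInt 2 P.b * P.p) := by
    have h16 := freyInt_a₄ P
    have hcast : (16 : Qb) * (EQb P).a₄ =
        -(((P.a ^ P.p : ℤ) : Qb) * ((P.b : ℤ) : Qb) ^ P.p) := by
      rw [coe_a₄]
      exact_mod_cast congrArg (Int.cast : ℤ → Qb) h16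
    have hv := congrArg A.valuation hcast
    rw [map_mul, Valuation.map_neg, map_mul, map_pow, val_int_odd A hA (frey_a_pow_odd P),
      one_mul, hb, show (16 : Qb) = 2 ^ 4 by norm_num, map_pow] at hv
    rw [mul_comm, hv, ← pow_mul]
  set e : ℤ := (padicValInt 2 P.b : ℤ) * P.p - 4 with he
  have hva4' : A.valuation (EQb P).a₄ = A.valuation (2 : Qb) ^ e := by
    rw [he, zpow_sub₀ ht0.ne', eq_div_iff (zpow_ne_zero _ ht0.ne'), ← Nat.cast_mul, zpow_natCast,
      show (4 : ℤ) = ((4 : ℕ) : ℤ) by norm_num, zpow_natCast]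
    exact hva4
  rw [hc, hva4'] at hlt hj
  rw [hc] at hxm
  have hce : c < e := (zpow_lt_zpow_iff_right_of_lt_one₀ ht0 ht1).mp hlt
  have hc0 : 0 < c := (zpow_lt_one_iff_right_of_lt_one₀ ht0 ht1).mp hxm
  have heq : c * (P.p : ℤ) = e * (2 * j) := by
    have h1 : A.valuation (2 : Qb) ^ (c * (P.p : ℤ)) = A.valuation (2 : Qb) ^ (e * (2 * j)) := by
      rw [zpow_mul, zpow_mul, zpow_natCast]
      exact hj
    exact zpow_right_injective₀ ht0 ht1.ne h1
  -- arithmetic
  have hpj : (P.p : ℤ) ∣ j := by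
    have h8 : (P.p : ℤ) ∣ 8 * j := by
      refine ⟨2 * j * (padicValInt 2 P.b : ℤ) - c, ?_⟩
      rw [he] at heq
      linear_combination heq
    have hcop : IsCoprime (P.p : ℤ) (8 : ℤ) := by
      have h2 : Nat.Coprime P.p 2 := (Nat.coprime_primes hp Nat.prime_two).mpr (by omega)
      have h8' : Nat.Coprime P.p 8 := by
        have h3 := Nat.Coprime.pow_right 3 h2
        simpa using h3
      exact_mod_cast Nat.isCoprime_iff_coprime.mpr h8'
    exact hcop.dvd_of_dvd_mul_left h8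
  obtain ⟨j', rfl⟩ := hpj
  have hp0 : (P.p : ℤ) ≠ 0 := by exact_mod_cast hp.ne_zero
  have hc2 : c = e * (2 * j') := by
    have h1 : c * (P.p : ℤ) = (e * (2 * j')) * (P.p : ℤ) := by rw [heq]; ring
    exact mul_right_cancel₀ hp0 h1
  rcases le_or_gt j' 0 with hj' | hj'
  · have h1 : e * (2 * j') ≤ 0 := by nlinarith
    linarith
  · have h1 : e * (2 * j') ≥ 2 * e := by nlinarith
    linarith

end Fermat.Agent.S13
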