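import Fermat.Agent.S13.Defs
import Fermat.Agent.S13.Torsion
import Fermat.Agent.S13.T2a
import Fermat.Agent.S13.T2b
import Fermat.Agent.S13.P01
import Fermat.Agent.S13.P2
import Fermat.Agent.S13.P3
import Fermat.Agent.S13.Mink
import Fermat.Agent.S13.S05Iface

/-! # Glue (task GLUE): linear algebra + assembly

Inputs: `tors_nontrivial`, `tors_finite`, `tors_card_le` (so a stable `N ≠ ⊥, ⊤` is a line and `V/N`
is a line), `exists_valuationSubring_over`, `nonIntegral_submodule`, `exists_nonIntegral`,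
`card_dvd_of_all_nonIntegral`, `inertia_p_sub`, `inertia_two_sq`, `s05`, `mink`, `no_rational_torsion`.

Take `A` over `p`, `V1` the non-integral submodule: `V1 ≠ ⊥`, `V1 ≠ ⊤` (else `(p²-1)/2 ∣ #(N∖0) = p-1`).
Case `N = V1`: `H = {σ | ∀ v, σ•v - v ∈ N}` is normal, contains the stabiliser of the finite set of
all coordinates, inertia at `p` (P3), at 2 (`(σ-1)² = 0`), at odd `ℓ ≠ p` (S05); `mink` ⇒ `H = ⊤`.
Case `N ≠ V1`: `N ⊓ V1 = ⊥`; `H = {σ | ∀ v ∈ N, σ•v = v}`; `mink` ⇒ `N` is pointwise Galois-fixed,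
contradicting `no_rational_torsion`. -/

set_option autoImplicit false

open WeierstrassCurve WeierstrassCurve.Affine WeierstrassCurve.Affine.Point

namespace Fermat.Agent.S13.GLUE

section LinAlg

variable {p : ℕ} [Fact p.Prime] {V : Type*} [AddCommGroup V] [Module (ZMod p) V]

/-- A finite `ZMod p`-module with at most `p^2` elements has `finrank ≤ 2`. -/
theorem finrank_le_two [Finite V] (hcard : Nat.card V ≤ p ^ 2) :
    Module.finrank (ZMod p) V ≤ 2 := by
  have hp : p.Prime := Fact.out
  have h1 : Nat.card V = p ^ Module.finrank (ZMod p) V := by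
    have := Module.natCard_eq_pow_finrank (K := ZMod p) (V := V)
    simpa [Nat.card_eq_fintype_card, ZMod.card] using this
  rw [h1] at hcard
  exact (Nat.pow_le_pow_iff_right hp.one_lt).mp hcard

/-- A proper nonzero submodule of a module of `finrank ≤ 2` is a line in a plane. -/
theorem finrank_of_ne_bot_of_ne_top [Finite V] (hV : Module.finrank (ZMod p) V ≤ 2)
    (N : Submodule (ZMod p) V) (hbot : N ≠ ⊥) (htop : N ≠ ⊤) :
    Module.finrank (ZMod p) N = 1 ∧ Module.finrank (ZMod p) V = 2 := by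
  have : Module.Finite (ZMod p) V := Module.Finite.of_finite
  have h1 : 0 < Module.finrank (ZMod p) N := by
    rw [Module.finrank_pos_iff_exists_ne_zero]
    obtain ⟨x, hx, hx0⟩ := (Submodule.ne_bot_iff N).mp hbot
    exact ⟨⟨x, hx⟩, fun h => hx0 (congrArg Subtype.val h)⟩
  have h2 : Module.finrank (ZMod p) N < Module.finrank (ZMod p) V :=
    Submodule.finrank_lt htop
  omega

/-- Two lines in a plane are equal or meet trivially. -/
theorem eq_or_inf_eq_bot [Finite V] (N M : Submodule (ZMod p) V)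
    (hN : Module.finrank (ZMod p) N = 1) (hM : Module.finrank (ZMod p) M = 1) :
    N = M ∨ N ⊓ M = ⊥ := by
  have : Module.Finite (ZMod p) V := Module.Finite.of_finite
  by_cases h : N ⊓ M = ⊥
  · exact Or.inr h
  · left
    have h1 : 0 < Module.finrank (ZMod p) (N ⊓ M : Submodule (ZMod p) V) := by
      rw [Module.finrank_pos_iff_exists_ne_zero]
      obtain ⟨x, hx, hx0⟩ := (Submodule.ne_bot_iff _).mp h
      exact ⟨⟨x, hx⟩, fun h => hx0 (congrArg Subtype.val h)⟩
    have hN' : N ⊓ M = N :=
      Submodule.eq_of_le_of_finrank_le inf_le_left (by omega)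
    have hM' : N ⊓ M = M :=
      Submodule.eq_of_le_of_finrank_le inf_le_right (by omega)
    rw [← hN', hM']

/-- A line is spanned by any of its nonzero vectors. -/
theorem exists_smul_eq_of_finrank_one [Finite V] (N : Submodule (ZMod p) V)
    (hN : Module.finrank (ZMod p) N = 1) {n₀ : V} (hn₀ : n₀ ∈ N) (h0 : n₀ ≠ 0)
    {n : V} (hn : n ∈ N) : ∃ c : ZMod p, n = c • n₀ := by
  have : Module.Finite (ZMod p) V := Module.Finite.of_finite
  have hspan : (ZMod p ∙ n₀) = N := by
    apply Submodule.eq_of_le_of_finrank_le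
    · rw [Submodule.span_singleton_le_iff_mem]; exact hn₀
    · rw [hN, finrank_span_singleton h0]
  rw [← hspan] at hn
  obtain ⟨c, hc⟩ := Submodule.mem_span_singleton.mp hn
  exact ⟨c, hc.symm⟩

/-- Additive maps between `ZMod p`-modules are linear. -/
theorem map_zmod_smul (g : V →+ V) (c : ZMod p) (v : V) : g (c • v) = c • g v := by
  have hp : p.Prime := Fact.out
  have : NeZero p := ⟨hp.ne_zero⟩
  have hc : c = ((c.val : ℕ) : ZMod p) := (ZMod.natCast_zmod_val c).symm
  rw [hc, Nat.cast_smul_eq_nsmul, Nat.cast_smul_eq_nsmul, map_nsmul]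

/-- Unipotent additive endomorphisms of a plane preserving a line: `f = g - 1` with `f ∘ f = 0`
kills the line and maps the plane into the line. -/
theorem unipotent_aux [Finite V] (hV : Module.finrank (ZMod p) V = 2)
    (N : Submodule (ZMod p) V) (hN : Module.finrank (ZMod p) N = 1)
    (g : V →+ V) (hgN : ∀ n ∈ N, g n ∈ N) (hsq : ∀ v, g (g v - v) = g v - v) :
    (∀ n ∈ N, g n = n) ∧ ∀ v, g v - v ∈ N := by
  have : Module.Finite (ZMod p) V := Module.Finite.of_finite
  -- a nonzero vector of N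
  obtain ⟨n₀, hn₀, hn₀0⟩ : ∃ n₀ ∈ N, n₀ ≠ 0 := by
    have h1 : 0 < Module.finrank (ZMod p) N := by omega
    rw [Module.finrank_pos_iff_exists_ne_zero] at h1
    obtain ⟨x, hx⟩ := h1
    exact ⟨x.1, x.2, fun h => hx (Subtype.ext h)⟩
  have hfix0 : g n₀ = n₀ := by
    obtain ⟨c, hc⟩ := exists_smul_eq_of_finrank_one N hN hn₀ hn₀0 (hgN n₀ hn₀)
    have h2 := hsq n₀
    have e1 : c • n₀ - n₀ = (c - 1) • n₀ := by rw [sub_smul, one_smul]
    rw [hc, e1, map_zmod_smul, hc, ← mul_smul] at h2
    have h3 : ((c - 1) * (c - 1)) • n₀ = 0 := by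
      have : ((c - 1) * (c - 1)) • n₀ = ((c - 1) * c) • n₀ - (c - 1) • n₀ := by
        rw [← sub_smul]; congr 1; ring
      rw [this, h2, sub_self]
    rcases smul_eq_zero.mp h3 with h4 | h4
    · have h5 : c - 1 = 0 := by
        rcases mul_eq_zero.mp h4 with h | h <;> exact h
      rw [hc, sub_eq_zero.mp h5, one_smul]
    · exact absurd h4 hn₀0
  have hfix : ∀ n ∈ N, g n = n := by
    intro n hn
    obtain ⟨c, hc⟩ := exists_smul_eq_of_finrank_one N hN hn₀ hn₀0 hn
    rw [hc, map_zmod_smul, hfix0]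
  refine ⟨hfix, ?_⟩
  intro v
  by_contra hw
  set w := g v - v with hwdef
  have hgw : g w = w := hsq v
  -- V = N ⊔ span {w}
  have htop : N ⊔ (ZMod p ∙ w) = ⊤ := by
    apply Submodule.eq_top_of_finrank_eq
    have hlt : N < N ⊔ (ZMod p ∙ w) := by
      apply lt_of_le_of_ne le_sup_left
      intro heq
      apply hw
      have : w ∈ N ⊔ (ZMod p ∙ w) :=
        Submodule.mem_sup_right (Submodule.mem_span_singleton_self w)
      rw [← heq] at this
      exact this
    have h1 := Submodule.finrank_lt_finrank_of_lt hlt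
    have h2 := Submodule.finrank_le (N ⊔ (ZMod p ∙ w))
    omega
  have hv : v ∈ N ⊔ (ZMod p ∙ w) := by rw [htop]; trivial
  obtain ⟨n, hn, z, hz, hnz⟩ := Submodule.mem_sup.mp hv
  obtain ⟨a, rfl⟩ := Submodule.mem_span_singleton.mp hz
  have : w = 0 := by
    rw [hwdef, ← hnz, map_add, map_zmod_smul, hgw, hfix n hn, sub_self]
  exact hw (this ▸ N.zero_mem)

end LinAlg


/-! ### Coordinates of torsion points and the finite set they form -/

section Coord

variable {P : FreyPackage}

/-- x-coordinate of a point (junk value `0` at infinity). -/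
noncomputable def ptX : (EQb P).Point → Qb
  | .zero => 0
  | .some x _ _ => x

/-- y-coordinate of a point (junk value `0` at infinity). -/
noncomputable def ptY : (EQb P).Point → Qb
  | .zero => 0
  | .some _ y _ => y

/-- An automorphism fixing both coordinates of a torsion point fixes the point. -/
theorem smul_eq_self_of_fix (σ : GQ) (v : Tors P)
    (hx : σ (ptX (v : (EQb P).Point)) = ptX (v : (EQb P).Point))
    (hy : σ (ptY (v : (EQb P).Point)) = ptY (v : (EQb P).Point)) : σ • v = v := by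
  apply Subtype.ext
  rcases hv : (v : (EQb P).Point) with _ | ⟨x, y, h⟩
  · exact smul_coe_zero σ v hv
  · obtain ⟨h', hh'⟩ := smul_coe_some σ v hv
    rw [hv] at hx hy
    simp only [ptX, ptY] at hx hy
    rw [hh']
    simp only [Point.some.injEq]
    exact ⟨hx, hy⟩

end Coord

/-! ### The two normal subgroups -/

section Subgroups

variable (P : FreyPackage)

/-- The Galois action of `σ` on the torsion module as an additive map. -/
noncomputable def actHom (σ : GQ) : Tors P →+ Tors P :=
  DistribSMul.toAddMonoidHom (Tors P) σ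

theorem actHom_apply (σ : GQ) (v : Tors P) : actHom P σ v = σ • v := rfl

variable {P}

/-- The subgroup of automorphisms acting trivially on `V/N`. -/
def subQ (N : Submodule (ZMod P.p) (Tors P)) (hN : IsGaloisStable ℚ N) : Subgroup GQ where
  carrier := {σ | ∀ v : Tors P, σ • v - v ∈ N}
  one_mem' := by
    intro v
    simp
  mul_mem' := by
    intro σ τ hσ hτ v
    have h : (σ * τ) • v - v = σ • (τ • v - v) + (σ • v - v) := by
      rw [mul_smul, smul_sub]; abel
    rw [h]
    exact N.add_mem (hN σ _ (hτ v)) (hσ v)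
  inv_mem' := by
    intro σ hσ v
    have h : σ⁻¹ • v - v = -(σ⁻¹ • (σ • v - v)) := by
      rw [smul_sub, inv_smul_smul]; abel
    rw [h]
    exact N.neg_mem (hN σ⁻¹ _ (hσ v))

theorem mem_subQ {N : Submodule (ZMod P.p) (Tors P)} {hN : IsGaloisStable ℚ N} {σ : GQ} :
    σ ∈ subQ N hN ↔ ∀ v : Tors P, σ • v - v ∈ N := Iff.rfl

theorem subQ_normal (N : Submodule (ZMod P.p) (Tors P)) (hN : IsGaloisStable ℚ N) :
    (subQ N hN).Normal := by
  refine ⟨fun σ hσ τ => ?_⟩
  rw [mem_subQ] at hσ ⊢
  intro v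
  have h : (τ * σ * τ⁻¹) • v - v = τ • (σ • (τ⁻¹ • v) - τ⁻¹ • v) := by
    rw [mul_smul, mul_smul, smul_sub, smul_inv_smul]
  rw [h]
  exact hN τ _ (hσ _)

/-- The subgroup of automorphisms fixing `N` pointwise. -/
def subN (N : Submodule (ZMod P.p) (Tors P)) : Subgroup GQ where
  carrier := {σ | ∀ v ∈ N, σ • v = v}
  one_mem' := by
    intro v _
    simp
  mul_mem' := by
    intro σ τ hσ hτ v hv
    rw [mul_smul, hτ v hv, hσ v hv]
  inv_mem' := by
    intro σ hσ v hv
    rw [inv_smul_eq_iff, hσ v hv]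

theorem mem_subN {N : Submodule (ZMod P.p) (Tors P)} {σ : GQ} :
    σ ∈ subN N ↔ ∀ v ∈ N, σ • v = v := Iff.rfl

theorem subN_normal (N : Submodule (ZMod P.p) (Tors P)) (hN : IsGaloisStable ℚ N) :
    (subN N).Normal := by
  refine ⟨fun σ hσ τ => ?_⟩
  rw [mem_subN] at hσ ⊢
  intro v hv
  rw [mul_smul, mul_smul, hσ _ (hN τ⁻¹ v hv), smul_inv_smul]

end Subgroups

/-! ### Counting -/

section Count

variable {P : FreyPackage}

/-- The number of nonzero elements of a line. -/
theorem card_line_erase [Fact P.p.Prime] [Fintype (Tors P)] [DecidableEq (Tors P)]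
    (N : Submodule (ZMod P.p) (Tors P)) [DecidablePred (· ∈ N)]
    (hN1 : Module.finrank (ZMod P.p) N = 1) :
    ((Finset.univ.filter (· ∈ N)).erase (0 : Tors P)).card = P.p - 1 := by
  have h0 : (0 : Tors P) ∈ Finset.univ.filter (· ∈ N) := by
    simp
  rw [Finset.card_erase_of_mem h0]
  congr 1
  have h1 : Nat.card N = P.p ^ Module.finrank (ZMod P.p) N := by
    have := Module.natCard_eq_pow_finrank (K := ZMod P.p) (V := N)
    simpa [Nat.card_eq_fintype_card, ZMod.card] using this
  rw [hN1, pow_one] at h1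
  calc (Finset.univ.filter (· ∈ N)).card = Fintype.card N := (Fintype.card_subtype _).symm
    _ = Nat.card N := Nat.card_eq_fintype_card.symm
    _ = P.p := h1

end Count

/-! ### Assembly -/

theorem glue_main (P : FreyPackage)
    (hred : ¬ GaloisRepIsIrreducible (K := AlgebraicClosure ℚ) ℚ P.freyCurve P.p) :
    HasGaloisStableCofixedLine (K := AlgebraicClosure ℚ) ℚ P.freyCurve P.p := by
  classical
  have : Fact P.p.Prime := ⟨P.pp⟩
  have hp5 := P.hp5
  have : Finite (Tors P) := tors_finite P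
  let _ : Fintype (Tors P) := Fintype.ofFinite _
  -- the stable submodule given by reducibility
  obtain ⟨N, hNst, hNbot, hNtop⟩ : ∃ N : Submodule (ZMod P.p) (Tors P),
      IsGaloisStable ℚ N ∧ N ≠ ⊥ ∧ N ≠ ⊤ := by
    by_contra hcon
    apply hred
    refine ⟨tors_nontrivial P, fun N hN => ?_⟩
    by_contra h
    exact hcon ⟨N, hN, fun h1 => h (Or.inl h1), fun h2 => h (Or.inr h2)⟩
  have hV2 : Module.finrank (ZMod P.p) (Tors P) ≤ 2 := finrank_le_two (tors_card_le P)
  obtain ⟨hN1, hV⟩ := finrank_of_ne_bot_of_ne_top hV2 N hNbot hNtop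
  -- the finite set of all coordinates
  set S : Finset Qb :=
    (Finset.univ.image fun v : Tors P => ptX (v : (EQb P).Point)) ∪
      (Finset.univ.image fun v : Tors P => ptY (v : (EQb P).Point)) with hSdef
  have hSfix : ∀ σ : GQ, (∀ s ∈ S, σ s = s) → ∀ v : Tors P, σ • v = v := by
    intro σ hσ v
    apply smul_eq_self_of_fix
    · apply hσ
      rw [hSdef]
      exact Finset.mem_union_left _ (Finset.mem_image_of_mem _ (Finset.mem_univ v))
    · apply hσ
      rw [hSdef]
      exact Finset.mem_union_right _ (Finset.mem_image_of_mem _ (Finset.mem_univ v))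
  -- inertia at 2 is unipotent
  obtain ⟨A2, hA2⟩ := exists_valuationSubring_over 2 Nat.prime_two
  have h2 : ∀ σ ∈ A2.inertiaSubgroupIn ℚ,
      (∀ n ∈ N, σ • n = n) ∧ ∀ v : Tors P, σ • v - v ∈ N := by
    intro σ hσ
    exact unipotent_aux hV N hN1 (actHom P σ) (fun n hn => hNst σ n hn)
      (fun v => inertia_two_sq P A2 hA2 σ hσ v)
  -- odd primes different from p: S05
  have hodd : ∀ ℓ : ℕ, ℓ.Prime → ℓ ≠ 2 → ℓ ≠ P.p →
      ∃ A' : ValuationSubring Qb, A'.LiesOverPrime ℓ ∧
        ∀ σ ∈ A'.inertiaSubgroupIn ℚ, ∀ v : Tors P, σ • v = v := by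
    intro ℓ hℓ hℓ2 hℓp
    obtain ⟨A', hA'⟩ := exists_valuationSubring_over ℓ hℓ
    exact ⟨A', hA', fun σ hσ v => s05 P hℓ hℓ2 hℓp A' hA' σ hσ v⟩
  -- local data at p
  obtain ⟨A, hA⟩ := exists_valuationSubring_over P.p P.pp
  obtain ⟨V1, hV1⟩ := nonIntegral_submodule P A hA
  have hV1bot : V1 ≠ ⊥ := by
    obtain ⟨v, hv0, hv⟩ := exists_nonIntegral P A hA
    intro h
    have hmem : v ∈ V1 := (hV1 v).mpr hv
    rw [h, Submodule.mem_bot] at hmem
    exact hv0 hmem
  have hV1top : V1 ≠ ⊤ := by
    intro h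
    have hall : ∀ v : Tors P, NonIntegral A v := fun v => (hV1 v).mp (h ▸ Submodule.mem_top)
    have hdvd := card_dvd_of_all_nonIntegral P A hA hall
      ((Finset.univ.filter (· ∈ N)).erase (0 : Tors P)) (Finset.notMem_erase _ _)
      (by
        intro σ v hv
        rw [Finset.mem_erase, Finset.mem_filter] at hv ⊢
        refine ⟨?_, Finset.mem_univ _, hNst σ v hv.2.2⟩
        intro h0
        apply hv.1
        have := congrArg (fun w => σ⁻¹ • w) h0
        simpa using this)
    rw [card_line_erase N hN1] at hdvd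
    have hle := Nat.le_of_dvd (by omega) hdvd
    have hsq : 5 * P.p ≤ P.p ^ 2 := by nlinarith
    have : P.p - 1 < (P.p ^ 2 - 1) / 2 := by
      rw [Nat.lt_div_iff_mul_lt (by norm_num)]
      omega
    omega
  obtain ⟨hV11, -⟩ := finrank_of_ne_bot_of_ne_top hV2 V1 hV1bot hV1top
  rcases eq_or_inf_eq_bot N V1 hN1 hV11 with hEq | hInf
  · -- `N` is the kernel of reduction at `p`: `N` is a cofixed line
    have hH : subQ N hNst = ⊤ := by
      refine mink (subQ N hNst) (subQ_normal N hNst) S ?_ ?_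
      · intro σ hσ
        rw [mem_subQ]
        intro v
        rw [hSfix σ hσ v, sub_self]
        exact N.zero_mem
      · intro ℓ hℓ
        by_cases hℓp : ℓ = P.p
        · subst hℓp
          refine ⟨A, hA, fun σ hσ => ?_⟩
          rw [mem_subQ]
          intro v
          rw [hEq]
          exact (hV1 _).mpr (inertia_p_sub P A hA σ hσ v)
        · by_cases hℓ2 : ℓ = 2
          · subst hℓ2
            exact ⟨A2, hA2, fun σ hσ => mem_subQ.mpr (h2 σ hσ).2⟩
          · obtain ⟨A', hA', hfix⟩ := hodd ℓ hℓ hℓ2 hℓp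
            refine ⟨A', hA', fun σ hσ => ?_⟩
            rw [mem_subQ]
            intro v
            rw [hfix σ hσ v, sub_self]
            exact N.zero_mem
    refine ⟨N, hNst, hNbot, hNtop, fun σ x => ?_⟩
    have hσ : σ ∈ subQ N hNst := by rw [hH]; exact Subgroup.mem_top σ
    exact mem_subQ.mp hσ x
  · -- `N` meets the kernel of reduction trivially: `N` would be rational
    exfalso
    have hH : subN N = ⊤ := by
      refine mink (subN N) (subN_normal N hNst) S ?_ ?_
      · intro σ hσ
        rw [mem_subN]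
        intro v _
        exact hSfix σ hσ v
      · intro ℓ hℓ
        by_cases hℓp : ℓ = P.p
        · subst hℓp
          refine ⟨A, hA, fun σ hσ => ?_⟩
          rw [mem_subN]
          intro v hv
          have h1 : σ • v - v ∈ N := N.sub_mem (hNst σ v hv) hv
          have h3 : σ • v - v ∈ V1 := (hV1 _).mpr (inertia_p_sub P A hA σ hσ v)
          have h4 : σ • v - v ∈ N ⊓ V1 := Submodule.mem_inf.mpr ⟨h1, h3⟩
          rw [hInf, Submodule.mem_bot] at h4
          exact sub_eq_zero.mp h4
        · by_cases hℓ2 : ℓ = 2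
          · subst hℓ2
            exact ⟨A2, hA2, fun σ hσ => mem_subN.mpr (h2 σ hσ).1⟩
          · obtain ⟨A', hA', hfix⟩ := hodd ℓ hℓ hℓ2 hℓp
            exact ⟨A', hA', fun σ hσ => mem_subN.mpr fun v _ => hfix σ hσ v⟩
    obtain ⟨n₀, hn₀, hn₀0⟩ := (Submodule.ne_bot_iff N).mp hNbot
    apply hn₀0
    apply no_rational_torsion P n₀
    intro σ
    have hσ : σ ∈ subN N := by rw [hH]; exact Subgroup.mem_top σ
    exact mem_subN.mp hσ n₀ hn₀

end Fermat.Agent.S13.GLUE

namespace Fermat.Agent.S13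

theorem glue (P : FreyPackage)
    (hred : ¬ GaloisRepIsIrreducible (K := AlgebraicClosure ℚ) ℚ P.freyCurve P.p) :
    HasGaloisStableCofixedLine (K := AlgebraicClosure ℚ) ℚ P.freyCurve P.p :=
  GLUE.glue_main P hred

end Fermat.Agent.S13
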