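import Fermat.Statements.S13

set_option autoImplicit false

open WeierstrassCurve WeierstrassCurve.Affine WeierstrassCurve.Affine.Point

namespace Fermat.Agent.S13

/-- `ℚ̄`. -/
abbrev Qb : Type := AlgebraicClosure ℚ

/-- The absolute Galois group of `ℚ`. -/
abbrev GQ : Type := Qb ≃ₐ[ℚ] Qb

/-- The Frey curve base-changed to `ℚ̄`. -/
noncomputable abbrev EQb (P : FreyPackage) : Affine Qb := P.freyCurve⁄Qb

/-- The `p`-torsion of the Frey curve over `ℚ̄` (exactly the module of the frozen statement). -/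
abbrev Tors (P : FreyPackage) : Type := Submodule.torsionBy ℤ (EQb P).Point (P.p : ℤ)

/-- `v` is zero or its x-coordinate is not in the valuation subring `A`
(i.e. `v` is in the kernel of reduction at `A`). -/
def NonIntegral (A : ValuationSubring Qb) {P : FreyPackage} (v : Tors P) : Prop :=
  ∀ (x y : Qb) (h : (EQb P).Nonsingular x y), (v : (EQb P).Point) = Point.some x y h → x ∉ A

example (P : FreyPackage) :
    HasGaloisStableCofixedLine (K := AlgebraicClosure ℚ) ℚ P.freyCurve P.p ↔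
      ∃ N : Submodule (ZMod P.p) (Tors P), IsGaloisStable ℚ N ∧ N ≠ ⊥ ∧ N ≠ ⊤ ∧
        ∀ σ : GQ, ∀ x : Tors P, σ • x - x ∈ N := Iff.rfl

example (P : FreyPackage) :
    GaloisRepIsIrreducible (K := AlgebraicClosure ℚ) ℚ P.freyCurve P.p ↔
      (Nontrivial (Tors P) ∧ ∀ N : Submodule (ZMod P.p) (Tors P), IsGaloisStable ℚ N → N = ⊥ ∨ N = ⊤) :=
  Iff.rfl

example (P : FreyPackage) (q : ℕ) : P.GaloisRepUnramifiedAt q ↔
    ∀ A : ValuationSubring Qb, A.LiesOverPrime q → ∀ σ ∈ A.inertiaSubgroupIn ℚ, ∀ x : Tors P, σ • x = x :=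
  Iff.rfl

end Fermat.Agent.S13
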